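import Mathlib.NumberTheory.ModularForms.QExpansion
import Mathlib.NumberTheory.ModularForms.Basic

/-!
# S23, piece P9a: functions on the upper half plane that are holomorphic at `i∞` (period one)

`HolAtInfty f` bundles: `f ∘ ofComplex` is `1`-periodic, `f` is holomorphic on `ℍ`, and `f` is
bounded at `i∞`.  Such functions form a ring, and `qExpansion 1` is an injective ring
homomorphism on it.  Everything is about plain functions `ℍ → ℂ` (no weights).
-/

set_option autoImplicit false

namespace Fermat.Agent.S23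

open UpperHalfPlane Filter
open scoped MatrixGroups ModularForm Manifold Topology

/-- `f : ℍ → ℂ` is `1`-periodic, holomorphic and bounded at `i∞`. -/
structure HolAtInfty (f : ℍ → ℂ) : Prop where
  per : Function.Periodic (f ∘ ofComplex) 1
  hol : MDiff f
  bdd : IsBoundedAtImInfty f

namespace HolAtInfty

variable {f g : ℍ → ℂ}

theorem analyticAt (hf : HolAtInfty f) : AnalyticAt ℂ (cuspFunction 1 f) 0 :=
  analyticAt_cuspFunction_zero one_pos hf.per hf.hol hf.bdd

theorem continuousAt (hf : HolAtInfty f) : ContinuousAt (cuspFunction 1 f) 0 :=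
  hf.analyticAt.continuousAt

theorem const (c : ℂ) : HolAtInfty (fun _ : ℍ => c) where
  per := fun _ => rfl
  hol := mdifferentiable_const
  bdd := Filter.const_boundedAtFilter _ c

theorem zero : HolAtInfty (0 : ℍ → ℂ) := const 0

theorem one : HolAtInfty (1 : ℍ → ℂ) := const 1

theorem add (hf : HolAtInfty f) (hg : HolAtInfty g) : HolAtInfty (f + g) where
  per := fun w => by
    have h1 := hf.per w
    have h2 := hg.per w
    simp only [Function.comp_apply, Pi.add_apply] at h1 h2 ⊢
    rw [h1, h2]
  hol := hf.hol.add hg.hol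
  bdd := hf.bdd.add hg.bdd

theorem neg (hf : HolAtInfty f) : HolAtInfty (-f) where
  per := fun w => by
    have h1 := hf.per w
    simp only [Function.comp_apply, Pi.neg_apply] at h1 ⊢
    rw [h1]
  hol := hf.hol.neg
  bdd := hf.bdd.neg

theorem sub (hf : HolAtInfty f) (hg : HolAtInfty g) : HolAtInfty (f - g) := by
  rw [sub_eq_add_neg]
  exact hf.add hg.neg

theorem mul (hf : HolAtInfty f) (hg : HolAtInfty g) : HolAtInfty (f * g) where
  per := fun w => by
    have h1 := hf.per w
    have h2 := hg.per w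
    simp only [Function.comp_apply, Pi.mul_apply] at h1 h2 ⊢
    rw [h1, h2]
  hol := hf.hol.mul hg.hol
  bdd := hf.bdd.mul hg.bdd

theorem smul (c : ℂ) (hf : HolAtInfty f) : HolAtInfty (c • f) := by
  have : c • f = (fun _ : ℍ => c) * f := by
    ext z
    simp
  rw [this]
  exact (const c).mul hf

theorem pow (hf : HolAtInfty f) (n : ℕ) : HolAtInfty (f ^ n) := by
  induction n with
  | zero => simpa using one
  | succ n ih =>
    rw [pow_succ]
    exact ih.mul hf

theorem sum {ι : Type*} (s : Finset ι) {F : ι → ℍ → ℂ} (hF : ∀ i ∈ s, HolAtInfty (F i)) :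
    HolAtInfty (∑ i ∈ s, F i) := by
  classical
  induction s using Finset.induction_on with
  | empty => simpa using zero
  | insert a s ha ih =>
    rw [Finset.sum_insert ha]
    exact (hF a (Finset.mem_insert_self a s)).add
      (ih fun i hi => hF i (Finset.mem_insert_of_mem hi))

theorem prod {ι : Type*} (s : Finset ι) {F : ι → ℍ → ℂ} (hF : ∀ i ∈ s, HolAtInfty (F i)) :
    HolAtInfty (∏ i ∈ s, F i) := by
  classical
  induction s using Finset.induction_on with
  | empty => simpa using one
  | insert a s ha ih =>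
    rw [Finset.prod_insert ha]
    exact (hF a (Finset.mem_insert_self a s)).mul
      (ih fun i hi => hF i (Finset.mem_insert_of_mem hi))

/-- Pointwise-`fun` forms, convenient when the function is given by a lambda. -/
theorem add' (hf : HolAtInfty f) (hg : HolAtInfty g) : HolAtInfty (fun z => f z + g z) :=
  hf.add hg

theorem mul' (hf : HolAtInfty f) (hg : HolAtInfty g) : HolAtInfty (fun z => f z * g z) :=
  hf.mul hg

theorem sub' (hf : HolAtInfty f) (hg : HolAtInfty g) : HolAtInfty (fun z => f z - g z) :=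
  hf.sub hg

theorem neg' (hf : HolAtInfty f) : HolAtInfty (fun z => -f z) := hf.neg

theorem smul' (c : ℂ) (hf : HolAtInfty f) : HolAtInfty (fun z => c * f z) := by
  have := hf.smul c
  exact this

theorem pow' (hf : HolAtInfty f) (n : ℕ) : HolAtInfty (fun z => f z ^ n) := hf.pow n

theorem sum' {ι : Type*} (s : Finset ι) {F : ι → ℍ → ℂ} (hF : ∀ i ∈ s, HolAtInfty (F i)) :
    HolAtInfty (fun z => ∑ i ∈ s, F i z) := by
  have h := sum s hF
  have : (fun z => ∑ i ∈ s, F i z) = ∑ i ∈ s, F i := by
    ext z
    simp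
  rw [this]
  exact h

theorem prod' {ι : Type*} (s : Finset ι) {F : ι → ℍ → ℂ} (hF : ∀ i ∈ s, HolAtInfty (F i)) :
    HolAtInfty (fun z => ∏ i ∈ s, F i z) := by
  have h := prod s hF
  have : (fun z => ∏ i ∈ s, F i z) = ∏ i ∈ s, F i := by
    ext z
    simp
  rw [this]
  exact h

/-- The function tends to the value of its cusp function at `0`. -/
theorem tendsto_atImInfty (hf : HolAtInfty f) :
    Tendsto f atImInfty (𝓝 (cuspFunction 1 f 0)) := by
  have h1 : (cuspFunction 1 f ∘ fun τ : ℍ => Function.Periodic.qParam 1 τ : ℍ → ℂ) = f := by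
    funext τ
    simpa using eq_cuspFunction τ one_ne_zero hf.per
  have h2 := hf.continuousAt.tendsto.comp (qParam_tendsto_atImInfty one_pos)
  rwa [h1] at h2

theorem qExpansion_coeff_zero_eq (f : ℍ → ℂ) :
    (qExpansion 1 f).coeff 0 = cuspFunction 1 f 0 := by
  simp [qExpansion_coeff]

theorem isZeroAtImInfty_iff (hf : HolAtInfty f) :
    IsZeroAtImInfty f ↔ (qExpansion 1 f).coeff 0 = 0 := by
  rw [qExpansion_coeff_zero_eq f]
  constructor
  · intro h
    exact tendsto_nhds_unique hf.tendsto_atImInfty h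
  · intro h
    have := hf.tendsto_atImInfty
    rw [h] at this
    exact this

theorem eq_zero_of_qExpansion (hf : HolAtInfty f) (h0 : qExpansion 1 f = 0) : f = 0 :=
  (qExpansion_eq_zero_iff one_pos hf.per hf.hol hf.bdd).mp h0

/-- Two functions holomorphic at `i∞` with the same `q`-expansion are equal. -/
theorem eq_of_qExpansion_eq (hf : HolAtInfty f) (hg : HolAtInfty g)
    (h : qExpansion 1 f = qExpansion 1 g) : f = g := by
  have h1 : qExpansion 1 (f - g) = 0 := by
    rw [qExpansion_sub hf.analyticAt hg.analyticAt, h, sub_self]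
  exact sub_eq_zero.mp ((hf.sub hg).eq_zero_of_qExpansion h1)

theorem of_modularFormClass {F : Type*} [FunLike F ℍ ℂ] {Γ : Subgroup (GL (Fin 2) ℝ)} {k : ℤ}
    [ModularFormClass F Γ k] (h1 : (1 : ℝ) ∈ Γ.strictPeriods) (f : F) : HolAtInfty (f : ℍ → ℂ) :=
  haveI : Fact (IsCusp OnePoint.infty Γ) := ⟨Γ.isCusp_of_mem_strictPeriods one_pos h1⟩
  { per := SlashInvariantFormClass.periodic_comp_ofComplex f h1
    hol := ModularFormClass.holo f
    bdd := ModularFormClass.bdd_at_infty f }

theorem of_modularForm {Γ : Subgroup (GL (Fin 2) ℝ)} {k : ℤ}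
    (h1 : (1 : ℝ) ∈ Γ.strictPeriods) (f : ModularForm Γ k) : HolAtInfty (f : ℍ → ℂ) :=
  of_modularFormClass h1 f

theorem of_cuspForm {Γ : Subgroup (GL (Fin 2) ℝ)} {k : ℤ}
    (h1 : (1 : ℝ) ∈ Γ.strictPeriods) (f : CuspForm Γ k) : HolAtInfty (f : ℍ → ℂ) :=
  of_modularFormClass h1 f

end HolAtInfty

/-! ### `qExpansion 1` is a ring homomorphism on functions holomorphic at `i∞` -/

section qExpansion

variable {f g : ℍ → ℂ}

theorem qExpansion_add' (hf : HolAtInfty f) (hg : HolAtInfty g) :
    qExpansion 1 (f + g) = qExpansion 1 f + qExpansion 1 g :=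
  qExpansion_add hf.analyticAt hg.analyticAt

theorem qExpansion_mul' (hf : HolAtInfty f) (hg : HolAtInfty g) :
    qExpansion 1 (f * g) = qExpansion 1 f * qExpansion 1 g :=
  qExpansion_mul hf.analyticAt hg.analyticAt

theorem qExpansion_sub' (hf : HolAtInfty f) (hg : HolAtInfty g) :
    qExpansion 1 (f - g) = qExpansion 1 f - qExpansion 1 g :=
  qExpansion_sub hf.analyticAt hg.analyticAt

theorem qExpansion_neg' (hf : HolAtInfty f) :
    qExpansion 1 (-f) = -qExpansion 1 f :=
  qExpansion_neg hf.analyticAt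

theorem qExpansion_smul' (c : ℂ) (hf : HolAtInfty f) :
    qExpansion 1 (c • f) = c • qExpansion 1 f :=
  qExpansion_smul hf.analyticAt c

theorem qExpansion_const' (c : ℂ) : qExpansion 1 (fun _ : ℍ => c) = PowerSeries.C c := by
  have h : (fun _ : ℍ => c) = c • (1 : ℍ → ℂ) := by
    ext z
    simp
  rw [h, qExpansion_smul' c HolAtInfty.one, qExpansion_one]
  ext n
  simp [PowerSeries.coeff_C, PowerSeries.coeff_one]

theorem qExpansion_pow' (hf : HolAtInfty f) (n : ℕ) :
    qExpansion 1 (f ^ n) = qExpansion 1 f ^ n := by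
  induction n with
  | zero => simpa using qExpansion_one 1
  | succ n ih => rw [pow_succ, pow_succ, qExpansion_mul' (hf.pow n) hf, ih]

theorem qExpansion_sum' {ι : Type*} (s : Finset ι) {F : ι → ℍ → ℂ}
    (hF : ∀ i ∈ s, HolAtInfty (F i)) :
    qExpansion 1 (∑ i ∈ s, F i) = ∑ i ∈ s, qExpansion 1 (F i) := by
  classical
  induction s using Finset.induction_on with
  | empty => simpa using qExpansion_zero 1
  | insert a s ha ih =>
    have hs : ∀ i ∈ s, HolAtInfty (F i) := fun i hi => hF i (Finset.mem_insert_of_mem hi)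
    rw [Finset.sum_insert ha, Finset.sum_insert ha,
      qExpansion_add' (hF a (Finset.mem_insert_self a s)) (HolAtInfty.sum s hs), ih hs]

theorem qExpansion_prod' {ι : Type*} (s : Finset ι) {F : ι → ℍ → ℂ}
    (hF : ∀ i ∈ s, HolAtInfty (F i)) :
    qExpansion 1 (∏ i ∈ s, F i) = ∏ i ∈ s, qExpansion 1 (F i) := by
  classical
  induction s using Finset.induction_on with
  | empty => simpa using qExpansion_one 1
  | insert a s ha ih =>
    have hs : ∀ i ∈ s, HolAtInfty (F i) := fun i hi => hF i (Finset.mem_insert_of_mem hi)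
    rw [Finset.prod_insert ha, Finset.prod_insert ha,
      qExpansion_mul' (hF a (Finset.mem_insert_self a s)) (HolAtInfty.prod s hs), ih hs]

end qExpansion

end Fermat.Agent.S23
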