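import Mathlib.FieldTheory.IsAlgClosed.Classification
import Mathlib.FieldTheory.AlgebraicClosure
import Mathlib.FieldTheory.Galois.Infinite
import Mathlib.RingTheory.AlgebraicIndependent.TranscendenceBasis
import Mathlib.RingTheory.AlgebraicIndependent.Transcendental
import Mathlib.Analysis.Complex.Polynomial.Basic

/-!
# Ring automorphisms of an algebraically closed field of characteristic zero fix only `ℚ`

Piece (6) of the S23 plan: if `x : ℂ` is fixed by every ring automorphism of `ℂ`, then `x` is
rational.  Everything is proved for an arbitrary algebraically closed field of characteristic `0`.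
-/

set_option autoImplicit false

open MvPolynomial

namespace Fermat.Agent.S23

section Extend

variable {B K ι : Type*} [Field B] [Field K] [Algebra B K] [IsAlgClosed K]

/-- Any ring automorphism of the polynomial ring on a transcendence basis extends to the
algebraically closed field. -/
theorem exists_ringEquiv_extending (v : ι → K) (hv : IsTranscendenceBasis B v)
    (e : MvPolynomial ι B ≃+* MvPolynomial ι B) :
    ∃ σ : K ≃+* K, ∀ p : MvPolynomial ι B, σ (aeval v p) = aeval v (e p) := by
  have : IsAlgClosure (Algebra.adjoin B (Set.range v)) K :=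
    IsAlgClosed.isAlgClosure_of_transcendence_basis v hv
  let e' : Algebra.adjoin B (Set.range v) ≃+* Algebra.adjoin B (Set.range v) :=
    hv.1.aevalEquiv.symm.toRingEquiv.trans (e.trans hv.1.aevalEquiv.toRingEquiv)
  refine ⟨IsAlgClosure.equivOfEquiv K K e', fun p => ?_⟩
  rw [← hv.1.algebraMap_aevalEquiv p, IsAlgClosure.equivOfEquiv_algebraMap,
    ← hv.1.algebraMap_aevalEquiv (e p)]
  congr 1
  simp [e']

end Extend

section Main

variable {K : Type*} [Field K] [CharZero K] [IsAlgClosed K]

/-- Transcendental case: some automorphism sends `x` to `x + 1`. -/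
theorem exists_ringEquiv_ne_of_transcendental {x : K} (hx : Transcendental ℚ x) :
    ∃ σ : K ≃+* K, σ x ≠ x := by
  classical
  have hs : AlgebraicIndepOn ℚ id ({x} : Set K) := by
    show AlgebraicIndependent ℚ (fun i : ({x} : Set K) => id (i : K))
    rw [algebraicIndependent_singleton_iff (⟨x, rfl⟩ : ({x} : Set K))]
    exact hx
  obtain ⟨t, hxt, ht⟩ := exists_isTranscendenceBasis_superset hs
  let i₀ : t := ⟨x, hxt rfl⟩
  -- the automorphism `X i₀ ↦ X i₀ + 1` of the polynomial ring
  let f : MvPolynomial t ℚ →ₐ[ℚ] MvPolynomial t ℚ :=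
    aeval fun i => if i = i₀ then X i + 1 else X i
  let g : MvPolynomial t ℚ →ₐ[ℚ] MvPolynomial t ℚ :=
    aeval fun i => if i = i₀ then X i - 1 else X i
  have hfg : f.comp g = AlgHom.id ℚ _ := by
    ext i
    by_cases hi : i = i₀ <;> simp [f, g, hi]
  have hgf : g.comp f = AlgHom.id ℚ _ := by
    ext i
    by_cases hi : i = i₀ <;> simp [f, g, hi]
  let e : MvPolynomial t ℚ ≃ₐ[ℚ] MvPolynomial t ℚ := AlgEquiv.ofAlgHom f g hfg hgf
  obtain ⟨σ, hσ⟩ := exists_ringEquiv_extending (B := ℚ) ((↑) : t → K) ht e.toRingEquiv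
  refine ⟨σ, ?_⟩
  have h1 : σ x = x + 1 := by
    have := hσ (X i₀)
    simpa [e, f, i₀] using this
  rw [h1]
  simp

/-- Algebraic case: a non-rational algebraic element is moved by an automorphism extending a
Galois automorphism of the algebraic closure of `ℚ` inside `K`. -/
theorem exists_ringEquiv_ne_of_isAlgebraic {x : K} (hx : IsAlgebraic ℚ x)
    (hxQ : x ∉ Set.range (algebraMap ℚ K)) : ∃ σ : K ≃+* K, σ x ≠ x := by
  classical
  let A := algebraicClosure ℚ K
  have hxA : x ∈ A := (mem_algebraicClosure_iff).2 hx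
  let xA : A := ⟨x, hxA⟩
  have hxA' : xA ∉ Set.range (algebraMap ℚ A) := by
    rintro ⟨r, hr⟩
    exact hxQ ⟨r, by simpa [xA] using congrArg (algebraMap A K) hr⟩
  have hA1 : IsAlgClosure ℚ A := algebraicClosure.isAlgClosure (F := ℚ) (E := K)
  have hA2 : IsGalois ℚ A := IsAlgClosure.isGalois ℚ A
  rw [InfiniteGalois.mem_range_algebraMap_iff_fixed] at hxA'
  push Not at hxA'
  obtain ⟨τ, hτ⟩ := hxA'
  obtain ⟨ι, v, hv⟩ := exists_isTranscendenceBasis' A K
  let e : MvPolynomial ι A ≃+* MvPolynomial ι A := MvPolynomial.mapEquiv ι τ.toRingEquiv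
  obtain ⟨σ, hσ⟩ := exists_ringEquiv_extending (B := A) v hv e
  refine ⟨σ, ?_⟩
  have h1 : σ x = (τ xA : K) := by
    have := hσ (C xA)
    simpa [e, xA] using this
  rw [h1]
  intro h
  exact hτ (Subtype.ext h)

/-- An element of an algebraically closed field of characteristic zero that is not rational is
moved by some ring automorphism. -/
theorem exists_ringEquiv_ne {x : K} (hx : x ∉ Set.range ((↑) : ℚ → K)) :
    ∃ σ : K ≃+* K, σ x ≠ x := by
  by_cases hx' : IsAlgebraic ℚ x
  · refine exists_ringEquiv_ne_of_isAlgebraic hx' ?_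
    rintro ⟨r, hr⟩
    exact hx ⟨r, by simpa using hr⟩
  · exact exists_ringEquiv_ne_of_transcendental hx'

/-- An element fixed by all ring automorphisms is rational. -/
theorem mem_range_ratCast_of_forall_ringEquiv {x : K} (h : ∀ σ : K ≃+* K, σ x = x) :
    ∃ r : ℚ, (r : K) = x := by
  by_contra hx
  obtain ⟨σ, hσ⟩ := exists_ringEquiv_ne (x := x) (by rintro ⟨r, hr⟩; exact hx ⟨r, hr⟩)
  exact hσ (h σ)

end Main

/-- Complex version: a complex number which is not rational is moved by a ring automorphism. -/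
theorem exists_ringAut_ne {x : ℂ} (hx : x ∉ Set.range ((↑) : ℚ → ℂ)) :
    ∃ σ : ℂ ≃+* ℂ, σ x ≠ x :=
  exists_ringEquiv_ne hx

/-- Complex version: a complex number fixed by all ring automorphisms of `ℂ` is rational. -/
theorem mem_range_ratCast_of_forall_ringAut {x : ℂ} (h : ∀ σ : ℂ ≃+* ℂ, σ x = x) :
    ∃ r : ℚ, (r : ℂ) = x :=
  mem_range_ratCast_of_forall_ringEquiv h

end Fermat.Agent.S23
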