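import Mathlib.NumberTheory.ModularForms.NormTrace
import Mathlib.NumberTheory.ModularForms.CongruenceSubgroups
import Mathlib.NumberTheory.ModularForms.EisensteinSeries.QExpansion

/-!
# S23: shared definitions (owner: helper94)

* `alphaN N = diag(N, 1) ∈ GL(2, ℝ)`;
* `E4N N : ℍ → ℂ`, the function `z ↦ E₄(N z)`, written as `N⁻³ • (E₄ ∣[4] alphaN N)`;
* `CosetQ Γ = SL(2, ℤ) ⧸ Γ` (inside `GL(2, ℝ)`, as in Mathlib's `NormTrace`), with `Fintype` and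
  `DecidableEq` instances;
* `cosetW u v s`, the coset-symmetric function `∑_q u_q * e_s(v_{q'} : q' ≠ q)`.
-/

set_option autoImplicit false

namespace Fermat.Agent.S23

open UpperHalfPlane Matrix.SpecialLinearGroup
open scoped MatrixGroups ModularForm Manifold

/-- `diag(N, 1)` as an element of `GL(2, ℝ)`. -/
noncomputable def alphaN (N : ℕ) [NeZero N] : GL (Fin 2) ℝ :=
  Matrix.GeneralLinearGroup.mkOfDetNeZero !![(N : ℝ), 0; 0, 1]
    (by simp [Matrix.det_fin_two, NeZero.ne])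

/-- The function `z ↦ E₄(N z)`. -/
noncomputable def E4N (N : ℕ) [NeZero N] : ℍ → ℂ :=
  ((N : ℂ) ^ 3)⁻¹ • ((ModularForm.E₄ : ℍ → ℂ) ∣[(4 : ℤ)] alphaN N)

/-- The coset space `SL(2, ℤ) ⧸ Γ`, realised inside `GL(2, ℝ)` as in Mathlib's `NormTrace`. -/
abbrev CosetQ (Γ : Subgroup SL(2, ℤ)) : Type :=
  ↥(𝒮ℒ) ⧸ ((Γ : Subgroup (GL (Fin 2) ℝ)).subgroupOf 𝒮ℒ)

noncomputable instance (Γ : Subgroup SL(2, ℤ)) [Γ.FiniteIndex] : Fintype (CosetQ Γ) :=
  Fintype.ofFinite _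

noncomputable instance (Γ : Subgroup SL(2, ℤ)) : DecidableEq (CosetQ Γ) := Classical.decEq _

/-- The coset-symmetric function `W_s(u; v) = ∑_q u_q * e_s(v_{q'} : q' ≠ q)`. -/
noncomputable def cosetW (Γ : Subgroup SL(2, ℤ)) [Γ.FiniteIndex] {ku kv : ℤ}
    (u : ModularForm (Γ : Subgroup (GL (Fin 2) ℝ)) ku)
    (v : ModularForm (Γ : Subgroup (GL (Fin 2) ℝ)) kv) (s : ℕ) : ℍ → ℂ :=
  fun z => ∑ q : CosetQ Γ, SlashInvariantForm.quotientFunc u q z *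
    ∑ T ∈ (Finset.univ.erase q).powersetCard s, ∏ q' ∈ T, SlashInvariantForm.quotientFunc v q' z

end Fermat.Agent.S23
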