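import Mathlib
import Fermat.Agent.S23.Defs

set_option autoImplicit false

namespace Fermat.Agent.S23

open UpperHalfPlane Matrix.SpecialLinearGroup
open scoped MatrixGroups ModularForm Manifold

section Combinatorics

variable {Q R : Type*} [Fintype Q] [DecidableEq Q] [CommRing R]

/-- Reindexing the coset-symmetric expression along a permutation. -/
theorem sum_mul_esymm_erase_comp (σ : Q ≃ Q) (a b : Q → R) (s : ℕ) :
    ∑ q : Q, a (σ q) * ∑ T ∈ (Finset.univ.erase q).powersetCard s, ∏ q' ∈ T, b (σ q') =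
      ∑ q : Q, a q * ∑ T ∈ (Finset.univ.erase q).powersetCard s, ∏ q' ∈ T, b q' := by
  rw [← Equiv.sum_comp σ (fun q => a q * ∑ T ∈ (Finset.univ.erase q).powersetCard s, ∏ q' ∈ T, b q')]
  refine Finset.sum_congr rfl fun q _ => ?_
  congr 1
  have h1 : (Finset.univ.erase (σ q)) = (Finset.univ.erase q).map σ.toEmbedding := by
    rw [Finset.map_erase, Finset.map_univ_equiv]
    rfl
  rw [h1, Finset.powersetCard_map, Finset.sum_map]
  refine Finset.sum_congr rfl fun T _ => ?_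
  simp [Finset.prod_map]

end Combinatorics

section Slash

open SlashInvariantForm

set_option linter.unusedSectionVars false

variable (Γ : Subgroup SL(2, ℤ)) [Γ.FiniteIndex] {ku kv : ℤ}
  (u : ModularForm (Γ : Subgroup (GL (Fin 2) ℝ)) ku)
  (v : ModularForm (Γ : Subgroup (GL (Fin 2) ℝ)) kv) (s : ℕ)

theorem cosetW_eq :
    cosetW Γ u v s = ∑ q : CosetQ Γ, quotientFunc u q *
      ∑ T ∈ (Finset.univ.erase q).powersetCard s, ∏ q' ∈ T, quotientFunc v q' := by
  funext z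
  simp only [cosetW, Finset.sum_apply, Pi.mul_apply, Finset.prod_apply]

theorem cosetW_slash {h : GL (Fin 2) ℝ} (hh : h ∈ 𝒮ℒ) :
    cosetW Γ u v s ∣[ku + kv * s] h = cosetW Γ u v s := by
  have hdet : |(h.det : ℝ)| = 1 := Subgroup.HasDetPlusMinusOne.abs_det hh
  rw [cosetW_eq, SlashAction.sum_slash]
  have key : ∀ q : CosetQ Γ,
      (quotientFunc u q * ∑ T ∈ (Finset.univ.erase q).powersetCard s, ∏ q' ∈ T, quotientFunc v q')
        ∣[ku + kv * s] h =
      quotientFunc u ((⟨h, hh⟩ : 𝒮ℒ)⁻¹ • q) *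
        ∑ T ∈ (Finset.univ.erase q).powersetCard s,
          ∏ q' ∈ T, quotientFunc v ((⟨h, hh⟩ : 𝒮ℒ)⁻¹ • q') := by
    intro q
    rw [ModularForm.mul_slash, hdet, one_smul, quotientFunc_smul u hh, SlashAction.sum_slash]
    congr 1
    refine Finset.sum_congr rfl fun T hT => ?_
    have hcard : T.card = s := (Finset.mem_powersetCard.mp hT).2
    rw [← hcard, ModularForm.prod_slash, hdet, one_zpow, one_smul]
    exact Finset.prod_congr rfl fun q' _ => quotientFunc_smul v hh q'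
  simp_rw [key]
  exact sum_mul_esymm_erase_comp (MulAction.toPerm ((⟨h, hh⟩ : 𝒮ℒ)⁻¹)) (quotientFunc u)
    (quotientFunc v) s

/-- Every element of `𝒮ℒ` is the image of an element of `SL(2, ℤ)`. -/
theorem quotientFunc_eq_slash_SL {k : ℤ} (f : ModularForm (Γ : Subgroup (GL (Fin 2) ℝ)) k)
    (q : CosetQ Γ) : ∃ g : SL(2, ℤ), quotientFunc f q = (f : ℍ → ℂ) ∣[k] (mapGL ℝ g : GL (Fin 2) ℝ) := by
  induction q using Quotient.inductionOn with
  | h r =>
    obtain ⟨g, hg⟩ := r.2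
    refine ⟨g⁻¹, ?_⟩
    rw [quotientFunc_mk, map_inv, hg]

theorem quotientFunc_mdifferentiable {k : ℤ} (f : ModularForm (Γ : Subgroup (GL (Fin 2) ℝ)) k)
    (q : CosetQ Γ) : MDifferentiable 𝓘(ℂ) 𝓘(ℂ) (quotientFunc f q) := by
  induction q using Quotient.inductionOn with
  | h r => exact (ModularForm.translate f r.val⁻¹).holo'

theorem quotientFunc_isBoundedAtImInfty {k : ℤ} (f : ModularForm (Γ : Subgroup (GL (Fin 2) ℝ)) k)
    (q : CosetQ Γ) : IsBoundedAtImInfty (quotientFunc f q) := by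
  obtain ⟨g, hg⟩ := quotientFunc_eq_slash_SL Γ f q
  rw [hg]
  have h := ModularFormClass.bdd_at_infty_slash f g
  rw [ModularForm.SL_slash] at h
  exact h

theorem cosetW_mdifferentiable : MDifferentiable 𝓘(ℂ) 𝓘(ℂ) (cosetW Γ u v s) := by
  rw [cosetW_eq]
  refine MDifferentiable.sum fun q _ => ?_
  refine (quotientFunc_mdifferentiable Γ u q).mul ?_
  refine MDifferentiable.sum fun T _ => ?_
  exact MDifferentiable.prod fun q' _ => quotientFunc_mdifferentiable Γ v q'

theorem esymm_isBoundedAtImInfty (q : CosetQ Γ) :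
    IsBoundedAtImInfty
      (∑ T ∈ (Finset.univ.erase q).powersetCard s, ∏ q' ∈ T, quotientFunc v q') := by
  change _ ∈ boundedAtImInftySubalgebra ℂ
  refine Subalgebra.sum_mem _ fun T _ => ?_
  exact Subalgebra.prod_mem _ fun q' _ => quotientFunc_isBoundedAtImInfty Γ v q'

theorem cosetW_isBoundedAtImInfty : IsBoundedAtImInfty (cosetW Γ u v s) := by
  rw [cosetW_eq]
  change _ ∈ boundedAtImInftySubalgebra ℂ
  refine Subalgebra.sum_mem _ fun q _ => ?_
  exact Subalgebra.mul_mem _ (quotientFunc_isBoundedAtImInfty Γ u q)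
    (esymm_isBoundedAtImInfty Γ v s q)

theorem cosetW_isZeroAtImInfty
    (hu : ∀ g : SL(2, ℤ), IsZeroAtImInfty ((u : ℍ → ℂ) ∣[ku] (mapGL ℝ g : GL (Fin 2) ℝ))) :
    IsZeroAtImInfty (cosetW Γ u v s) := by
  rw [cosetW_eq]
  change _ ∈ zeroAtImInftySubmodule ℂ
  refine Submodule.sum_mem _ fun q _ => ?_
  obtain ⟨g, hg⟩ := quotientFunc_eq_slash_SL Γ u q
  have h1 : IsZeroAtImInfty (quotientFunc u q) := hg ▸ hu g
  exact Filter.ZeroAtFilter.mul_boundedAtFilter h1 (esymm_isBoundedAtImInfty Γ v s q)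

end Slash

/-- **P7a**: the coset-symmetric function `cosetW Γ u v s` is a level one modular form of weight
`ku + kv * s`; it vanishes at `i∞` as soon as all `SL(2, ℤ)`-translates of `u` do. -/
theorem exists_cosetW_form (Γ : Subgroup SL(2, ℤ)) [Γ.FiniteIndex] {ku kv : ℤ}
    (u : ModularForm (Γ : Subgroup (GL (Fin 2) ℝ)) ku)
    (v : ModularForm (Γ : Subgroup (GL (Fin 2) ℝ)) kv) (s : ℕ) :
    ∃ W : ModularForm 𝒮ℒ (ku + kv * s), (W : ℍ → ℂ) = cosetW Γ u v s ∧
      ((∀ g : SL(2, ℤ), IsZeroAtImInfty ((u : ℍ → ℂ) ∣[ku] (mapGL ℝ g : GL (Fin 2) ℝ))) →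
        IsZeroAtImInfty (W : ℍ → ℂ)) := by
  refine ⟨{ toFun := cosetW Γ u v s
            slash_action_eq' := fun h hh => cosetW_slash Γ u v s hh
            holo' := cosetW_mdifferentiable Γ u v s
            bdd_at_cusps' := ?_ }, rfl, fun hu => cosetW_isZeroAtImInfty Γ u v s hu⟩
  intro c hc
  rw [OnePoint.isBoundedAt_iff_forall_SL2Z hc]
  intro γ _
  rw [ModularForm.SL_slash]
  have h := cosetW_slash Γ u v s (h := mapGL ℝ γ) ⟨γ, rfl⟩
  rw [show toGL ((map (Int.castRingHom ℝ)) γ) = mapGL ℝ γ from rfl, h]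
  exact cosetW_isBoundedAtImInfty Γ u v s

end Fermat.Agent.S23
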