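import Mathlib

/-!
# Lagrange interpolation and Vieta identities for finite families (S23, P7b)
-/

set_option autoImplicit false

namespace Fermat.Agent.S23

open Finset Polynomial

section General

variable {R σ : Type*} [CommRing R]

/-- Finset version of Vieta's formula for `∏ (X - C (r i))`. -/
theorem finset_prod_X_sub_C_coeff (s : Finset σ) (r : σ → R) {k : ℕ} (h : k ≤ #s) :
    (∏ i ∈ s, (X - C (r i))).coeff k =
      (-1) ^ (#s - k) * ∑ t ∈ s.powersetCard (#s - k), ∏ i ∈ t, r i := by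
  have h1 := Finset.prod_X_add_C_coeff s (fun i => - r i) h
  simp only [map_neg, ← sub_eq_add_neg] at h1
  rw [h1, Finset.mul_sum]
  refine Finset.sum_congr rfl fun t ht => ?_
  rw [Finset.prod_neg, (Finset.mem_powersetCard.mp ht).2]

end General

variable {ι : Type*} [Fintype ι] [DecidableEq ι]

/-- `W_s(x;y) = ∑_i x_i * e_s(y_j : j ≠ i)`. -/
def symmW (x y : ι → ℂ) (s : ℕ) : ℂ :=
  ∑ i, x i * ∑ T ∈ (Finset.univ.erase i).powersetCard s, ∏ j ∈ T, y j

/-- The Lagrange-type polynomial `∑_i x_i ∏_{j ≠ i} (X - y_j)`. -/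
noncomputable def lagrangePoly (x y : ι → ℂ) : ℂ[X] :=
  ∑ i, C (x i) * ∏ j ∈ Finset.univ.erase i, (X - C (y j))

theorem lagrangePoly_coeff (x y : ι → ℂ) (m : ℕ) (hm : m < Fintype.card ι) :
    (lagrangePoly x y).coeff m =
      (-1 : ℂ) ^ (Fintype.card ι - 1 - m) * symmW x y (Fintype.card ι - 1 - m) := by
  unfold lagrangePoly symmW
  rw [Polynomial.finsetSum_coeff, Finset.mul_sum]
  refine Finset.sum_congr rfl fun i _ => ?_
  have hcard : #(Finset.univ.erase i) = Fintype.card ι - 1 := by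
    rw [Finset.card_erase_of_mem (Finset.mem_univ i), Finset.card_univ]
  rw [Polynomial.coeff_C_mul, finset_prod_X_sub_C_coeff _ _ (by rw [hcard]; omega), hcard]
  ring

theorem lagrangePoly_natDegree_lt (x y : ι → ℂ) (h : 0 < Fintype.card ι) :
    (lagrangePoly x y).natDegree < Fintype.card ι := by
  unfold lagrangePoly
  have hle : ∀ i ∈ (Finset.univ : Finset ι),
      (C (x i) * ∏ j ∈ Finset.univ.erase i, (X - C (y j))).natDegree ≤ Fintype.card ι - 1 := by
    intro i _
    refine (Polynomial.natDegree_C_mul_le _ _).trans ?_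
    rw [Polynomial.natDegree_finsetProd_X_sub_C_eq_card,
      Finset.card_erase_of_mem (Finset.mem_univ i), Finset.card_univ]
  exact lt_of_le_of_lt (Polynomial.natDegree_sum_le_of_forall_le _ _ hle) (by omega)

theorem lagrangePoly_eval (x y : ι → ℂ) (i₀ : ι) :
    (lagrangePoly x y).eval (y i₀) = x i₀ * ∏ j ∈ Finset.univ.erase i₀, (y i₀ - y j) := by
  unfold lagrangePoly
  rw [Polynomial.eval_finsetSum]
  rw [Finset.sum_eq_single i₀]
  · simp [Polynomial.eval_prod]
  · intro i _ hi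
    rw [Polynomial.eval_mul, Polynomial.eval_prod]
    have : i₀ ∈ Finset.univ.erase i := Finset.mem_erase.mpr ⟨fun h => hi h.symm, Finset.mem_univ _⟩
    rw [Finset.prod_eq_zero this (by simp), mul_zero]
  · intro h; exact absurd (Finset.mem_univ i₀) h

theorem lagrange_identity (x y : ι → ℂ) (i₀ : ι) :
    ∑ m ∈ Finset.range (Fintype.card ι),
        (-1 : ℂ) ^ (Fintype.card ι - 1 - m) * symmW x y (Fintype.card ι - 1 - m) * y i₀ ^ m
      = x i₀ * ∏ j ∈ Finset.univ.erase i₀, (y i₀ - y j) := by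
  have hpos : 0 < Fintype.card ι := Fintype.card_pos_iff.mpr ⟨i₀⟩
  rw [← lagrangePoly_eval x y i₀,
    Polynomial.eval_eq_sum_range' (lagrangePoly_natDegree_lt x y hpos)]
  refine Finset.sum_congr rfl fun m hm => ?_
  rw [lagrangePoly_coeff x y m (Finset.mem_range.mp hm)]

/-- Double counting: `W_j(x;x) = (j+1) e_{j+1}(x)`. -/
theorem symmW_self (x : ι → ℂ) (j : ℕ) :
    symmW x x j =
      ((j : ℂ) + 1) * ∑ T ∈ (Finset.univ : Finset ι).powersetCard (j + 1), ∏ l ∈ T, x l := by
  unfold symmW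
  have hR : ((j : ℂ) + 1) * ∑ T ∈ (Finset.univ : Finset ι).powersetCard (j + 1), ∏ l ∈ T, x l
      = ∑ T ∈ (Finset.univ : Finset ι).powersetCard (j + 1), ∑ _i ∈ T, ∏ l ∈ T, x l := by
    rw [Finset.mul_sum]
    refine Finset.sum_congr rfl fun T hT => ?_
    rw [Finset.sum_const, (Finset.mem_powersetCard.mp hT).2, nsmul_eq_mul]
    push_cast
    ring
  rw [hR]
  simp_rw [Finset.mul_sum]
  rw [Finset.sum_sigma', Finset.sum_sigma']
  refine Finset.sum_bij' (fun p _ => ⟨insert p.1 p.2, p.1⟩) (fun q _ => ⟨q.2, q.1.erase q.2⟩)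
    ?_ ?_ ?_ ?_ ?_
  · rintro ⟨i, T⟩ h
    simp only [Finset.mem_sigma, Finset.mem_univ, true_and, Finset.mem_powersetCard] at h ⊢
    have hiT : i ∉ T := fun hi => (Finset.mem_erase.mp (h.1 hi)).1 rfl
    refine ⟨⟨Finset.subset_univ _, ?_⟩, Finset.mem_insert_self _ _⟩
    rw [Finset.card_insert_of_notMem hiT, h.2]
  · rintro ⟨T, i⟩ h
    simp only [Finset.mem_sigma, Finset.mem_univ, true_and, Finset.mem_powersetCard] at h ⊢
    refine ⟨Finset.erase_subset_erase _ (Finset.subset_univ _), ?_⟩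
    rw [Finset.card_erase_of_mem h.2, h.1.2]
    rfl
  · rintro ⟨i, T⟩ h
    simp only [Finset.mem_sigma, Finset.mem_univ, true_and, Finset.mem_powersetCard] at h
    have hiT : i ∉ T := fun hi => (Finset.mem_erase.mp (h.1 hi)).1 rfl
    simp [Finset.erase_insert hiT]
  · rintro ⟨T, i⟩ h
    simp only [Finset.mem_sigma, Finset.mem_powersetCard] at h
    simp [Finset.insert_erase h.2]
  · rintro ⟨i, T⟩ h
    simp only [Finset.mem_sigma, Finset.mem_univ, true_and, Finset.mem_powersetCard] at h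
    have hiT : i ∉ T := fun hi => (Finset.mem_erase.mp (h.1 hi)).1 rfl
    simp [Finset.prod_insert hiT]

theorem vieta_identity (x : ι → ℂ) (i₀ : ι) :
    x i₀ ^ (Fintype.card ι) +
      ∑ j ∈ Finset.range (Fintype.card ι),
        ((-1 : ℂ) ^ (j + 1) * symmW x x j / ((j : ℂ) + 1)) * x i₀ ^ (Fintype.card ι - 1 - j) = 0 := by
  set μ := Fintype.card ι with hμ
  -- the polynomial ∏ (X - x i) vanishes at x i₀
  have hroot : (∏ i ∈ (Finset.univ : Finset ι), (X - C (x i))).eval (x i₀) = 0 := by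
    rw [Polynomial.eval_prod]
    exact Finset.prod_eq_zero (Finset.mem_univ i₀) (by simp)
  have hcard : #(Finset.univ : Finset ι) = μ := Finset.card_univ
  have hdeg : (∏ i ∈ (Finset.univ : Finset ι), (X - C (x i))).natDegree < μ + 1 := by
    rw [Polynomial.natDegree_finsetProd_X_sub_C_eq_card, hcard]
    exact Nat.lt_succ_self μ
  rw [Polynomial.eval_eq_sum_range' hdeg, Finset.sum_range_succ] at hroot
  -- top coefficient
  have htop : (∏ i ∈ (Finset.univ : Finset ι), (X - C (x i))).coeff μ = 1 := by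
    rw [finset_prod_X_sub_C_coeff _ _ (by rw [hcard]), hcard]
    simp
  rw [htop, one_mul] at hroot
  rw [← hroot, add_comm]
  congr 1
  refine Eq.trans ?_ (Finset.sum_range_reflect
    (fun m => (∏ i ∈ (Finset.univ : Finset ι), (X - C (x i))).coeff m * x i₀ ^ m) μ)
  refine Finset.sum_congr rfl fun j hj => ?_
  show _ = (∏ i ∈ (Finset.univ : Finset ι), (X - C (x i))).coeff (μ - 1 - j) * x i₀ ^ (μ - 1 - j)
  have hj' : j < μ := Finset.mem_range.mp hj
  have h1 : μ - (μ - 1 - j) = j + 1 := by omega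
  have hne : ((j : ℂ) + 1) ≠ 0 := by
    have : ((j + 1 : ℕ) : ℂ) ≠ 0 := Nat.cast_ne_zero.mpr (Nat.succ_ne_zero j)
    simpa using this
  rw [finset_prod_X_sub_C_coeff _ _ (by rw [hcard]; omega), hcard, symmW_self, h1]
  field_simp

end Fermat.Agent.S23
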