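import Mathlib
import Fermat.Agent.S23.Defs
import Fermat.Agent.S23.CosetForms
import Fermat.Agent.S23.SymmIdentities

/-!
# S23, piece P7c: Lagrange / Vieta data with level one coefficients (owner: helper2)

For a cusp form `f` of weight `k` and a modular form `t` of weight `l` on a finite index subgroup
`Γ ≤ SL(2, ℤ)` such that `t` is not fixed by any `h ∉ Γ`, we produce level one modular forms
`b j`, `c m`, `d m` with

* `f ^ μ + ∑ j, b j * f ^ (μ - 1 - j) = 0` (the `b j` vanishing at `i∞`),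
* `f * ∑ m, d m * t ^ m = ∑ m, c m * t ^ m`,
* `∑ m, d m * t ^ m ≠ 0`.
-/

set_option autoImplicit false

namespace Fermat.Agent.S23

open UpperHalfPlane Matrix.SpecialLinearGroup
open scoped MatrixGroups ModularForm Manifold

section aux

variable (Γ : Subgroup SL(2, ℤ))

theorem quotientFunc_one_apply (q : CosetQ Γ) (z : ℍ) :
    SlashInvariantForm.quotientFunc (1 : ModularForm (Γ : Subgroup (GL (Fin 2) ℝ)) 0) q z = 1 := by
  induction q using Quotient.inductionOn with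
  | h r =>
    obtain ⟨g, hg⟩ := r.2
    have h1 : ((r : GL (Fin 2) ℝ))⁻¹ = mapGL ℝ g⁻¹ := by rw [← hg, map_inv]
    simp only [SlashInvariantForm.quotientFunc_mk, ModularForm.one_coe_eq_one, h1]
    have := ModularForm.is_invariant_one' g⁻¹
    exact congrFun this z

theorem quotientFunc_mk_one {k : ℤ} (u : ModularForm (Γ : Subgroup (GL (Fin 2) ℝ)) k) :
    SlashInvariantForm.quotientFunc u (⟦1⟧ : CosetQ Γ) = u := by
  simp

variable [Γ.FiniteIndex]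

/-- A chosen level one form with underlying function `cosetW Γ u v s`. -/
noncomputable def cosetWForm {ku kv : ℤ} (u : ModularForm (Γ : Subgroup (GL (Fin 2) ℝ)) ku)
    (v : ModularForm (Γ : Subgroup (GL (Fin 2) ℝ)) kv) (s : ℕ) : ModularForm 𝒮ℒ (ku + kv * s) :=
  (exists_cosetW_form Γ u v s).choose

theorem cosetWForm_coe {ku kv : ℤ} (u : ModularForm (Γ : Subgroup (GL (Fin 2) ℝ)) ku)
    (v : ModularForm (Γ : Subgroup (GL (Fin 2) ℝ)) kv) (s : ℕ) :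
    (cosetWForm Γ u v s : ℍ → ℂ) = cosetW Γ u v s :=
  (exists_cosetW_form Γ u v s).choose_spec.1

theorem cosetWForm_apply {ku kv : ℤ} (u : ModularForm (Γ : Subgroup (GL (Fin 2) ℝ)) ku)
    (v : ModularForm (Γ : Subgroup (GL (Fin 2) ℝ)) kv) (s : ℕ) (z : ℍ) :
    cosetWForm Γ u v s z = symmW (fun q : CosetQ Γ => SlashInvariantForm.quotientFunc u q z)
      (fun q => SlashInvariantForm.quotientFunc v q z) s :=
  congrFun (cosetWForm_coe Γ u v s) z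

theorem cosetWForm_isZeroAtImInfty {ku kv : ℤ} (u : ModularForm (Γ : Subgroup (GL (Fin 2) ℝ)) ku)
    (v : ModularForm (Γ : Subgroup (GL (Fin 2) ℝ)) kv) (s : ℕ)
    (hu : ∀ g : SL(2, ℤ), IsZeroAtImInfty ((u : ℍ → ℂ) ∣[ku] (mapGL ℝ g : GL (Fin 2) ℝ))) :
    IsZeroAtImInfty (cosetWForm Γ u v s : ℍ → ℂ) :=
  (exists_cosetW_form Γ u v s).choose_spec.2 hu

end aux

theorem exists_lagrange_data (Γ : Subgroup SL(2, ℤ)) [Γ.FiniteIndex] {k l : ℤ}
    (f : CuspForm (Γ : Subgroup (GL (Fin 2) ℝ)) k) (t : ModularForm (Γ : Subgroup (GL (Fin 2) ℝ)) l)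
    (ht : ∀ h : SL(2, ℤ), h ∉ Γ → ((t : ℍ → ℂ) ∣[l] (mapGL ℝ h : GL (Fin 2) ℝ)) ≠ (t : ℍ → ℂ)) :
    ∃ (μ : ℕ) (b : (j : Fin μ) → ModularForm 𝒮ℒ (k * ((j : ℕ) + 1)))
      (c : (m : Fin μ) → ModularForm 𝒮ℒ (k + l * ((μ : ℤ) - 1 - (m : ℕ))))
      (d : (m : Fin μ) → ModularForm 𝒮ℒ (l * ((μ : ℤ) - 1 - (m : ℕ)))),
      (∀ j, IsZeroAtImInfty (b j)) ∧
      (∀ z : ℍ, f z ^ μ + ∑ j : Fin μ, b j z * f z ^ (μ - 1 - (j : ℕ)) = 0) ∧
      (∀ z : ℍ, f z * ∑ m : Fin μ, d m z * t z ^ (m : ℕ) = ∑ m : Fin μ, c m z * t z ^ (m : ℕ)) ∧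
      (∃ z : ℍ, ∑ m : Fin μ, d m z * t z ^ (m : ℕ) ≠ 0) := by
  classical
  -- notation
  obtain ⟨μ, hμ⟩ : ∃ μ : ℕ, μ = Fintype.card (CosetQ Γ) := ⟨_, rfl⟩
  let q₀ : CosetQ Γ := ⟦1⟧
  let fm : ModularForm (Γ : Subgroup (GL (Fin 2) ℝ)) k := ModularFormClass.modularForm f
  let one' : ModularForm (Γ : Subgroup (GL (Fin 2) ℝ)) 0 := 1
  -- translates
  let x : ℍ → CosetQ Γ → ℂ := fun z q => SlashInvariantForm.quotientFunc fm q z
  let y : ℍ → CosetQ Γ → ℂ := fun z q => SlashInvariantForm.quotientFunc t q z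
  have hx₀ : ∀ z, x z q₀ = f z := fun z => by
    show SlashInvariantForm.quotientFunc fm (⟦1⟧ : CosetQ Γ) z = f z
    rw [quotientFunc_mk_one]; rfl
  have hy₀ : ∀ z, y z q₀ = t z := fun z => by
    show SlashInvariantForm.quotientFunc t (⟦1⟧ : CosetQ Γ) z = t z
    rw [quotientFunc_mk_one]
  -- the three identities, with `μ`
  have hV : ∀ z, f z ^ μ + ∑ j : Fin μ, ((-1 : ℂ) ^ ((j : ℕ) + 1) * symmW (x z) (x z) (j : ℕ) /
      (((j : ℕ) : ℂ) + 1)) * f z ^ (μ - 1 - (j : ℕ)) = 0 := fun z => by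
    have hv := vieta_identity (x z) q₀
    rw [hx₀ z, ← hμ, Finset.sum_range] at hv
    exact hv
  have hL1 : ∀ z, ∑ m : Fin μ, (-1 : ℂ) ^ (μ - 1 - (m : ℕ)) * symmW (x z) (y z) (μ - 1 - (m : ℕ)) *
      t z ^ (m : ℕ) = f z * ∏ j ∈ Finset.univ.erase q₀, (t z - y z j) := fun z => by
    have h := lagrange_identity (x z) (y z) q₀
    rw [hx₀ z, hy₀ z, ← hμ, Finset.sum_range] at h
    exact h
  have hL2 : ∀ z, ∑ m : Fin μ, (-1 : ℂ) ^ (μ - 1 - (m : ℕ)) *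
      symmW (fun _ : CosetQ Γ => (1 : ℂ)) (y z) (μ - 1 - (m : ℕ)) *
      t z ^ (m : ℕ) = ∏ j ∈ Finset.univ.erase q₀, (t z - y z j) := fun z => by
    have h := lagrange_identity (fun _ : CosetQ Γ => (1 : ℂ)) (y z) q₀
    rw [hy₀ z, one_mul, ← hμ, Finset.sum_range] at h
    exact h
  -- weight equalities
  have hwb : ∀ j : Fin μ, k + k * ((j : ℕ) : ℤ) = k * (((j : ℕ) : ℤ) + 1) := fun j => by ring
  have hsub : ∀ m : Fin μ, ((μ - 1 - (m : ℕ) : ℕ) : ℤ) = (μ : ℤ) - 1 - ((m : ℕ) : ℤ) := fun m => by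
    have := m.2
    omega
  have hwc : ∀ m : Fin μ, k + l * ((μ - 1 - (m : ℕ) : ℕ) : ℤ) = k + l * ((μ : ℤ) - 1 - ((m : ℕ) : ℤ)) :=
    fun m => by rw [hsub m]
  have hwd : ∀ m : Fin μ, 0 + l * ((μ - 1 - (m : ℕ) : ℕ) : ℤ) = l * ((μ : ℤ) - 1 - ((m : ℕ) : ℤ)) :=
    fun m => by rw [hsub m, zero_add]
  -- the data
  let b : (j : Fin μ) → ModularForm 𝒮ℒ (k * ((j : ℕ) + 1)) := fun j =>
    ModularForm.mcast (hwb j)
      ((((-1 : ℂ) ^ ((j : ℕ) + 1) / (((j : ℕ) : ℂ) + 1)) • cosetWForm Γ fm fm (j : ℕ)))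
  let c : (m : Fin μ) → ModularForm 𝒮ℒ (k + l * ((μ : ℤ) - 1 - (m : ℕ))) := fun m =>
    ModularForm.mcast (hwc m)
      (((-1 : ℂ) ^ (μ - 1 - (m : ℕ))) • cosetWForm Γ fm t (μ - 1 - (m : ℕ)))
  let d : (m : Fin μ) → ModularForm 𝒮ℒ (l * ((μ : ℤ) - 1 - (m : ℕ))) := fun m =>
    ModularForm.mcast (hwd m)
      (((-1 : ℂ) ^ (μ - 1 - (m : ℕ))) • cosetWForm Γ one' t (μ - 1 - (m : ℕ)))
  have hb : ∀ (j : Fin μ) (z : ℍ), b j z =
      ((-1 : ℂ) ^ ((j : ℕ) + 1) / (((j : ℕ) : ℂ) + 1)) * symmW (x z) (x z) (j : ℕ) := fun j z => by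
    show (((-1 : ℂ) ^ ((j : ℕ) + 1) / (((j : ℕ) : ℂ) + 1)) • cosetWForm Γ fm fm (j : ℕ)) z = _
    rw [smul_apply, cosetWForm_apply, smul_eq_mul]
  have hc : ∀ (m : Fin μ) (z : ℍ), c m z =
      (-1 : ℂ) ^ (μ - 1 - (m : ℕ)) * symmW (x z) (y z) (μ - 1 - (m : ℕ)) := fun m z => by
    show (((-1 : ℂ) ^ (μ - 1 - (m : ℕ))) • cosetWForm Γ fm t (μ - 1 - (m : ℕ))) z = _
    rw [smul_apply, cosetWForm_apply, smul_eq_mul]
  have hd : ∀ (m : Fin μ) (z : ℍ), d m z =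
      (-1 : ℂ) ^ (μ - 1 - (m : ℕ)) *
        symmW (fun _ : CosetQ Γ => (1 : ℂ)) (y z) (μ - 1 - (m : ℕ)) := fun m z => by
    show (((-1 : ℂ) ^ (μ - 1 - (m : ℕ))) • cosetWForm Γ one' t (μ - 1 - (m : ℕ))) z = _
    rw [smul_apply, cosetWForm_apply, smul_eq_mul]
    simp only [one', quotientFunc_one_apply]
    rfl
  have hcsum : ∀ z, ∑ m : Fin μ, c m z * t z ^ (m : ℕ) =
      f z * ∏ j ∈ Finset.univ.erase q₀, (t z - y z j) := fun z => by
    rw [← hL1 z]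
    exact Finset.sum_congr rfl fun m _ => by rw [hc]
  have hdsum : ∀ z, ∑ m : Fin μ, d m z * t z ^ (m : ℕ) =
      ∏ j ∈ Finset.univ.erase q₀, (t z - y z j) := fun z => by
    rw [← hL2 z]
    exact Finset.sum_congr rfl fun m _ => by rw [hd]
  refine ⟨μ, b, c, d, ?_, ?_, ?_, ?_⟩
  · -- vanishing at i∞
    intro j
    have hcusp : ∀ g : SL(2, ℤ),
        IsZeroAtImInfty ((fm : ℍ → ℂ) ∣[k] (mapGL ℝ g : GL (Fin 2) ℝ)) := by
      intro g
      exact CuspFormClass.zero_at_infty_slash (k := k) f g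
    have h0 := cosetWForm_isZeroAtImInfty Γ fm fm (j : ℕ) hcusp
    have h1 := Filter.Tendsto.const_smul h0 ((-1 : ℂ) ^ ((j : ℕ) + 1) / (((j : ℕ) : ℂ) + 1))
    rw [smul_zero] at h1
    exact h1
  · -- Vieta
    intro z
    rw [← hV z]
    congr 1
    refine Finset.sum_congr rfl fun j _ => ?_
    rw [hb]
    ring
  · -- Lagrange
    intro z
    rw [hcsum, hdsum]
  · -- non-vanishing
    by_contra hcon
    simp only [not_exists, not_not] at hcon
    have hprod : (∏ q ∈ Finset.univ.erase q₀, ((t : ℍ → ℂ) - SlashInvariantForm.quotientFunc t q)) = 0 := by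
      funext z
      rw [Finset.prod_apply]
      have := hcon z
      rw [hdsum z] at this
      exact this
    rw [UpperHalfPlane.prod_eq_zero_iff] at hprod
    · obtain ⟨q, hq, hq0⟩ := hprod
      have hqne : q ≠ q₀ := Finset.ne_of_mem_erase hq
      apply hqne
      induction q using Quotient.inductionOn with
      | h r =>
        obtain ⟨g, hg⟩ := r.2
        have h1 : ((r : GL (Fin 2) ℝ))⁻¹ = mapGL ℝ g⁻¹ := by rw [← hg, map_inv]
        have h2 : (t : ℍ → ℂ) ∣[l] (mapGL ℝ g⁻¹ : GL (Fin 2) ℝ) = (t : ℍ → ℂ) := by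
          have := sub_eq_zero.1 hq0
          rw [SlashInvariantForm.quotientFunc_mk, h1] at this
          exact this.symm
        have hgΓ : g⁻¹ ∈ Γ := by
          by_contra hn
          exact ht g⁻¹ hn h2
        have hgΓ' : g ∈ Γ := by simpa using Γ.inv_mem hgΓ
        show (QuotientGroup.mk r : CosetQ Γ) = QuotientGroup.mk 1
        rw [QuotientGroup.eq, Subgroup.mem_subgroupOf]
        refine Subgroup.mem_map.2 ⟨g⁻¹, hgΓ, ?_⟩
        rw [← h1]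
        simp
    · intro q _
      refine MDifferentiable.sub t.holo' ?_
      induction q using Quotient.inductionOn with
      | h r => exact (ModularForm.translate t r.val⁻¹).holo'

end Fermat.Agent.S23
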