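import Mathlib

/-!
# Bounded denominators (complete integral closedness of `ℤ⟦X⟧` inside `K⟦X⟧`)

Piece (8) of the S23 route: if `h : K⟦X⟧` (`K` a field of characteristic zero) is integral over
the image of `ℤ⟦X⟧` and `d * h` has integer coefficients for some nonzero `d : ℤ⟦X⟧`, then `h`
itself has integer coefficients.
-/

namespace Fermat.Agent.S23

open PowerSeries

/-- If `c ≠ 0` is an integer, `x` is rational and `c * x ^ m` is an integer for every `m`,
then `x` is an integer. -/
theorem exists_int_eq_of_forall_mul_pow {c : ℤ} (hc : c ≠ 0) (x : ℚ)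
    (h : ∀ m : ℕ, ∃ z : ℤ, (z : ℚ) = c * x ^ m) : ∃ z : ℤ, (z : ℚ) = x := by
  have key : ∀ m : ℕ, ((x.den : ℤ) ^ m) ∣ c := by
    intro m
    obtain ⟨z, hz⟩ := h m
    have hden : (x.den : ℚ) ≠ 0 := by exact_mod_cast x.den_nz
    have hx : x ^ m = (x.num : ℚ) ^ m / (x.den : ℚ) ^ m := by
      rw [← div_pow, Rat.num_div_den]
    have h1 : (z : ℚ) * (x.den : ℚ) ^ m = c * (x.num : ℚ) ^ m := by
      rw [hz, hx]
      field_simp
    have h2 : z * (x.den : ℤ) ^ m = c * x.num ^ m := by exact_mod_cast h1
    have hcop : IsCoprime ((x.den : ℤ) ^ m) (x.num ^ m) := by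
      apply IsCoprime.pow
      rw [Int.isCoprime_iff_gcd_eq_one, Int.gcd_comm]
      simpa [Int.gcd, Int.natAbs_natCast] using x.reduced
    have h3 : ((x.den : ℤ) ^ m) ∣ c * x.num ^ m := ⟨z, by rw [← h2]; ring⟩
    exact hcop.dvd_of_dvd_mul_right h3
  have hden1 : x.den = 1 := by
    by_contra hne
    have h2 : 2 ≤ x.den := by
      have := x.den_pos
      omega
    have hle := Int.le_of_dvd (by positivity : (0 : ℤ) < |c|)
      ((dvd_abs _ _).mpr (key c.natAbs))
    have h4 : (2 : ℤ) ^ c.natAbs ≤ (x.den : ℤ) ^ c.natAbs := by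
      apply pow_le_pow_left₀ (by norm_num)
      exact_mod_cast h2
    have h5 : (c.natAbs : ℤ) < 2 ^ c.natAbs := by exact_mod_cast Nat.lt_two_pow_self
    have h6 : |c| = (c.natAbs : ℤ) := (Int.natCast_natAbs c).symm
    omega
  exact ⟨x.num, by rw [← Rat.num_div_den x, hden1]; simp⟩

variable {K : Type*} [Field K] [CharZero K]

omit [CharZero K] in
theorem mem_range_map_intCast_iff (f : K⟦X⟧) :
    f ∈ (PowerSeries.map (Int.castRingHom K)).range ↔ ∀ i, ∃ z : ℤ, (z : K) = coeff i f := by
  constructor
  · rintro ⟨g, rfl⟩ i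
    exact ⟨coeff i g, by simp⟩
  · intro hf
    choose z hz using hf
    refine ⟨PowerSeries.mk z, ?_⟩
    ext i
    simp [hz]

/-- **Bounded denominators.** If `h : K⟦X⟧` is integral over (the image of) `ℤ⟦X⟧` and
`d * h` has integer coefficients for some nonzero `d : ℤ⟦X⟧`, then `h` has integer coefficients. -/
theorem mem_range_map_of_isIntegralElem {h : K⟦X⟧} {d a : ℤ⟦X⟧} (hd : d ≠ 0)
    (hda : PowerSeries.map (Int.castRingHom K) d * h = PowerSeries.map (Int.castRingHom K) a)
    (hint : (PowerSeries.map (Int.castRingHom K)).IsIntegralElem h) :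
    h ∈ (PowerSeries.map (Int.castRingHom K)).range := by
  classical
  set ι := PowerSeries.map (Int.castRingHom K) with hι
  have hιinj : Function.Injective ι :=
    PowerSeries.map_injective _ (Int.cast_injective (α := K))
  obtain ⟨P, hP, hPh⟩ := hint
  set n := P.natDegree with hn
  set E : K⟦X⟧ := ι d ^ n with hE
  -- expansion of `h ^ n`
  have hpow : h ^ n = - ∑ i ∈ Finset.range n, ι (P.coeff i) * h ^ i := by
    have h1 := hPh
    rw [Polynomial.eval₂_eq_sum_range, Finset.sum_range_succ] at h1
    have h2 : P.coeff n = 1 := hP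
    rw [h2, map_one, one_mul] at h1
    rw [eq_neg_iff_add_eq_zero, add_comm]
    exact h1
  -- Step 1: `E * h ^ m` has integer coefficients for all `m`.
  have S1 : ∀ m : ℕ, E * h ^ m ∈ ι.range := by
    intro m
    induction m using Nat.strong_induction_on with
    | _ m ih =>
      rcases lt_or_ge m n with hmn | hmn
      · have : E * h ^ m = ι d ^ (n - m) * ι a ^ m := by
          rw [hE, ← hda, mul_pow, ← mul_assoc, ← pow_add, Nat.sub_add_cancel hmn.le]
        rw [this]
        exact Subring.mul_mem _ (Subring.pow_mem _ (RingHom.mem_range_self ι d) _)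
          (Subring.pow_mem _ (RingHom.mem_range_self ι a) _)
      · have : E * h ^ m = - ∑ i ∈ Finset.range n, ι (P.coeff i) * (E * h ^ (i + (m - n))) := by
          have hm : m = n + (m - n) := by omega
          conv_lhs => rw [hm, pow_add, hpow]
          rw [neg_mul, mul_neg, Finset.sum_mul, Finset.mul_sum]
          congr 1
          apply Finset.sum_congr rfl
          intro i _
          rw [pow_add]
          ring
        rw [this]
        apply Subring.neg_mem
        apply Subring.sum_mem
        intro i hi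
        apply Subring.mul_mem _ (RingHom.mem_range_self ι (P.coeff i))
        apply ih
        have := Finset.mem_range.mp hi
        omega
  -- Step 2: contradiction from a first non-integral coefficient
  by_contra hnot
  rw [mem_range_map_intCast_iff] at hnot
  push Not at hnot
  have hex : ∃ i, ∀ z : ℤ, (z : K) ≠ coeff i h := hnot
  set i0 := Nat.find hex with hi0
  have hi0spec : ∀ z : ℤ, (z : K) ≠ coeff i0 h := Nat.find_spec hex
  have hi0min : ∀ i < i0, ∃ z : ℤ, (z : K) = coeff i h := by
    intro i hi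
    have := Nat.find_min hex hi
    push Not at this
    exact this
  set u : K⟦X⟧ := ((trunc i0 h : Polynomial K) : K⟦X⟧) with hu
  set w : K⟦X⟧ := PowerSeries.mk fun i => coeff (i + i0) h with hw
  have hsplit : h = X ^ i0 * w + u := eq_X_pow_mul_shift_add_trunc i0 h
  have hu_mem : u ∈ ι.range := by
    rw [mem_range_map_intCast_iff]
    intro i
    rw [hu, Polynomial.coeff_coe, coeff_trunc]
    split_ifs with hlt
    · exact hi0min i hlt
    · exact ⟨0, by simp⟩
  have hXw : X ^ i0 * w = h + (-u) := by rw [hsplit]; ring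
  have S2 : ∀ m : ℕ, E * (X ^ i0 * w) ^ m ∈ ι.range := by
    intro m
    rw [hXw, add_pow, Finset.mul_sum]
    apply Subring.sum_mem
    intro j _
    have : E * (h ^ j * (-u) ^ (m - j) * (m.choose j : K⟦X⟧))
        = (E * h ^ j) * (-u) ^ (m - j) * (m.choose j : K⟦X⟧) := by ring
    rw [this]
    exact Subring.mul_mem _ (Subring.mul_mem _ (S1 j)
      (Subring.pow_mem _ (Subring.neg_mem _ hu_mem) _)) (natCast_mem _ _)
  -- `E ≠ 0`, write `E = X ^ s * E'`
  have hdn : d ^ n ≠ 0 := pow_ne_zero _ hd
  have hEeq : E = ι (d ^ n) := by rw [hE, map_pow]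
  have hE0 : E ≠ 0 := by
    rw [hEeq]
    intro h0
    exact hdn (hιinj (by rw [h0, map_zero]))
  set s := E.order.toNat with hs
  set E' := divXPowOrder E with hE'
  have hEs : X ^ s * E' = E := X_pow_order_mul_divXPowOrder
  set c : ℤ := coeff s (d ^ n) with hc
  have hcE : constantCoeff E' = (c : K) := by
    rw [hE', constantCoeff_divXPowOrder, hEeq, coeff_map]
    simp [hc, hs, hEeq]
  have hc0 : c ≠ 0 := by
    intro h0
    have h1 : coeff s E = 0 := by
      rw [hEeq, coeff_map]
      simp [← hc, h0]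
    exact coeff_order hE0 h1
  set x : K := coeff i0 h with hx
  have hw0 : constantCoeff w = x := by
    rw [← coeff_zero_eq_constantCoeff_apply, hw, coeff_mk, zero_add]
  -- integrality of `c * x ^ m`
  have S3 : ∀ m : ℕ, ∃ z : ℤ, (z : K) = (c : K) * x ^ m := by
    intro m
    have hmem := S2 m
    rw [mem_range_map_intCast_iff] at hmem
    obtain ⟨z, hz⟩ := hmem (0 + (s + i0 * m))
    refine ⟨z, ?_⟩
    rw [hz]
    have : E * (X ^ i0 * w) ^ m = X ^ (s + i0 * m) * (E' * w ^ m) := by
      rw [← hEs, mul_pow, ← pow_mul, pow_add]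
      ring
    rw [this, coeff_X_pow_mul, coeff_zero_eq_constantCoeff_apply, map_mul, map_pow, hcE, hw0]
  -- `x` is rational
  obtain ⟨z1, hz1⟩ := S3 1
  have hcK : (c : K) ≠ 0 := by exact_mod_cast hc0
  set r : ℚ := (z1 : ℚ) / (c : ℚ) with hr
  have hxr : x = (r : K) := by
    rw [hr]
    push_cast
    rw [hz1, pow_one]
    field_simp
  have S4 : ∀ m : ℕ, ∃ z : ℤ, (z : ℚ) = c * r ^ m := by
    intro m
    obtain ⟨z, hz⟩ := S3 m
    refine ⟨z, ?_⟩
    have : ((z : ℚ) : K) = ((c * r ^ m : ℚ) : K) := by
      push_cast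
      rw [hz, hxr]
    exact_mod_cast this
  obtain ⟨z, hz⟩ := exists_int_eq_of_forall_mul_pow hc0 r S4
  apply hi0spec z
  rw [hxr, ← hz]
  simp

/-- Version of `mem_range_map_of_isIntegralElem` with an explicit integral witness. -/
theorem exists_map_eq_of_isIntegralElem {h : K⟦X⟧} {d a : ℤ⟦X⟧} (hd : d ≠ 0)
    (hda : PowerSeries.map (Int.castRingHom K) d * h = PowerSeries.map (Int.castRingHom K) a)
    (hint : (PowerSeries.map (Int.castRingHom K)).IsIntegralElem h) :
    ∃ h0 : ℤ⟦X⟧, PowerSeries.map (Int.castRingHom K) h0 = h :=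
  mem_range_map_of_isIntegralElem hd hda hint

end Fermat.Agent.S23
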