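import Mathlib

set_option autoImplicit false

namespace Fermat.Agent.S23.LevelOneIntegral

open UpperHalfPlane ModularForm ModularFormClass MatrixGroups EisensteinSeries

noncomputable section

/-- Power series over `ℂ` with integer coefficients. -/
def intSeries : Subring (PowerSeries ℂ) := (PowerSeries.map (Int.castRingHom ℂ)).range

theorem mem_intSeries_iff (p : PowerSeries ℂ) :
    p ∈ intSeries ↔ ∀ n, ∃ m : ℤ, p.coeff n = m := by
  constructor
  · rintro ⟨P, rfl⟩ n
    exact ⟨P.coeff n, by simp⟩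
  · intro h
    choose m hm using h
    refine ⟨PowerSeries.mk m, ?_⟩
    ext n
    simp [hm n]

theorem intCast_smul_mem_intSeries (d : ℤ) {p : PowerSeries ℂ} (hp : p ∈ intSeries) :
    (d : ℂ) • p ∈ intSeries := by
  rw [mem_intSeries_iff] at hp ⊢
  intro n
  obtain ⟨m, hm⟩ := hp n
  exact ⟨d * m, by rw [PowerSeries.coeff_smul, hm, smul_eq_mul]; push_cast; rfl⟩

/-- Power series over `ℂ` with rational coefficients of bounded denominator. -/
def bdSeries : Subring (PowerSeries ℂ) where
  carrier := {p | ∃ c : ℤ, c ≠ 0 ∧ (c : ℂ) • p ∈ intSeries}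
  mul_mem' := by
    rintro p q ⟨c, hc, hp⟩ ⟨d, hd, hq⟩
    refine ⟨c * d, mul_ne_zero hc hd, ?_⟩
    have : ((c * d : ℤ) : ℂ) • (p * q) = ((c : ℂ) • p) * ((d : ℂ) • q) := by
      rw [smul_mul_smul_comm]; push_cast; rfl
    rw [this]
    exact mul_mem hp hq
  one_mem' := ⟨1, one_ne_zero, by simpa using one_mem intSeries⟩
  add_mem' := by
    rintro p q ⟨c, hc, hp⟩ ⟨d, hd, hq⟩
    refine ⟨c * d, mul_ne_zero hc hd, ?_⟩
    have : ((c * d : ℤ) : ℂ) • (p + q) = (d : ℂ) • ((c : ℂ) • p) + (c : ℂ) • ((d : ℂ) • q) := by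
      rw [smul_add, smul_smul, smul_smul]; push_cast
      rw [mul_comm (d : ℂ) (c : ℂ)]
    rw [this]
    have hd' : (d : ℂ) • ((c : ℂ) • p) ∈ intSeries := intCast_smul_mem_intSeries d hp
    have hc' : (c : ℂ) • ((d : ℂ) • q) ∈ intSeries := intCast_smul_mem_intSeries c hq
    exact add_mem hd' hc'
  zero_mem' := ⟨1, one_ne_zero, by simpa using zero_mem intSeries⟩
  neg_mem' := by
    rintro p ⟨c, hc, hp⟩
    exact ⟨c, hc, by rw [smul_neg]; exact neg_mem hp⟩

theorem mem_bdSeries_iff (p : PowerSeries ℂ) :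
    p ∈ bdSeries ↔ ∃ c : ℤ, c ≠ 0 ∧ (c : ℂ) • p ∈ intSeries := Iff.rfl

theorem intSeries_le_bdSeries : intSeries ≤ bdSeries := fun p hp =>
  ⟨1, one_ne_zero, by simpa using hp⟩

theorem ratCast_smul_mem_bdSeries (r : ℚ) {p : PowerSeries ℂ} (hp : p ∈ bdSeries) :
    (r : ℂ) • p ∈ bdSeries := by
  obtain ⟨c, hc, hp⟩ := hp
  refine ⟨c * r.den, mul_ne_zero hc (by exact_mod_cast r.den_ne_zero), ?_⟩
  have h1 : ((c * r.den : ℤ) : ℂ) • ((r : ℂ) • p) = (r.num : PowerSeries ℂ) * ((c : ℂ) • p) := by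
    ext n
    simp only [PowerSeries.coeff_smul, smul_eq_mul]
    have hr : (r : ℂ) = (r.num : ℂ) / (r.den : ℂ) := by
      exact_mod_cast (Rat.num_div_den r).symm
    have hden : (r.den : ℂ) ≠ 0 := by exact_mod_cast r.den_ne_zero
    rw [show ((r.num : PowerSeries ℂ)) = PowerSeries.C ((r.num : ℤ) : ℂ) by simp,
      PowerSeries.coeff_C_mul, PowerSeries.coeff_smul, smul_eq_mul, hr]
    push_cast
    field_simp
  rw [h1]
  exact mul_mem (intCast_mem _ _) hp

/-- Level-one modular forms with integral `q`-expansion. -/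
def intForms (k : ℤ) : Set (ModularForm 𝒮ℒ k) := {g | qExpansion 1 g ∈ intSeries}

theorem mem_span_intForms_of_bd {k : ℤ} (g : ModularForm 𝒮ℒ k)
    (hg : qExpansion 1 g ∈ bdSeries) : g ∈ Submodule.span ℂ (intForms k) := by
  obtain ⟨c, hc, hcg⟩ := hg
  have hc' : (c : ℂ) ≠ 0 := by exact_mod_cast hc
  have h1 : (c : ℂ) • g ∈ intForms k := by
    show qExpansion 1 ((c : ℂ) • g) ∈ intSeries
    rw [ModularForm.qExpansion_smul one_pos one_mem_strictPeriods_SL]
    exact hcg
  have h2 : g = (c : ℂ)⁻¹ • ((c : ℂ) • g) := by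
    rw [smul_smul, inv_mul_cancel₀ hc', one_smul]
  rw [h2]
  exact Submodule.smul_mem _ _ (Submodule.subset_span h1)

theorem E_qExpansion_mem_bdSeries {k : ℕ} (hk : 3 ≤ k) (hk2 : Even k) :
    qExpansion 1 (E hk) ∈ bdSeries := by
  set r : ℚ := -(2 * k / bernoulli k) with hr
  refine ⟨r.den, by exact_mod_cast r.den_ne_zero, ?_⟩
  rw [mem_intSeries_iff]
  intro m
  rw [PowerSeries.coeff_smul, E_qExpansion_coeff hk hk2 m]
  by_cases hm : m = 0
  · refine ⟨r.den, ?_⟩
    simp [hm]
  · refine ⟨r.num * (ArithmeticFunction.sigma (k - 1) m : ℤ), ?_⟩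
    simp only [hm, if_false, smul_eq_mul]
    have hrc : (-(2 * (k : ℂ) / (bernoulli k : ℂ))) = (r : ℂ) := by
      rw [hr]; push_cast; ring
    have hr' : (r : ℂ) = (r.num : ℂ) / (r.den : ℂ) := by
      exact_mod_cast (Rat.num_div_den r).symm
    have hden : (r.den : ℂ) ≠ 0 := by exact_mod_cast r.den_ne_zero
    rw [hrc, hr']
    push_cast
    field_simp

theorem discriminant_qExpansion_eq :
    qExpansion 1 (CuspForm.discriminant : CuspForm 𝒮ℒ 12) =
      ((1 / 1728 : ℚ) : ℂ) • (qExpansion 1 E₄ ^ 3 - qExpansion 1 E₆ ^ 2) := by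
  let G : ModularForm 𝒮ℒ 12 :=
    ModularForm.mcast (by decide) (E₄.pow 3) - ModularForm.mcast (by decide) (E₆.pow 2)
  have hG : qExpansion 1 G = qExpansion 1 E₄ ^ 3 - qExpansion 1 E₆ ^ 2 := by
    simp only [G, FunLike.coe_sub, coe_mcast,
      ModularForm.qExpansion_sub one_pos one_mem_strictPeriods_SL,
      ModularForm.qExpansion_pow one_pos one_mem_strictPeriods_SL]
  have hfun : (⇑(CuspForm.discriminant : CuspForm 𝒮ℒ 12) : ℍ → ℂ) =
      ((1 / 1728 : ℚ) : ℂ) • ⇑G := by
    ext z
    simp only [G, CuspForm.coe_discriminant, Pi.smul_apply, smul_eq_mul, FunLike.coe_sub,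
      coe_mcast, coe_pow, Pi.sub_apply, Pi.pow_apply]
    rw [discriminant_eq_E₄_cube_sub_E₆_sq z]
    push_cast
    ring
  rw [hfun, ModularForm.qExpansion_smul one_pos one_mem_strictPeriods_SL, hG]

theorem discriminant_qExpansion_mem_bdSeries :
    qExpansion 1 (CuspForm.discriminant : CuspForm 𝒮ℒ 12) ∈ bdSeries := by
  rw [discriminant_qExpansion_eq]
  apply ratCast_smul_mem_bdSeries
  exact sub_mem (pow_mem (E_qExpansion_mem_bdSeries _ ⟨2, rfl⟩) 3)
    (pow_mem (E_qExpansion_mem_bdSeries _ ⟨3, rfl⟩) 2)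

/-- Multiplication by the discriminant, as a linear map on level-one modular forms. -/
def mulDisc (k : ℤ) : ModularForm 𝒮ℒ (k - 12) →ₗ[ℂ] ModularForm 𝒮ℒ k :=
  CuspForm.toModularFormₗ.comp (CuspForm.discriminantEquiv (k := k)).symm.toLinearMap

theorem mulDisc_apply {k : ℤ} (h : ModularForm 𝒮ℒ (k - 12)) (z : ℍ) :
    mulDisc k h z = ModularForm.discriminant z * h z := rfl

theorem qExpansion_mulDisc {k : ℤ} (h : ModularForm 𝒮ℒ (k - 12)) :
    qExpansion 1 (mulDisc k h) =
      qExpansion 1 (CuspForm.discriminant : CuspForm 𝒮ℒ 12) * qExpansion 1 h := by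
  have : (⇑(mulDisc k h) : ℍ → ℂ) = ⇑(CuspForm.discriminant : CuspForm 𝒮ℒ 12) * ⇑h := by
    ext z
    rw [mulDisc_apply]; rfl
  rw [this]
  exact ModularForm.qExpansion_mul_coe one_pos one_mem_strictPeriods_SL _ _

theorem mulDisc_mem_span {k : ℤ} (h : ModularForm 𝒮ℒ (k - 12))
    (hh : h ∈ Submodule.span ℂ (intForms (k - 12))) :
    mulDisc k h ∈ Submodule.span ℂ (intForms k) := by
  have : (Submodule.span ℂ (intForms (k - 12))).map (mulDisc k) ≤
      Submodule.span ℂ (intForms k) := by
    rw [Submodule.map_span, Submodule.span_le]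
    rintro _ ⟨h', hh', rfl⟩
    apply mem_span_intForms_of_bd
    rw [qExpansion_mulDisc]
    exact mul_mem discriminant_qExpansion_mem_bdSeries (intSeries_le_bdSeries hh')
  exact this (Submodule.mem_map_of_mem hh)

/-- Every level-one modular form is a complex combination of forms with integral
`q`-expansion. -/
theorem levelOne_mem_span_intForms :
    ∀ (n : ℕ) (k : ℤ), k.toNat = n → ∀ g : ModularForm 𝒮ℒ k,
      g ∈ Submodule.span ℂ (intForms k) := by
  intro n
  induction n using Nat.strong_induction_on with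
  | _ n ih =>
  intro k hkn g
  rcases lt_or_ge k 0 with hneg | hnonneg
  · have : g = 0 := rank_zero_iff_forall_zero.mp (levelOne_neg_weight_rank_zero hneg) g
    rw [this]; exact zero_mem _
  rcases Int.even_or_odd k with heven | hodd
  swap
  · rw [levelOne_odd_weight_eq_zero hodd g]; exact zero_mem _
  lift k to ℕ using hnonneg
  have heven' : Even k := by exact_mod_cast heven
  rcases Nat.lt_or_ge k 3 with hlt | hge
  · -- k = 0 or k = 2
    have hk02 : k = 0 ∨ k = 2 := by
      obtain ⟨j, hj⟩ := heven'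
      omega
    rcases hk02 with rfl | rfl
    · obtain ⟨c, hc⟩ := levelOne_weight_zero_const g
      have hg : g = c • (1 : ModularForm 𝒮ℒ 0) := by
        ext z
        simp [hc]
      rw [hg]
      refine Submodule.smul_mem _ _ (Submodule.subset_span ?_)
      show qExpansion 1 (1 : ModularForm 𝒮ℒ 0) ∈ intSeries
      rw [ModularForm.qExpansion_one]
      exact one_mem _
    · have : g = 0 :=
        rank_zero_iff_forall_zero.mp levelOne_weight_two_rank_zero g
      rw [this]; exact zero_mem _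
  · -- k ≥ 4 even
    set a₀ : ℂ := (qExpansion 1 g).coeff 0 with ha₀
    set f0 : ModularForm 𝒮ℒ k := g - a₀ • E hge with hf0
    have h0 : (qExpansion 1 f0).coeff 0 = 0 := by
      rw [hf0, FunLike.coe_sub, ModularForm.qExpansion_sub one_pos one_mem_strictPeriods_SL,
        FunLike.coe_smul, ModularForm.qExpansion_smul one_pos one_mem_strictPeriods_SL, map_sub,
        PowerSeries.coeff_smul, E_qExpansion_coeff_zero hge heven']
      simp [ha₀]
    set h : ModularForm 𝒮ℒ ((k : ℤ) - 12) := CuspForm.discriminantEquiv (toCuspForm f0 h0) with hh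
    have hf0eq : f0 = mulDisc (k : ℤ) h := by
      ext z
      rw [mulDisc_apply, hh, discriminant_mul_discriminantEquiv_apply, toCuspForm_apply]
    have hhmem : h ∈ Submodule.span ℂ (intForms ((k : ℤ) - 12)) := by
      rcases lt_or_ge ((k : ℤ) - 12) 0 with hneg | hnn
      · have : h = 0 := rank_zero_iff_forall_zero.mp (levelOne_neg_weight_rank_zero hneg) h
        rw [this]; exact zero_mem _
      · refine ih ((k : ℤ) - 12).toNat ?_ _ rfl h
        have : ((k : ℤ)).toNat = n := hkn
        omega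
    have hE : E hge ∈ Submodule.span ℂ (intForms (k : ℤ)) :=
      mem_span_intForms_of_bd _ (E_qExpansion_mem_bdSeries hge heven')
    have hg : g = a₀ • E hge + f0 := by rw [hf0]; abel
    rw [hg]
    exact add_mem (Submodule.smul_mem _ _ hE) (hf0eq ▸ mulDisc_mem_span h hhmem)

theorem levelOne_span_integral (k : ℤ) : Submodule.span ℂ (intForms k) = ⊤ :=
  eq_top_iff.mpr fun g _ => levelOne_mem_span_intForms _ k rfl g

/-- The `q`-expansion of any level-one form is a finite complex combination of integral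
power series. -/
theorem levelOne_qExpansion_mem_span (k : ℤ) (g : ModularForm 𝒮ℒ k) :
    qExpansion 1 g ∈ Submodule.span ℂ (intSeries : Set (PowerSeries ℂ)) := by
  have hg : g ∈ Submodule.span ℂ (intForms k) := levelOne_mem_span_intForms _ k rfl g
  -- the q-expansion map is linear
  let Q : ModularForm 𝒮ℒ k →ₗ[ℂ] PowerSeries ℂ :=
    { toFun := fun g => qExpansion 1 g
      map_add' := fun a b => by
        rw [FunLike.coe_add, ModularForm.qExpansion_add one_pos one_mem_strictPeriods_SL]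
      map_smul' := fun c a => by
        rw [FunLike.coe_smul, ModularForm.qExpansion_smul one_pos one_mem_strictPeriods_SL]
        rfl }
  have : (Submodule.span ℂ (intForms k)).map Q ≤
      Submodule.span ℂ (intSeries : Set (PowerSeries ℂ)) := by
    rw [Submodule.map_span, Submodule.span_le]
    rintro _ ⟨g', hg', rfl⟩
    exact Submodule.subset_span hg'
  exact this (Submodule.mem_map_of_mem hg)

end

end Fermat.Agent.S23.LevelOneIntegral
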