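import Mathlib
import Fermat.Agent.S23.LevelOneIntegral
import Fermat.Agent.S23.BoundedDenominatorsField

/-!
# S23, bounded denominators: pure algebra

* `coeffMap lam`: apply a `ℚ`-linear functional `lam : ℂ →ₗ[ℚ] ℚ` coefficientwise to a power
  series over `ℂ`; it is linear over power series with rational coefficients.
* `bdQ`: rational power series with bounded denominators.
* `bd_core`: a rational power series which is a root of a monic polynomial with coefficients in
  `bdQ` and which is a quotient of two elements of `bdQ` has bounded denominators.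
-/

set_option autoImplicit false

namespace Fermat.Agent.S23.RatRetract

open PowerSeries Fermat.Agent.S23.LevelOneIntegral

noncomputable section

/-- The coefficientwise cast `ℤ⟦X⟧ →+* ℚ⟦X⟧`. -/
abbrev castQ : PowerSeries ℤ →+* PowerSeries ℚ := PowerSeries.map (Int.castRingHom ℚ)

/-- The coefficientwise cast `ℚ⟦X⟧ →+* ℂ⟦X⟧`. -/
abbrev ratC : PowerSeries ℚ →+* PowerSeries ℂ := PowerSeries.map (algebraMap ℚ ℂ)

theorem castQ_zsmul (d : ℤ) (P : PowerSeries ℤ) : castQ (d • P) = (d : ℚ) • castQ P := by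
  rw [map_zsmul, Int.cast_smul_eq_zsmul]

/-- Apply a `ℚ`-linear functional coefficientwise. -/
def coeffMap (lam : ℂ →ₗ[ℚ] ℚ) : PowerSeries ℂ →ₗ[ℚ] PowerSeries ℚ where
  toFun p := PowerSeries.mk fun n => lam (p.coeff n)
  map_add' p q := by
    ext n
    simp
  map_smul' r p := by
    ext n
    rw [coeff_mk, RingHom.id_apply, PowerSeries.coeff_smul, PowerSeries.coeff_smul, coeff_mk,
      map_smul]

@[simp] theorem coeff_coeffMap (lam : ℂ →ₗ[ℚ] ℚ) (p : PowerSeries ℂ) (n : ℕ) :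
    (coeffMap lam p).coeff n = lam (p.coeff n) := by
  simp [coeffMap]

theorem lam_ratCast_mul (lam : ℂ →ₗ[ℚ] ℚ) (r : ℚ) (x : ℂ) : lam ((r : ℂ) * x) = r * lam x := by
  have : (r : ℂ) * x = r • x := by
    rw [Rat.smul_def]
  rw [this, map_smul, smul_eq_mul]

theorem coeffMap_ratC_mul (lam : ℂ →ₗ[ℚ] ℚ) (a : PowerSeries ℚ) (b : PowerSeries ℂ) :
    coeffMap lam (ratC a * b) = a * coeffMap lam b := by
  ext n
  rw [coeff_coeffMap, PowerSeries.coeff_mul, PowerSeries.coeff_mul, map_sum]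
  refine Finset.sum_congr rfl fun x _ => ?_
  rw [coeff_coeffMap, PowerSeries.coeff_map]
  exact lam_ratCast_mul lam _ _

theorem coeffMap_mul_ratC (lam : ℂ →ₗ[ℚ] ℚ) (a : PowerSeries ℚ) (b : PowerSeries ℂ) :
    coeffMap lam (b * ratC a) = coeffMap lam b * a := by
  rw [mul_comm, coeffMap_ratC_mul, mul_comm]

theorem coeffMap_one (lam : ℂ →ₗ[ℚ] ℚ) (hlam : lam 1 = 1) : coeffMap lam 1 = 1 := by
  ext n
  rw [coeff_coeffMap, PowerSeries.coeff_one, PowerSeries.coeff_one]
  split_ifs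
  · exact hlam
  · exact map_zero lam

theorem coeffMap_ratC (lam : ℂ →ₗ[ℚ] ℚ) (hlam : lam 1 = 1) (a : PowerSeries ℚ) :
    coeffMap lam (ratC a) = a := by
  have := coeffMap_ratC_mul lam a 1
  rw [mul_one] at this
  rw [this, coeffMap_one lam hlam, mul_one]

/-- There is a `ℚ`-linear functional on `ℂ` taking the value `1` at a given nonzero `x`. -/
theorem exists_functional {x : ℂ} (hx : x ≠ 0) : ∃ lam : ℂ →ₗ[ℚ] ℚ, lam x = 1 := by
  have h := (Module.forall_dual_apply_eq_zero_iff ℚ x).not.mpr hx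
  rw [not_forall] at h
  obtain ⟨φ, hφ⟩ := h
  refine ⟨(φ x)⁻¹ • φ, ?_⟩
  rw [LinearMap.smul_apply, smul_eq_mul, inv_mul_cancel₀ hφ]

/-- Rational power series with bounded denominators. -/
def bdQ : Subring (PowerSeries ℚ) where
  carrier := {p | ∃ c : ℤ, c ≠ 0 ∧ (c : ℚ) • p ∈ castQ.range}
  mul_mem' := by
    rintro p q ⟨c, hc, P, hP⟩ ⟨d, hd, Q, hQ⟩
    refine ⟨c * d, mul_ne_zero hc hd, P * Q, ?_⟩
    rw [map_mul, hP, hQ, smul_mul_smul_comm]
    push_cast
    rfl
  one_mem' := ⟨1, one_ne_zero, 1, by simp⟩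
  add_mem' := by
    rintro p q ⟨c, hc, P, hP⟩ ⟨d, hd, Q, hQ⟩
    refine ⟨c * d, mul_ne_zero hc hd, d • P + c • Q, ?_⟩
    rw [map_add, castQ_zsmul, castQ_zsmul, hP, hQ, smul_smul, smul_smul, smul_add]
    push_cast
    rw [mul_comm (d : ℚ) (c : ℚ)]
  zero_mem' := ⟨1, one_ne_zero, 0, by simp⟩
  neg_mem' := by
    rintro p ⟨c, hc, P, hP⟩
    exact ⟨c, hc, -P, by rw [map_neg, hP, smul_neg]⟩

theorem mem_bdQ_iff (p : PowerSeries ℚ) :
    p ∈ bdQ ↔ ∃ c : ℤ, c ≠ 0 ∧ (c : ℚ) • p ∈ castQ.range := Iff.rfl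

theorem castQ_mem_bdQ (P : PowerSeries ℤ) : castQ P ∈ bdQ :=
  ⟨1, one_ne_zero, P, by simp⟩

theorem rat_smul_mem_bdQ (r : ℚ) {p : PowerSeries ℚ} (hp : p ∈ bdQ) : r • p ∈ bdQ := by
  obtain ⟨c, hc, P, hP⟩ := hp
  refine ⟨c * r.den, mul_ne_zero hc (by exact_mod_cast r.den_ne_zero), r.num • P, ?_⟩
  rw [castQ_zsmul, hP, smul_smul, smul_smul]
  congr 1
  have hden : (r.den : ℚ) ≠ 0 := by exact_mod_cast r.den_ne_zero
  have hr : (r.num : ℚ) = r * (r.den : ℚ) := by
    rw [← Rat.num_div_den r]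
    simp
  push_cast
  rw [hr]
  ring

/-- A common denominator for a finite family of elements of `bdQ`. -/
theorem exists_common_denominator {ι : Type*} (s : Finset ι) (p : ι → PowerSeries ℚ)
    (hp : ∀ i ∈ s, p i ∈ bdQ) :
    ∃ c : ℤ, c ≠ 0 ∧ ∀ i ∈ s, (c : ℚ) • p i ∈ castQ.range := by
  classical
  induction s using Finset.induction_on with
  | empty => exact ⟨1, one_ne_zero, by simp⟩
  | insert a s ha ih =>
    obtain ⟨c, hc, hcs⟩ := ih fun i hi => hp i (Finset.mem_insert_of_mem hi)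
    obtain ⟨d, hd, P, hP⟩ := hp a (Finset.mem_insert_self a s)
    refine ⟨c * d, mul_ne_zero hc hd, fun i hi => ?_⟩
    rcases Finset.mem_insert.mp hi with rfl | his
    · refine ⟨c • P, ?_⟩
      rw [castQ_zsmul, hP, smul_smul]
      push_cast
      rfl
    · obtain ⟨Q, hQ⟩ := hcs i his
      refine ⟨d • Q, ?_⟩
      rw [castQ_zsmul, hQ, smul_smul]
      push_cast
      rw [mul_comm]

/-- Coefficientwise functionals send complex combinations of integral series to series with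
bounded denominators. -/
theorem coeffMap_mem_bdQ {p : PowerSeries ℂ}
    (hp : p ∈ Submodule.span ℂ (intSeries : Set (PowerSeries ℂ))) :
    ∀ lam : ℂ →ₗ[ℚ] ℚ, coeffMap lam p ∈ bdQ := by
  induction hp using Submodule.span_induction with
  | mem p hp =>
    intro lam
    obtain ⟨P, rfl⟩ := hp
    have : coeffMap lam (PowerSeries.map (Int.castRingHom ℂ) P) = (lam 1) • castQ P := by
      ext n
      rw [coeff_coeffMap, PowerSeries.coeff_map, PowerSeries.coeff_smul, PowerSeries.coeff_map,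
        smul_eq_mul]
      have h1 : ((Int.castRingHom ℂ) (P.coeff n)) = ((P.coeff n : ℚ) : ℂ) * 1 := by
        simp
      rw [h1, lam_ratCast_mul, mul_comm]
      simp
    rw [this]
    exact rat_smul_mem_bdQ _ (castQ_mem_bdQ P)
  | zero =>
    intro lam
    rw [map_zero]
    exact zero_mem _
  | add p q _ _ ihp ihq =>
    intro lam
    rw [map_add]
    exact add_mem (ihp lam) (ihq lam)
  | smul x p _ ih =>
    intro lam
    let lam' : ℂ →ₗ[ℚ] ℚ := lam.comp ((LinearMap.mulLeft ℂ x).restrictScalars ℚ)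
    have : coeffMap lam (x • p) = coeffMap lam' p := by
      ext n
      simp [lam']
    rw [this]
    exact ih lam'

/-- **Bounded denominators, algebraic core.** -/
theorem bd_core (h : PowerSeries ℚ) {μ : ℕ} (β : Fin μ → PowerSeries ℚ) (hβ : ∀ j, β j ∈ bdQ)
    (hrel : h ^ μ + ∑ j : Fin μ, β j * h ^ (μ - 1 - (j : ℕ)) = 0)
    (δ γ : PowerSeries ℚ) (hδ : δ ∈ bdQ) (hγ : γ ∈ bdQ) (hδ0 : δ ≠ 0) (hδγ : h * δ = γ) :
    ∃ c : ℤ, c ≠ 0 ∧ (c : ℚ) • h ∈ castQ.range := by
  classical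
  -- a common denominator for all β j, δ, γ
  let fam : Option (Option (Fin μ)) → PowerSeries ℚ := fun i =>
    match i with
    | none => δ
    | some none => γ
    | some (some j) => β j
  have hfam : ∀ i ∈ (Finset.univ : Finset (Option (Option (Fin μ)))), fam i ∈ bdQ := by
    rintro (_ | _ | j) _
    · exact hδ
    · exact hγ
    · exact hβ j
  obtain ⟨c, hc, hcall⟩ := exists_common_denominator Finset.univ fam hfam
  obtain ⟨Dl, hDl⟩ : ∃ Dl, castQ Dl = (c : ℚ) • δ := hcall none (Finset.mem_univ _)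
  obtain ⟨Gl, hGl⟩ : ∃ Gl, castQ Gl = (c : ℚ) • γ := hcall (some none) (Finset.mem_univ _)
  have hBl : ∀ j : Fin μ, ∃ B : PowerSeries ℤ, castQ B = (c : ℚ) • β j := fun j =>
    hcall (some (some j)) (Finset.mem_univ _)
  choose B hB using hBl
  have hcQ : (c : ℚ) ≠ 0 := by exact_mod_cast hc
  refine ⟨c, hc, ?_⟩
  -- apply the bounded denominator theorem to h' = c • h
  set h' : PowerSeries ℚ := (c : ℚ) • h with hh'
  have hd : Dl ≠ 0 := by
    intro h0
    rw [h0, map_zero] at hDl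
    have : δ = 0 := by
      have := congrArg (fun p => (c : ℚ)⁻¹ • p) hDl
      simpa [smul_smul, inv_mul_cancel₀ hcQ] using this.symm
    exact hδ0 this
  have hda : castQ Dl * h' = castQ (c • Gl) := by
    rw [hDl, castQ_zsmul, hGl, hh', ← hδγ, smul_mul_smul_comm, smul_smul, mul_comm δ h]
  -- the monic polynomial
  let p : Polynomial (PowerSeries ℤ) :=
    Polynomial.X ^ μ + ∑ j : Fin μ,
      Polynomial.C ((c ^ (j : ℕ)) • B j) * Polynomial.X ^ (μ - 1 - (j : ℕ))
  have hpmonic : p.Monic := by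
    refine Polynomial.monic_X_pow_add ?_
    refine lt_of_le_of_lt (Polynomial.degree_sum_le _ _) ?_
    rw [Finset.sup_lt_iff (by exact WithBot.bot_lt_coe μ)]
    intro j _
    refine lt_of_le_of_lt (Polynomial.degree_C_mul_X_pow_le _ _) ?_
    have : μ - 1 - (j : ℕ) < μ := by have := j.2; omega
    exact_mod_cast this
  have hpeval : p.eval₂ castQ h' = 0 := by
    have hsum : p.eval₂ castQ h' = h' ^ μ + ∑ j : Fin μ,
        castQ ((c ^ (j : ℕ)) • B j) * h' ^ (μ - 1 - (j : ℕ)) := by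
      simp only [p, Polynomial.eval₂_add, Polynomial.eval₂_finsetSum, Polynomial.eval₂_mul,
        Polynomial.eval₂_pow, Polynomial.eval₂_X, Polynomial.eval₂_C]
    rw [hsum]
    have hterm : ∀ j : Fin μ, castQ ((c ^ (j : ℕ)) • B j) * h' ^ (μ - 1 - (j : ℕ)) =
        (c : ℚ) ^ μ • (β j * h ^ (μ - 1 - (j : ℕ))) := by
      intro j
      have hj : (j : ℕ) + 1 + (μ - 1 - (j : ℕ)) = μ := by have := j.2; omega
      rw [castQ_zsmul, hB j, hh', smul_pow, smul_smul, smul_mul_smul_comm]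
      congr 1
      push_cast
      rw [← pow_succ, ← pow_add, hj]
    rw [Finset.sum_congr rfl fun j _ => hterm j, ← Finset.smul_sum, hh', smul_pow, ← smul_add,
      hrel, smul_zero]
  obtain ⟨g, hg⟩ := Fermat.Agent.S23.exists_map_eq_of_isIntegralElem (K := ℚ) hd hda
    ⟨p, hpmonic, hpeval⟩
  exact ⟨g, hg⟩

end

end Fermat.Agent.S23.RatRetract
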