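import Mathlib
import Fermat.Agent.S23.RatRetract
import Fermat.Agent.S23.HolAtInfty
import Fermat.Agent.S23.LagrangeData
import Fermat.Prelude.Thm_CongruenceSubgroup_one_mem_strictPeriods_Gamma0

/-!
# S23, bounded denominators: from Lagrange data to an integral multiple

Given a cusp form `f` on `Γ₀(N)` with rational `q`-expansion and a separating modular form `t` on
`Γ₀(N)` whose `q`-expansion has bounded denominators, some nonzero integer multiple of `f` has
integral `q`-expansion.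
-/

set_option autoImplicit false

namespace Fermat.Agent.S23.BoundedDenomCore

open UpperHalfPlane Matrix.SpecialLinearGroup PowerSeries
open Fermat.Agent.S23 Fermat.Agent.S23.LevelOneIntegral Fermat.Agent.S23.RatRetract
open scoped MatrixGroups ModularForm Manifold

noncomputable section

/-- A complex power series with bounded denominators comes from a rational one. -/
theorem exists_bdQ_of_mem_bdSeries {p : PowerSeries ℂ} (hp : p ∈ bdSeries) :
    ∃ τ : PowerSeries ℚ, τ ∈ bdQ ∧ ratC τ = p := by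
  obtain ⟨c, hc, P, hP⟩ := hp
  have hcQ : (c : ℚ) ≠ 0 := by exact_mod_cast hc
  have hcC : (c : ℂ) ≠ 0 := by exact_mod_cast hc
  refine ⟨(c : ℚ)⁻¹ • castQ P, rat_smul_mem_bdQ _ (castQ_mem_bdQ P), ?_⟩
  ext n
  have h1 := congrArg (fun q => q.coeff n) hP
  simp only [PowerSeries.coeff_map, PowerSeries.coeff_smul, smul_eq_mul] at h1
  rw [PowerSeries.coeff_map, PowerSeries.coeff_smul, PowerSeries.coeff_map, smul_eq_mul]
  have h2 : (p.coeff n) = (c : ℂ)⁻¹ * ((P.coeff n : ℤ) : ℂ) := by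
    have : ((Int.castRingHom ℂ) (P.coeff n)) = ((P.coeff n : ℤ) : ℂ) := rfl
    rw [this] at h1
    rw [h1, ← mul_assoc, inv_mul_cancel₀ hcC, one_mul]
  rw [h2]
  simp

/-- A complex power series with rational coefficients comes from a rational one. -/
theorem exists_ratC_eq {p : PowerSeries ℂ} (hp : ∀ n, ∃ r : ℚ, p.coeff n = (r : ℂ)) :
    ∃ h : PowerSeries ℚ, ratC h = p := by
  choose r hr using hp
  refine ⟨PowerSeries.mk r, ?_⟩
  ext n
  rw [PowerSeries.coeff_map, PowerSeries.coeff_mk, hr n]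
  rfl

theorem ratC_injective : Function.Injective ratC :=
  PowerSeries.map_injective (algebraMap ℚ ℂ) (algebraMap ℚ ℂ).injective

variable {N : ℕ} [NeZero N]

/-- The main glue statement with an abstract separating form `t`. -/
theorem exists_int_multiple_of_separating {k l : ℤ}
    (f : CuspForm ((CongruenceSubgroup.Gamma0 N : Subgroup SL(2, ℤ)) : Subgroup (GL (Fin 2) ℝ)) k)
    (t : ModularForm ((CongruenceSubgroup.Gamma0 N : Subgroup SL(2, ℤ)) : Subgroup (GL (Fin 2) ℝ)) l)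
    (ht : ∀ h : SL(2, ℤ), h ∉ CongruenceSubgroup.Gamma0 N →
      ((t : ℍ → ℂ) ∣[l] (mapGL ℝ h : GL (Fin 2) ℝ)) ≠ (t : ℍ → ℂ))
    (htq : qExpansion 1 t ∈ bdSeries)
    (hf : ∀ n, ∃ r : ℚ, (qExpansion 1 f).coeff n = (r : ℂ)) :
    ∃ c : ℤ, c ≠ 0 ∧ ∀ n, ∃ a : ℤ, (c : ℂ) * (qExpansion 1 f).coeff n = (a : ℂ) := by
  classical
  obtain ⟨μ, b, c, d, -, hvieta, hlag, ⟨z0, hz0⟩⟩ :=
    exists_lagrange_data (CongruenceSubgroup.Gamma0 N) f t ht
  -- holomorphy at infinity
  have hΓ := CongruenceSubgroup.one_mem_strictPeriods_Gamma0 N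
  have Hf : HolAtInfty (f : ℍ → ℂ) := HolAtInfty.of_cuspForm hΓ f
  have Ht : HolAtInfty (t : ℍ → ℂ) := HolAtInfty.of_modularForm hΓ t
  have Hb : ∀ j, HolAtInfty (b j : ℍ → ℂ) := fun j =>
    HolAtInfty.of_modularForm one_mem_strictPeriods_SL (b j)
  have Hc : ∀ m, HolAtInfty (c m : ℍ → ℂ) := fun m =>
    HolAtInfty.of_modularForm one_mem_strictPeriods_SL (c m)
  have Hd : ∀ m, HolAtInfty (d m : ℍ → ℂ) := fun m =>
    HolAtInfty.of_modularForm one_mem_strictPeriods_SL (d m)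
  -- names for q-expansions
  set Fq : PowerSeries ℂ := qExpansion 1 f with hFq
  set Tq : PowerSeries ℂ := qExpansion 1 t with hTq
  -- (Q1) the Vieta relation on q-expansions
  have hQ1 : Fq ^ μ + ∑ j : Fin μ, qExpansion 1 (b j) * Fq ^ (μ - 1 - (j : ℕ)) = 0 := by
    have hfun : ((f : ℍ → ℂ) ^ μ + ∑ j : Fin μ, (b j : ℍ → ℂ) * (f : ℍ → ℂ) ^ (μ - 1 - (j : ℕ)))
        = 0 := by
      funext z
      simp only [Pi.add_apply, Pi.pow_apply, Finset.sum_apply, Pi.mul_apply, Pi.zero_apply]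
      exact hvieta z
    have h1 := congrArg (qExpansion 1) hfun
    rw [qExpansion_zero, qExpansion_add' (Hf.pow μ)
      (HolAtInfty.sum _ fun j _ => (Hb j).mul (Hf.pow _)), qExpansion_pow' Hf,
      qExpansion_sum' _ fun j _ => (Hb j).mul (Hf.pow _)] at h1
    rw [← h1]
    congr 1
    refine Finset.sum_congr rfl fun j _ => ?_
    rw [qExpansion_mul' (Hb j) (Hf.pow _), qExpansion_pow' Hf]
  -- (Q2) the Lagrange relation on q-expansions
  set Dfun : ℍ → ℂ := ∑ m : Fin μ, (d m : ℍ → ℂ) * (t : ℍ → ℂ) ^ (m : ℕ) with hDfun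
  set Cfun : ℍ → ℂ := ∑ m : Fin μ, (c m : ℍ → ℂ) * (t : ℍ → ℂ) ^ (m : ℕ) with hCfun
  have HD : HolAtInfty Dfun := HolAtInfty.sum _ fun m _ => (Hd m).mul (Ht.pow _)
  have HC : HolAtInfty Cfun := HolAtInfty.sum _ fun m _ => (Hc m).mul (Ht.pow _)
  have hDq : qExpansion 1 Dfun = ∑ m : Fin μ, qExpansion 1 (d m) * Tq ^ (m : ℕ) := by
    rw [hDfun, qExpansion_sum' _ fun m _ => (Hd m).mul (Ht.pow _)]
    refine Finset.sum_congr rfl fun m _ => ?_
    rw [qExpansion_mul' (Hd m) (Ht.pow _), qExpansion_pow' Ht]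
  have hCq : qExpansion 1 Cfun = ∑ m : Fin μ, qExpansion 1 (c m) * Tq ^ (m : ℕ) := by
    rw [hCfun, qExpansion_sum' _ fun m _ => (Hc m).mul (Ht.pow _)]
    refine Finset.sum_congr rfl fun m _ => ?_
    rw [qExpansion_mul' (Hc m) (Ht.pow _), qExpansion_pow' Ht]
  have hQ2 : Fq * qExpansion 1 Dfun = qExpansion 1 Cfun := by
    have hfun : (f : ℍ → ℂ) * Dfun = Cfun := by
      funext z
      simp only [hDfun, hCfun, Pi.mul_apply, Finset.sum_apply, Pi.pow_apply]
      exact hlag z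
    rw [← hfun, qExpansion_mul' Hf HD]
  have hDne : qExpansion 1 Dfun ≠ 0 := by
    intro h0
    have := HD.eq_zero_of_qExpansion h0
    apply hz0
    have h2 := congrFun this z0
    simpa only [hDfun, Finset.sum_apply, Pi.mul_apply, Pi.pow_apply, Pi.zero_apply] using h2
  -- rational models
  obtain ⟨h, hh⟩ := exists_ratC_eq hf
  obtain ⟨τ, hτ, hτT⟩ := exists_bdQ_of_mem_bdSeries htq
  have hFq' : Fq = ratC h := hh.symm
  have hTq' : Tq = ratC τ := hτT.symm
  -- level-one q-expansions are complex combinations of integral series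
  have hbspan : ∀ j, qExpansion 1 (b j) ∈ Submodule.span ℂ (intSeries : Set (PowerSeries ℂ)) :=
    fun j => levelOne_qExpansion_mem_span _ (b j)
  have hcspan : ∀ m, qExpansion 1 (c m) ∈ Submodule.span ℂ (intSeries : Set (PowerSeries ℂ)) :=
    fun m => levelOne_qExpansion_mem_span _ (c m)
  have hdspan : ∀ m, qExpansion 1 (d m) ∈ Submodule.span ℂ (intSeries : Set (PowerSeries ℂ)) :=
    fun m => levelOne_qExpansion_mem_span _ (d m)
  -- first functional: lam1 1 = 1
  obtain ⟨lam1, hlam1⟩ := exists_functional (one_ne_zero : (1 : ℂ) ≠ 0)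
  have hrel : h ^ μ + ∑ j : Fin μ, coeffMap lam1 (qExpansion 1 (b j)) * h ^ (μ - 1 - (j : ℕ))
      = 0 := by
    have h1 := congrArg (coeffMap lam1) hQ1
    rw [map_add, map_sum, map_zero, hFq', ← map_pow, coeffMap_ratC lam1 hlam1] at h1
    rw [← h1]
    congr 1
    refine Finset.sum_congr rfl fun j _ => ?_
    rw [← map_pow, coeffMap_mul_ratC]
  -- second functional: nonzero on a nonzero coefficient of D
  obtain ⟨n0, hn0⟩ : ∃ n, (qExpansion 1 Dfun).coeff n ≠ 0 := by
    by_contra hall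
    push Not at hall
    exact hDne (PowerSeries.ext fun n => by rw [hall n, map_zero])
  obtain ⟨lam2, hlam2⟩ := exists_functional hn0
  set δ : PowerSeries ℚ := coeffMap lam2 (qExpansion 1 Dfun) with hδ
  set γ : PowerSeries ℚ := coeffMap lam2 (qExpansion 1 Cfun) with hγ
  have hδeq : δ = ∑ m : Fin μ, coeffMap lam2 (qExpansion 1 (d m)) * τ ^ (m : ℕ) := by
    rw [hδ, hDq, map_sum]
    refine Finset.sum_congr rfl fun m _ => ?_
    rw [hTq', ← map_pow, coeffMap_mul_ratC]
  have hγeq : γ = ∑ m : Fin μ, coeffMap lam2 (qExpansion 1 (c m)) * τ ^ (m : ℕ) := by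
    rw [hγ, hCq, map_sum]
    refine Finset.sum_congr rfl fun m _ => ?_
    rw [hTq', ← map_pow, coeffMap_mul_ratC]
  have hδmem : δ ∈ bdQ := by
    rw [hδeq]
    exact sum_mem fun m _ => mul_mem (coeffMap_mem_bdQ (hdspan m) lam2) (pow_mem hτ _)
  have hγmem : γ ∈ bdQ := by
    rw [hγeq]
    exact sum_mem fun m _ => mul_mem (coeffMap_mem_bdQ (hcspan m) lam2) (pow_mem hτ _)
  have hδ0 : δ ≠ 0 := by
    intro h0
    have := congrArg (fun p => p.coeff n0) h0
    simp only [hδ, coeff_coeffMap, map_zero] at this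
    rw [hlam2] at this
    exact one_ne_zero this
  have hδγ : h * δ = γ := by
    have h1 := congrArg (coeffMap lam2) hQ2
    rw [hFq', coeffMap_ratC_mul] at h1
    exact h1
  obtain ⟨c0, hc0, g, hg⟩ := bd_core h (fun j => coeffMap lam1 (qExpansion 1 (b j)))
    (fun j => coeffMap_mem_bdQ (hbspan j) lam1) hrel δ γ hδmem hγmem hδ0 hδγ
  refine ⟨c0, hc0, fun n => ⟨g.coeff n, ?_⟩⟩
  have h1 := congrArg (fun p => p.coeff n) hg
  simp only [PowerSeries.coeff_map, PowerSeries.coeff_smul, smul_eq_mul] at h1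
  have h2 : Fq.coeff n = ((h.coeff n : ℚ) : ℂ) := by
    rw [hFq', PowerSeries.coeff_map]; rfl
  rw [h2]
  have h3 : ((c0 : ℚ) * h.coeff n : ℚ) = ((g.coeff n : ℤ) : ℚ) := by
    rw [← h1]; rfl
  have h4 := congrArg (fun x : ℚ => (x : ℂ)) h3
  simp only [Rat.cast_mul, Rat.cast_intCast] at h4
  exact h4

end

end Fermat.Agent.S23.BoundedDenomCore
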