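import Mathlib
import Fermat.Agent.S23.Defs

/-!
# S23, piece P5: `E₄(N z)` is a modular form on `Γ₀(N)` with integral `q`-expansion

Main results (all for `(N : ℕ) [NeZero N]`):
* `E4NForm N : ModularForm Γ₀(N) 4` with `coe_E4NForm : ⇑(E4NForm N) = E4N N`;
* `E4N_apply : E4N N z = E₄ (alphaN N • z)` and `coe_alphaN_smul : ↑(alphaN N • z) = N * z`;
* `qExpansion_E4NForm_coeff : (qExpansion 1 (E4NForm N)).coeff n
    = if N ∣ n then (qExpansion 1 E₄).coeff (n / N) else 0`;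
* `exists_E4N_form` (the requested statement).
-/

namespace Fermat.Agent.S23

open UpperHalfPlane Matrix.SpecialLinearGroup ModularForm EisensteinSeries
open scoped MatrixGroups ModularForm Manifold

variable (N : ℕ) [NeZero N]

lemma val_alphaN : ((alphaN N : GL (Fin 2) ℝ) : Matrix (Fin 2) (Fin 2) ℝ) = !![(N : ℝ), 0; 0, 1] :=
  rfl

/-- For `γ ∈ Γ₀(N)`, the conjugate `diag(N,1) γ diag(N,1)⁻¹ = [[a, N b], [c / N, d]]`. -/
noncomputable def conjGamma0 (γ : SL(2, ℤ)) (hγ : γ ∈ CongruenceSubgroup.Gamma0 N) : SL(2, ℤ) :=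
  ⟨!![γ 0 0, (N : ℤ) * γ 0 1; γ 1 0 / (N : ℤ), γ 1 1], by
    have hdvd : (N : ℤ) ∣ γ 1 0 :=
      (ZMod.intCast_zmod_eq_zero_iff_dvd _ _).mp (CongruenceSubgroup.Gamma0_mem.mp hγ)
    obtain ⟨c, hc⟩ := hdvd
    have hN : (N : ℤ) ≠ 0 := by exact_mod_cast NeZero.ne N
    have hdet := γ.det_coe
    rw [Matrix.det_fin_two] at hdet
    rw [Matrix.det_fin_two_of, hc, Int.mul_ediv_cancel_left _ hN]
    rw [hc] at hdet
    linarith⟩

lemma alphaN_mul_mapGL (γ : SL(2, ℤ)) (hγ : γ ∈ CongruenceSubgroup.Gamma0 N) :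
    alphaN N * mapGL ℝ γ = mapGL ℝ (conjGamma0 N γ hγ) * alphaN N := by
  have hdvd : (N : ℤ) ∣ γ 1 0 :=
    (ZMod.intCast_zmod_eq_zero_iff_dvd _ _).mp (CongruenceSubgroup.Gamma0_mem.mp hγ)
  obtain ⟨c, hc⟩ := hdvd
  have hN : (N : ℤ) ≠ 0 := by exact_mod_cast NeZero.ne N
  apply Units.ext
  rw [Units.val_mul, Units.val_mul, val_alphaN]
  show !![(N : ℝ), 0; 0, 1] * (γ.val.map (algebraMap ℤ ℝ)) =
    ((conjGamma0 N γ hγ).val.map (algebraMap ℤ ℝ)) * !![(N : ℝ), 0; 0, 1]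
  have hval : (conjGamma0 N γ hγ).val =
      !![γ 0 0, (N : ℤ) * γ 0 1; γ 1 0 / (N : ℤ), γ 1 1] := rfl
  rw [hval]
  ext i j
  fin_cases i <;> fin_cases j <;>
    simp [Matrix.mul_apply, Fin.sum_univ_two, hc, Int.mul_ediv_cancel_left _ hN] <;> ring

open ConjAct Pointwise in
lemma gamma0_le_conj :
    ((CongruenceSubgroup.Gamma0 N : Subgroup SL(2, ℤ)) : Subgroup (GL (Fin 2) ℝ)) ≤
      toConjAct (alphaN N)⁻¹ • 𝒮ℒ := by
  rintro g ⟨γ, hγ, rfl⟩
  rw [map_inv, Subgroup.mem_inv_pointwise_smul_iff, toConjAct_smul]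
  rw [alphaN_mul_mapGL N γ hγ, mul_inv_cancel_right]
  exact ⟨_, rfl⟩

/-- `E₄(N z)` as a modular form for `Γ₀(N)`. -/
noncomputable def E4NForm :
    ModularForm ((CongruenceSubgroup.Gamma0 N : Subgroup SL(2, ℤ)) : Subgroup (GL (Fin 2) ℝ)) 4 :=
  let t0 := (((N : ℝ) ^ 3)⁻¹) • ModularForm.translate E₄ (alphaN N)
  { toFun := t0
    slash_action_eq' := fun γ hγ => t0.slash_action_eq' γ (gamma0_le_conj N hγ)
    holo' := t0.holo'
    bdd_at_cusps' := fun hc => t0.bdd_at_cusps' (hc.mono (gamma0_le_conj N)) }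

lemma coe_E4NForm : (E4NForm N : ℍ → ℂ) = E4N N := by
  ext z
  show ((N : ℝ) ^ 3)⁻¹ • ((E₄ : ℍ → ℂ) ∣[(4 : ℤ)] alphaN N) z = E4N N z
  rw [Complex.real_smul]
  simp [E4N]

lemma det_alphaN : ((alphaN N).det : ℝ) = N := by
  rw [Matrix.GeneralLinearGroup.val_det_apply, val_alphaN, Matrix.det_fin_two_of]
  ring

lemma det_alphaN_pos : 0 < ((alphaN N).det : ℝ) := by
  rw [det_alphaN]
  exact_mod_cast Nat.pos_of_ne_zero (NeZero.ne N)

lemma coe_alphaN_smul (z : ℍ) : ((alphaN N • z : ℍ) : ℂ) = (N : ℂ) * z := by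
  rw [UpperHalfPlane.coe_smul_of_det_pos (det_alphaN_pos N)]
  simp [UpperHalfPlane.num, UpperHalfPlane.denom, val_alphaN]

lemma E4N_apply (z : ℍ) : E4N N z = E₄ (alphaN N • z) := by
  have hN : (N : ℂ) ≠ 0 := by exact_mod_cast NeZero.ne N
  have hσ : UpperHalfPlane.σ (alphaN N) = .refl ℝ ℂ := by
    rw [UpperHalfPlane.σ, if_pos (det_alphaN_pos N)]
  have hden : UpperHalfPlane.denom (alphaN N) z = 1 := by
    simp [UpperHalfPlane.denom, val_alphaN]
  simp only [E4N, Pi.smul_apply, smul_eq_mul, ModularForm.slash_apply, hσ, det_alphaN, hden]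
  simp only [ContinuousAlgEquiv.refl_apply, Nat.abs_cast, Complex.ofReal_natCast, one_zpow, mul_one]
  have : (4 : ℤ) - 1 = 3 := by norm_num
  rw [this]
  field_simp

local notation "𝕢" => Function.Periodic.qParam

lemma qParam_alphaN_smul (z : ℍ) : 𝕢 1 ((alphaN N • z : ℍ) : ℂ) = (𝕢 1 (z : ℂ)) ^ N := by
  simp only [Function.Periodic.qParam, coe_alphaN_smul]
  rw [← Complex.exp_nat_mul]
  congr 1
  push_cast
  ring

/-- The `q`-expansion coefficients of `E₄(N z)`. -/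
noncomputable def E4NCoeff (n : ℕ) : ℂ :=
  if N ∣ n then (qExpansion 1 E₄).coeff (n / N) else 0

lemma hasSum_E4N (τ : ℍ) :
    HasSum (fun n : ℕ ↦ E4NCoeff N n • 𝕢 (1 : ℝ) τ ^ n) (E4N N τ) := by
  have h1 := ModularForm.hasSum_qExpansion (f := E₄) one_pos one_mem_strictPeriods_SL
    (alphaN N • τ)
  rw [← E4N_apply, qParam_alphaN_smul] at h1
  have hNpos : 0 < N := Nat.pos_of_ne_zero (NeZero.ne N)
  have hinj : Function.Injective (fun m : ℕ => N * m) :=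
    fun a b h => Nat.eq_of_mul_eq_mul_left hNpos h
  rw [← hinj.hasSum_iff]
  · convert h1 using 2 with m
    simp only [Function.comp_apply, E4NCoeff, dvd_mul_right, if_true, Nat.mul_div_cancel_left _ hNpos,
      smul_eq_mul, pow_mul]
  · intro n hn
    have : ¬ N ∣ n := by
      rintro ⟨m, rfl⟩
      exact hn ⟨m, rfl⟩
    simp [E4NCoeff, this]

lemma qExpansion_E4NForm_coeff (n : ℕ) :
    (qExpansion 1 (E4NForm N)).coeff n = E4NCoeff N n := by
  have h1 : (1 : ℝ) ∈ ((CongruenceSubgroup.Gamma0 N : Subgroup SL(2, ℤ)) :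
      Subgroup (GL (Fin 2) ℝ)).strictPeriods := by simp
  refine (ModularFormClass.qExpansion_coeff_unique (f := E4NForm N) one_pos h1 ?_ n).symm
  intro τ
  have := hasSum_E4N N τ
  rwa [← coe_E4NForm] at this

lemma E₄_qExpansion_coeff_int (m : ℕ) : ∃ a : ℤ, (qExpansion 1 E₄).coeff m = (a : ℂ) := by
  rw [E_qExpansion_coeff _ ⟨2, rfl⟩]
  split_ifs with h
  · exact ⟨1, by simp⟩
  · refine ⟨240 * (ArithmeticFunction.sigma 3 m : ℤ), ?_⟩
    have hb : bernoulli 4 = -1 / 30 := by decide +kernel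
    push_cast
    rw [hb]
    norm_num

theorem exists_E4N_form :
    ∃ t : ModularForm ((CongruenceSubgroup.Gamma0 N : Subgroup SL(2, ℤ)) :
        Subgroup (GL (Fin 2) ℝ)) 4,
      (t : ℍ → ℂ) = E4N N ∧ ∀ n, ∃ a : ℤ, (qExpansion 1 t).coeff n = (a : ℂ) := by
  refine ⟨E4NForm N, coe_E4NForm N, fun n => ?_⟩
  rw [qExpansion_E4NForm_coeff, E4NCoeff]
  split_ifs with h
  · exact E₄_qExpansion_coeff_int _
  · exact ⟨0, by simp⟩

end Fermat.Agent.S23
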