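import Mathlib
import Fermat.Agent.S23.Defs

set_option autoImplicit false

namespace Fermat.Agent.S23

open UpperHalfPlane Matrix.SpecialLinearGroup Filter
open scoped MatrixGroups ModularForm Manifold Topology

noncomputable section

/-- `E₄ → 1` at `i∞`. -/
theorem tendsto_E4_atImInfty :
    Tendsto (ModularForm.E₄ : ℍ → ℂ) atImInfty (𝓝 1) := by
  have hper := SlashInvariantFormClass.periodic_comp_ofComplex ModularForm.E₄
    one_mem_strictPeriods_SL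
  have han := ModularFormClass.analyticAt_cuspFunction_zero ModularForm.E₄ one_pos
    one_mem_strictPeriods_SL
  have h1 : (cuspFunction 1 (ModularForm.E₄ : ℍ → ℂ) ∘
      fun τ : ℍ => Function.Periodic.qParam 1 τ : ℍ → ℂ) = ModularForm.E₄ := by
    funext τ
    simpa using eq_cuspFunction τ one_ne_zero hper
  have h2 := han.continuousAt.tendsto.comp (qParam_tendsto_atImInfty one_pos)
  rw [h1] at h2
  have h3 : cuspFunction 1 (ModularForm.E₄ : ℍ → ℂ) 0 = 1 := by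
    have := EisensteinSeries.E_qExpansion_coeff_zero (k := 4) (by norm_num) ⟨2, rfl⟩
    rw [qExpansion_coeff] at this
    simpa using this
  rwa [h3] at h2

/-- Upper triangular matrix `!![p, B; 0, r]` in `GL(2, ℝ)`. -/
def triGL (p B r : ℝ) (hp : p ≠ 0) (hr : r ≠ 0) : GL (Fin 2) ℝ :=
  Matrix.GeneralLinearGroup.mkOfDetNeZero !![p, B; 0, r]
    (by simp [Matrix.det_fin_two, hp, hr])

theorem triGL_det (p B r : ℝ) (hp : p ≠ 0) (hr : r ≠ 0) :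
    (triGL p B r hp hr).det.val = p * r := by
  simp [triGL, Matrix.GeneralLinearGroup.mkOfDetNeZero, Matrix.det_fin_two]

theorem triGL_denom (p B r : ℝ) (hp : p ≠ 0) (hr : r ≠ 0) (z : ℂ) :
    denom (triGL p B r hp hr) z = r := by
  simp [denom, triGL, Matrix.GeneralLinearGroup.mkOfDetNeZero]

theorem tendsto_triGL_smul (p B r : ℝ) (hp : 0 < p) (hr : 0 < r) :
    Tendsto (fun z : ℍ => triGL p B r hp.ne' hr.ne' • z) atImInfty atImInfty := by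
  rw [atImInfty, tendsto_comap_iff]
  have him : ∀ z : ℍ, (triGL p B r hp.ne' hr.ne' • z).im = (p / r) * z.im := by
    intro z
    rw [im_smul_eq_div_normSq, triGL_det, triGL_denom, abs_of_pos (mul_pos hp hr)]
    simp only [Complex.normSq_ofReal]
    field_simp
  have : (im ∘ fun z : ℍ => triGL p B r hp.ne' hr.ne' • z) = fun z : ℍ => (p / r) * z.im := by
    funext z
    exact him z
  rw [this]
  exact (tendsto_comap (f := im) (x := atTop)).const_mul_atTop (div_pos hp hr)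

theorem tendsto_E4_slash_triGL (p B r : ℝ) (hp : 0 < p) (hr : 0 < r) :
    Tendsto ((ModularForm.E₄ : ℍ → ℂ) ∣[(4 : ℤ)] triGL p B r hp.ne' hr.ne') atImInfty
      (𝓝 (((p * r : ℝ) : ℂ) ^ 3 * ((r : ℂ) ^ 4)⁻¹)) := by
  have hdet : 0 < (triGL p B r hp.ne' hr.ne').det.val := by
    rw [triGL_det]; exact mul_pos hp hr
  have hfun : ((ModularForm.E₄ : ℍ → ℂ) ∣[(4 : ℤ)] triGL p B r hp.ne' hr.ne') =
      fun z : ℍ => ModularForm.E₄ (triGL p B r hp.ne' hr.ne' • z) *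
        (((p * r : ℝ) : ℂ) ^ 3 * ((r : ℂ) ^ 4)⁻¹) := by
    funext z
    rw [ModularForm.slash_def]
    simp only [σ, triGL_det, triGL_denom, abs_of_pos (mul_pos hp hr), if_pos (mul_pos hp hr),
      ContinuousAlgEquiv.refl_apply]
    norm_num
    ring
  rw [hfun]
  have h1 := tendsto_E4_atImInfty.comp (tendsto_triGL_smul p B r hp hr)
  have h2 := h1.mul_const (((p * r : ℝ) : ℂ) ^ 3 * ((r : ℂ) ^ 4)⁻¹)
  simpa using h2

theorem alphaN_eq_triGL (N : ℕ) [NeZero N] :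
    alphaN N = triGL (N : ℝ) 0 1 (by exact_mod_cast NeZero.ne N) one_ne_zero := by
  rfl

theorem tendsto_E4N_atImInfty (N : ℕ) [NeZero N] : Tendsto (E4N N) atImInfty (𝓝 1) := by
  have hN : (0 : ℝ) < N := by exact_mod_cast Nat.pos_of_ne_zero (NeZero.ne N)
  have h1 := tendsto_E4_slash_triGL (N : ℝ) 0 1 hN one_pos
  have h2 := h1.const_smul (((N : ℂ) ^ 3)⁻¹)
  have hN' : (N : ℂ) ≠ 0 := by exact_mod_cast NeZero.ne N
  have h3 : ((N : ℂ) ^ 3)⁻¹ • ((((N : ℝ) * 1 : ℝ) : ℂ) ^ 3 * (((1 : ℝ) : ℂ) ^ 4)⁻¹) = 1 := by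
    simp only [smul_eq_mul]
    push_cast
    field_simp
  rw [h3] at h2
  exact h2

/-- The key matrix identity `diag(N,1) * h = γ' * !![e, B; 0, N']`. -/
theorem alphaN_mul_mapGL_eq (N : ℕ) [NeZero N] (h γ' : SL(2, ℤ)) (e N' B : ℤ)
    (he : (e : ℝ) ≠ 0) (hN' : (N' : ℝ) ≠ 0)
    (h00 : (N : ℤ) * h 0 0 = γ' 0 0 * e)
    (h01 : (N : ℤ) * h 0 1 = γ' 0 0 * B + γ' 0 1 * N')
    (h10 : h 1 0 = γ' 1 0 * e)
    (h11 : h 1 1 = γ' 1 0 * B + γ' 1 1 * N') :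
    alphaN N * (mapGL ℝ h : GL (Fin 2) ℝ) =
      (mapGL ℝ γ' : GL (Fin 2) ℝ) * triGL (e : ℝ) (B : ℝ) (N' : ℝ) he hN' := by
  have h00' : (N : ℝ) * (h 0 0 : ℝ) = (γ' 0 0 : ℝ) * e := by exact_mod_cast h00
  have h01' : (N : ℝ) * (h 0 1 : ℝ) = (γ' 0 0 : ℝ) * B + (γ' 0 1 : ℝ) * N' := by
    exact_mod_cast h01
  have h10' : (h 1 0 : ℝ) = (γ' 1 0 : ℝ) * e := by exact_mod_cast h10
  have h11' : (h 1 1 : ℝ) = (γ' 1 0 : ℝ) * B + (γ' 1 1 : ℝ) * N' := by exact_mod_cast h11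
  apply Units.ext
  ext i j
  fin_cases i <;> fin_cases j <;>
    simp [alphaN, triGL, Matrix.mul_apply, Fin.sum_univ_two, mapGL,
      Matrix.GeneralLinearGroup.mkOfDetNeZero] <;> assumption

/-- Arithmetic core: for `h ∈ SL(2,ℤ)` with `N ∤ h 1 0`, decompose `diag(N,1) * h = γ' * β`
with `γ' ∈ SL(2,ℤ)` and `β = !![e, B; 0, N']`, `e * N' = N`, `e > 0`, `N' ≥ 2`. -/
theorem exists_decomp_E4N (N : ℕ) [NeZero N] (h : SL(2, ℤ)) (hh : ¬ (N : ℤ) ∣ h 1 0) :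
    ∃ (γ' : SL(2, ℤ)) (e N' B : ℤ), 0 < e ∧ 2 ≤ N' ∧ e * N' = N ∧
      (N : ℤ) * h 0 0 = γ' 0 0 * e ∧
      (N : ℤ) * h 0 1 = γ' 0 0 * B + γ' 0 1 * N' ∧
      h 1 0 = γ' 1 0 * e ∧
      h 1 1 = γ' 1 0 * B + γ' 1 1 * N' := by
  obtain ⟨a, ha⟩ : ∃ a : ℤ, a = h 0 0 := ⟨_, rfl⟩
  obtain ⟨b, hb⟩ : ∃ b : ℤ, b = h 0 1 := ⟨_, rfl⟩
  obtain ⟨c, hc⟩ : ∃ c : ℤ, c = h 1 0 := ⟨_, rfl⟩
  obtain ⟨d, hd⟩ : ∃ d : ℤ, d = h 1 1 := ⟨_, rfl⟩
  have hdet : a * d - b * c = 1 := by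
    have := h.det_coe
    rw [Matrix.det_fin_two] at this
    rw [ha, hb, hc, hd]
    exact this
  rw [← hc] at hh
  have hNne : (N : ℤ) ≠ 0 := by exact_mod_cast NeZero.ne N
  have hNpos : (0 : ℤ) < N := by exact_mod_cast Nat.pos_of_ne_zero (NeZero.ne N)
  obtain ⟨e, he⟩ : ∃ e : ℤ, e = (Int.gcd (N : ℤ) c : ℤ) := ⟨_, rfl⟩
  have he_pos : 0 < e := by
    rw [he]
    exact_mod_cast Int.gcd_pos_of_ne_zero_left c hNne
  obtain ⟨N', hN'⟩ : e ∣ (N : ℤ) := by rw [he]; exact Int.gcd_dvd_left _ _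
  obtain ⟨c', hc'⟩ : e ∣ c := by rw [he]; exact Int.gcd_dvd_right _ _
  have hbez : e = (N : ℤ) * Int.gcdA N c + c * Int.gcdB N c := by
    rw [he]; exact Int.gcd_eq_gcd_ab _ _
  have hcop : IsCoprime N' c' := by
    refine ⟨Int.gcdA N c, Int.gcdB N c, ?_⟩
    have h1 : e * (Int.gcdA N c * N' + Int.gcdB N c * c') = e * 1 := by
      rw [mul_one]
      conv_rhs => rw [hbez]
      rw [hN', hc']
      ring
    exact mul_left_cancel₀ he_pos.ne' h1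
  have hac : IsCoprime a c' := by
    have h1 : IsCoprime a (e * c') := by
      rw [← hc']
      exact ⟨d, -b, by linarith⟩
    exact h1.of_mul_right_right
  obtain ⟨u, v, huv⟩ : IsCoprime (N' * a) c' := IsCoprime.mul_left hcop hac
  have hN'pos : 0 < N' := by
    by_contra hcon
    push Not at hcon
    have : e * N' ≤ 0 := mul_nonpos_of_nonneg_of_nonpos he_pos.le hcon
    omega
  have hN'ne1 : N' ≠ 1 := by
    intro h1
    apply hh
    rw [hN', h1, mul_one, hc']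
    exact dvd_mul_right _ _
  refine ⟨⟨!![N' * a, -v; c', u], ?_⟩, e, N', u * N * b + v * d, he_pos, by omega, hN'.symm, ?_, ?_,
    ?_, ?_⟩
  · rw [Matrix.det_fin_two_of]
    linarith
  · rw [← ha]
    simp only [Matrix.of_apply, Matrix.cons_val', Matrix.cons_val_zero,
      Matrix.cons_val_fin_one]
    rw [hN']; ring
  · rw [← hb]
    simp only [Matrix.of_apply, Matrix.cons_val', Matrix.cons_val_zero,
      Matrix.cons_val_one, Matrix.cons_val_fin_one]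
    rw [hc'] at hdet
    rw [hN']
    linear_combination (-(e * N' * b)) * huv - (N' * v) * hdet
  · rw [← hc]
    simp only [Matrix.of_apply, Matrix.cons_val', Matrix.cons_val_zero,
      Matrix.cons_val_one, Matrix.cons_val_fin_one]
    rw [hc']; ring
  · rw [← hd]
    simp only [Matrix.of_apply, Matrix.cons_val', Matrix.cons_val_zero,
      Matrix.cons_val_one, Matrix.cons_val_fin_one]
    rw [hc'] at hdet
    rw [hN']
    linear_combination (-d) * huv + (u * N') * hdet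

/-- **Separation** (lemma P6): for `h ∈ SL(2, ℤ)` outside `Γ₀(N)`, the slash of `E₄(N z)` by `h`
differs from `E₄(N z)`: their values at `i∞` are `(e/N)^4 ≠ 1` and `1`. -/
theorem E4N_slash_ne (N : ℕ) [NeZero N] (h : SL(2, ℤ)) (hh : h ∉ CongruenceSubgroup.Gamma0 N) :
    (E4N N ∣[(4 : ℤ)] (mapGL ℝ h : GL (Fin 2) ℝ)) ≠ E4N N := by
  have hNc : ¬ (N : ℤ) ∣ h 1 0 := by
    rw [CongruenceSubgroup.Gamma0_mem] at hh
    rwa [ZMod.intCast_zmod_eq_zero_iff_dvd] at hh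
  obtain ⟨γ', e, N', B, he, hN', heN, h00, h01, h10, h11⟩ := exists_decomp_E4N N h hNc
  have heR : (0 : ℝ) < e := by exact_mod_cast he
  have hN'R : (0 : ℝ) < N' := by
    have : (0 : ℤ) < N' := by omega
    exact_mod_cast this
  have hmat := alphaN_mul_mapGL_eq N h γ' e N' B heR.ne' hN'R.ne' h00 h01 h10 h11
  -- the slash
  have hσ : σ (mapGL ℝ h : GL (Fin 2) ℝ) = ContinuousAlgEquiv.refl ℝ ℂ := by
    simp [σ]
  have hinv : (ModularForm.E₄ : ℍ → ℂ) ∣[(4 : ℤ)] (mapGL ℝ γ' : GL (Fin 2) ℝ) =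
      (ModularForm.E₄ : ℍ → ℂ) :=
    SlashInvariantFormClass.slash_action_eq ModularForm.E₄ _ ⟨γ', rfl⟩
  have hslash : E4N N ∣[(4 : ℤ)] (mapGL ℝ h : GL (Fin 2) ℝ) =
      ((N : ℂ) ^ 3)⁻¹ • ((ModularForm.E₄ : ℍ → ℂ) ∣[(4 : ℤ)]
        triGL (e : ℝ) (B : ℝ) (N' : ℝ) heR.ne' hN'R.ne') := by
    rw [E4N, ModularForm.smul_slash, hσ, ContinuousAlgEquiv.refl_apply,
      ← SlashAction.slash_mul, hmat, SlashAction.slash_mul, hinv]
  intro heq
  have h1 := (tendsto_E4_slash_triGL (e : ℝ) (B : ℝ) (N' : ℝ) heR hN'R).const_smul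
    (((N : ℂ) ^ 3)⁻¹)
  have h1' : Tendsto (E4N N) atImInfty
      (𝓝 (((N : ℂ) ^ 3)⁻¹ • ((((e : ℝ) * (N' : ℝ) : ℝ) : ℂ) ^ 3 * (((N' : ℝ) : ℂ) ^ 4)⁻¹))) := by
    rw [← heq, hslash]
    exact h1
  have h2 := tendsto_nhds_unique h1' (tendsto_E4N_atImInfty N)
  -- the value is `1 / N'^4 ≠ 1`
  have hNC : (N : ℂ) ≠ 0 := by exact_mod_cast NeZero.ne N
  have hN'C : (N' : ℂ) ≠ 0 := by
    have : N' ≠ 0 := by omega
    exact_mod_cast this
  have heNC : ((e : ℝ) * (N' : ℝ) : ℝ) = (N : ℝ) := by exact_mod_cast heN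
  rw [heNC] at h2
  have h3 : ((N' : ℂ)) ^ 4 = 1 := by
    have h4 : ((N : ℂ) ^ 3)⁻¹ • ((((N : ℝ) : ℂ)) ^ 3 * ((((N' : ℤ) : ℝ) : ℂ) ^ 4)⁻¹) =
        (((N' : ℂ)) ^ 4)⁻¹ := by
      simp only [smul_eq_mul]
      push_cast
      field_simp
    rw [h4] at h2
    exact inv_eq_one.mp h2
  have h5 : (N' : ℤ) ^ 4 = 1 := by exact_mod_cast h3
  have h6 : (2 : ℤ) ^ 4 ≤ N' ^ 4 := pow_le_pow_left₀ (by norm_num) hN' 4
  omega

end

end Fermat.Agent.S23
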