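import Mathlib
import Fermat.Agent.S23.BoundedDenomCore
import Fermat.Agent.S23.E4N
import Fermat.Agent.S23.SeparationE4N

/-!
# S23, piece G2 (glue): bounded denominators for rational cusp forms on `Γ₀(N)`

`exists_int_multiple`: a cusp form on `Γ₀(N)` all of whose `q`-expansion coefficients are
rational has bounded denominators: some nonzero natural number `m` makes all `m * aₙ` integers.

This instantiates `BoundedDenomCore.exists_int_multiple_of_separating` with the separating
form `t = E₄(N z)` (`exists_E4N_form`, `E4N_slash_ne`).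
-/

namespace Fermat.Agent.S23

open UpperHalfPlane Matrix.SpecialLinearGroup PowerSeries
open scoped MatrixGroups ModularForm Manifold

/-- **Bounded denominators.** A weight `k` cusp form on `Γ₀(N)` with rational `q`-expansion
coefficients has a nonzero integer multiple with integral `q`-expansion coefficients. -/
theorem exists_int_multiple (N : ℕ) [NeZero N] (k : ℤ)
    (f : CuspForm ((CongruenceSubgroup.Gamma0 N : Subgroup SL(2, ℤ)) : Subgroup (GL (Fin 2) ℝ)) k)
    (hf : ∀ n, ∃ r : ℚ, (qExpansion 1 f).coeff n = (r : ℂ)) :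
    ∃ m : ℕ, m ≠ 0 ∧ ∀ n, ∃ a : ℤ, (m : ℂ) * (qExpansion 1 f).coeff n = (a : ℂ) := by
  obtain ⟨t, ht, htint⟩ := exists_E4N_form N
  have hsep : ∀ h : SL(2, ℤ), h ∉ CongruenceSubgroup.Gamma0 N →
      ((t : ℍ → ℂ) ∣[(4 : ℤ)] (mapGL ℝ h : GL (Fin 2) ℝ)) ≠ (t : ℍ → ℂ) := by
    intro h hh
    rw [ht]
    exact E4N_slash_ne N h hh
  have htq : qExpansion 1 t ∈ LevelOneIntegral.bdSeries :=
    LevelOneIntegral.intSeries_le_bdSeries
      ((LevelOneIntegral.mem_intSeries_iff _).2 htint)
  obtain ⟨c, hc, hcf⟩ :=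
    BoundedDenomCore.exists_int_multiple_of_separating f t hsep htq hf
  refine ⟨c.natAbs, Int.natAbs_ne_zero.2 hc, fun n => ?_⟩
  obtain ⟨a, ha⟩ := hcf n
  rcases Int.natAbs_eq c with h | h
  · refine ⟨a, ?_⟩
    rw [← ha]
    congr 1
    have : ((c.natAbs : ℤ) : ℂ) = (c : ℂ) := by rw [← h]
    simpa using this
  · refine ⟨-a, ?_⟩
    have : ((c.natAbs : ℤ) : ℂ) = -(c : ℂ) := by
      have h' : (c.natAbs : ℤ) = -c := by omega
      rw [h']; push_cast; rfl
    have h2 : ((c.natAbs : ℕ) : ℂ) = -(c : ℂ) := by simpa using this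
    rw [h2, neg_mul, ha]
    push_cast
    rfl

end Fermat.Agent.S23
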