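import Mathlib

set_option autoImplicit false

open UpperHalfPlane Filter Topology
open scoped MatrixGroups ModularForm Manifold

namespace Fermat.Agent.S23

/-- Root bound: a root `x` of `X^n + ∑ c_j X^(n-1-j)` with `‖c_j‖ ≤ R^(j+1)/n` has `‖x‖ ≤ R`. -/
theorem norm_le_of_monic_root {n : ℕ} (c : Fin n → ℂ) (x : ℂ) {R : ℝ} (hR : 0 < R)
    (hc : ∀ j : Fin n, ‖c j‖ ≤ R ^ ((j : ℕ) + 1) / n)
    (hx : x ^ n + ∑ j : Fin n, c j * x ^ (n - 1 - (j : ℕ)) = 0) : ‖x‖ ≤ R := by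
  by_contra hlt
  rw [not_le] at hlt
  have hxpos : 0 < ‖x‖ := hR.trans hlt
  rcases Nat.eq_zero_or_pos n with rfl | hn
  · simp at hx
  have hn' : (0 : ℝ) < n := by exact_mod_cast hn
  have h1 : ‖x‖ ^ n = ‖∑ j : Fin n, c j * x ^ (n - 1 - (j : ℕ))‖ := by
    have : x ^ n = - ∑ j : Fin n, c j * x ^ (n - 1 - (j : ℕ)) := eq_neg_of_add_eq_zero_left hx
    rw [← norm_pow, this, norm_neg]
  have h2 : ‖∑ j : Fin n, c j * x ^ (n - 1 - (j : ℕ))‖
      ≤ ∑ j : Fin n, ‖c j‖ * ‖x‖ ^ (n - 1 - (j : ℕ)) := by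
    refine (norm_sum_le _ _).trans (le_of_eq ?_)
    refine Finset.sum_congr rfl fun j _ => ?_
    rw [norm_mul, norm_pow]
  have h3 : ∑ j : Fin n, ‖c j‖ * ‖x‖ ^ (n - 1 - (j : ℕ)) < ∑ _j : Fin n, ‖x‖ ^ n / n := by
    have : Nonempty (Fin n) := ⟨⟨0, hn⟩⟩
    apply Finset.sum_lt_sum_of_nonempty Finset.univ_nonempty
    intro j _
    have hj : (j : ℕ) + 1 + (n - 1 - (j : ℕ)) = n := by have := j.isLt; omega
    have hpow : R ^ ((j : ℕ) + 1) < ‖x‖ ^ ((j : ℕ) + 1) :=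
      pow_lt_pow_left₀ hlt hR.le (by omega)
    have hpos : 0 < ‖x‖ ^ (n - 1 - (j : ℕ)) := pow_pos hxpos _
    calc ‖c j‖ * ‖x‖ ^ (n - 1 - (j : ℕ))
        ≤ R ^ ((j : ℕ) + 1) / n * ‖x‖ ^ (n - 1 - (j : ℕ)) :=
          mul_le_mul_of_nonneg_right (hc j) hpos.le
      _ < ‖x‖ ^ ((j : ℕ) + 1) / n * ‖x‖ ^ (n - 1 - (j : ℕ)) := by
          apply mul_lt_mul_of_pos_right _ hpos
          exact div_lt_div_of_pos_right hpow hn'
      _ = ‖x‖ ^ n / n := by
          rw [div_mul_eq_mul_div, ← pow_add, hj]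
  have h4 : ∑ _j : Fin n, ‖x‖ ^ n / n = ‖x‖ ^ n := by
    rw [Finset.sum_const, Finset.card_univ, Fintype.card_fin, nsmul_eq_mul]
    field_simp
  linarith

/-- The quotient `a / d`, extended by its limits along punctured neighbourhoods. -/
noncomputable def limQuot (a d : ℂ → ℂ) (z : ℂ) : ℂ :=
  limUnder (𝓝[≠] z) (fun w => a w / d w)

theorem limQuot_eq_div {a d : ℂ → ℂ} {U : Set ℂ} (hU : IsOpen U)
    (ha : DifferentiableOn ℂ a U) (hd : DifferentiableOn ℂ d U)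
    {z : ℂ} (hz : z ∈ U) (hdz : d z ≠ 0) : limQuot a d z = a z / d z := by
  have hca : ContinuousAt a z := (ha.differentiableAt (hU.mem_nhds hz)).continuousAt
  have hcd : ContinuousAt d z := (hd.differentiableAt (hU.mem_nhds hz)).continuousAt
  have hq : ContinuousAt (fun w => a w / d w) z := hca.div hcd hdz
  exact (hq.tendsto.mono_left nhdsWithin_le_nhds).limUnder_eq

theorem differentiableAt_limQuot {a d : ℂ → ℂ} {U : Set ℂ} (hU : IsOpen U)
    (ha : DifferentiableOn ℂ a U) (hd : DifferentiableOn ℂ d U)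
    {z₀ : ℂ} (hz₀ : z₀ ∈ U) (hd0 : ∀ᶠ z in 𝓝[≠] z₀, d z ≠ 0)
    (hbdd : ∃ C : ℝ, ∀ᶠ z in 𝓝[≠] z₀, ‖a z / d z‖ ≤ C) :
    DifferentiableAt ℂ (limQuot a d) z₀ := by
  obtain ⟨C, hC⟩ := hbdd
  have hev : ∀ᶠ z in 𝓝 z₀, z ∈ U ∧ (z ≠ z₀ → d z ≠ 0 ∧ ‖a z / d z‖ ≤ C) := by
    have h1 := eventually_nhdsWithin_iff.mp (hd0.and hC)
    filter_upwards [h1, hU.mem_nhds hz₀] with z hz hzU
    exact ⟨hzU, fun hne => hz hne⟩
  obtain ⟨r, hr, hball⟩ := Metric.eventually_nhds_iff_ball.mp hev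
  set B := Metric.ball z₀ r with hB
  have hBnhds : B ∈ 𝓝 z₀ := Metric.ball_mem_nhds z₀ hr
  set q : ℂ → ℂ := fun w => a w / d w with hq
  have hqdiff : DifferentiableOn ℂ q (B \ {z₀}) := by
    intro z hz
    have hzB : z ∈ B := hz.1
    have hzne : z ≠ z₀ := by simpa using hz.2
    obtain ⟨hzU, hz'⟩ := hball z hzB
    have hda : DifferentiableAt ℂ a z := ha.differentiableAt (hU.mem_nhds hzU)
    have hdd : DifferentiableAt ℂ d z := hd.differentiableAt (hU.mem_nhds hzU)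
    exact (hda.div hdd (hz' hzne).1).differentiableWithinAt
  have hqbdd : BddAbove (norm ∘ q '' (B \ {z₀})) := by
    refine ⟨C, ?_⟩
    rintro _ ⟨z, hz, rfl⟩
    have hzne : z ≠ z₀ := by simpa using hz.2
    exact ((hball z hz.1).2 hzne).2
  have hg := Complex.differentiableOn_update_limUnder_of_bddAbove hBnhds hqdiff hqbdd
  have hgz : DifferentiableAt ℂ (Function.update q z₀ (limUnder (𝓝[≠] z₀) q)) z₀ :=
    hg.differentiableAt hBnhds
  refine hgz.congr_of_eventuallyEq ?_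
  filter_upwards [hBnhds] with z hzB
  by_cases hzne : z = z₀
  · subst hzne
    simp [limQuot, hq]
  · rw [Function.update_of_ne hzne]
    obtain ⟨hzU, hz'⟩ := hball z hzB
    exact limQuot_eq_div hU ha hd hzU (hz' hzne).1

/-- Pointwise algebra: dividing the homogeneous relation by `d ^ n`. -/
theorem root_of_rel {n : ℕ} (c : Fin n → ℂ) (a d : ℂ) (hd : d ≠ 0)
    (h : a ^ n + ∑ j : Fin n, c j * a ^ (n - 1 - (j : ℕ)) * d ^ ((j : ℕ) + 1) = 0) :
    (a / d) ^ n + ∑ j : Fin n, c j * (a / d) ^ (n - 1 - (j : ℕ)) = 0 := by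
  have hdn : d ^ n ≠ 0 := pow_ne_zero _ hd
  have key : ((a / d) ^ n + ∑ j : Fin n, c j * (a / d) ^ (n - 1 - (j : ℕ))) * d ^ n = 0 := by
    rw [add_mul, Finset.sum_mul, ← h]
    congr 1
    · rw [div_pow, div_mul_cancel₀ _ hdn]
    · refine Finset.sum_congr rfl fun j _ => ?_
      have hj : n = (n - 1 - (j : ℕ)) + ((j : ℕ) + 1) := by have := j.isLt; omega
      have hm : d ^ (n - 1 - (j : ℕ)) ≠ 0 := pow_ne_zero _ hd
      have hpow : d ^ n = d ^ (n - 1 - (j : ℕ)) * d ^ ((j : ℕ) + 1) := by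
        rw [← pow_add]; congr 1
      rw [hpow, div_pow]
      field_simp
  exact (mul_eq_zero.mp key).resolve_right hdn

/-- Pointwise algebra: multiplying the monic relation by `J ^ n`. -/
theorem root_mul_of_rel {n : ℕ} (c : Fin n → ℂ) (x J : ℂ)
    (h : x ^ n + ∑ j : Fin n, c j * x ^ (n - 1 - (j : ℕ)) = 0) :
    (x * J) ^ n + ∑ j : Fin n, (c j * J ^ ((j : ℕ) + 1)) * (x * J) ^ (n - 1 - (j : ℕ)) = 0 := by
  have key : (x * J) ^ n + ∑ j : Fin n, (c j * J ^ ((j : ℕ) + 1)) * (x * J) ^ (n - 1 - (j : ℕ))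
      = (x ^ n + ∑ j : Fin n, c j * x ^ (n - 1 - (j : ℕ))) * J ^ n := by
    rw [add_mul, Finset.sum_mul, mul_pow]
    congr 1
    refine Finset.sum_congr rfl fun j _ => ?_
    have hj : n = (n - 1 - (j : ℕ)) + ((j : ℕ) + 1) := by have := j.isLt; omega
    have hpow : J ^ n = J ^ (n - 1 - (j : ℕ)) * J ^ ((j : ℕ) + 1) := by
      rw [← pow_add]; congr 1
    rw [hpow, mul_pow]
    ring
  rw [key, h, zero_mul]

section Main

variable {𝒢 : Subgroup (GL (Fin 2) ℝ)} [𝒢.IsArithmetic] {k w : ℤ} {n : ℕ}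

/-- zeros of a nonzero holomorphic function on `ℍ`, seen on `ℂ`, are isolated. -/
theorem eventually_ne_zero_of_ne_zero {d : ℍ → ℂ} (hd : MDiff d) (hd0 : d ≠ 0)
    {z₀ : ℂ} (hz₀ : 0 < z₀.im) : ∀ᶠ z in 𝓝[≠] z₀, (d ∘ ofComplex) z ≠ 0 := by
  have hdiff : DifferentiableOn ℂ (d ∘ ofComplex) {z | 0 < z.im} := mdifferentiable_iff.mp hd
  have han := hdiff.analyticOnNhd isOpen_upperHalfPlaneSet
  by_contra hcon
  rw [not_eventually] at hcon
  simp only [not_not] at hcon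
  have hpre : IsPreconnected {z : ℂ | 0 < z.im} :=
    (Complex.isConnected_of_upperHalfPlane subset_rfl (by grind)).isPreconnected
  have hzero := han.eqOn_zero_of_preconnected_of_frequently_eq_zero hpre hz₀ hcon
  apply hd0
  ext τ
  have := hzero τ.im_pos
  simpa [Function.comp_apply, ofComplex_apply] using this

theorem exists_cuspForm_mul_eq (hn : 0 < n)
    (A : ModularForm 𝒢 (k + w)) (D : ModularForm 𝒢 w) (hD : D ≠ 0) (b : Fin n → ℍ → ℂ)
    (hb_cont : ∀ j, Continuous (b j))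
    (hb_inv : ∀ (j : Fin n) (g : SL(2, ℤ)), (b j) ∣[(((j : ℕ) + 1 : ℕ) : ℤ) * k] g = b j)
    (hb_zero : ∀ j, IsZeroAtImInfty (b j))
    (hrel : ∀ z : ℍ, A z ^ n +
      ∑ j : Fin n, b j z * A z ^ (n - 1 - (j : ℕ)) * D z ^ ((j : ℕ) + 1) = 0) :
    ∃ F : CuspForm 𝒢 k, ∀ z : ℍ, F z * D z = A z := by
  classical
  -- the complex-side functions
  set U : Set ℂ := {z | 0 < z.im} with hUdef
  have hU : IsOpen U := isOpen_upperHalfPlaneSet
  set a : ℂ → ℂ := ⇑A ∘ ofComplex with ha_def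
  set d : ℂ → ℂ := ⇑D ∘ ofComplex with hd_def
  have ha : DifferentiableOn ℂ a U := mdifferentiable_iff.mp A.holo'
  have hd : DifferentiableOn ℂ d U := mdifferentiable_iff.mp D.holo'
  have hD0 : (⇑D : ℍ → ℂ) ≠ 0 := fun h => hD (DFunLike.coe_injective (by simpa using h))
  have hiso : ∀ z₀ ∈ U, ∀ᶠ z in 𝓝[≠] z₀, d z ≠ 0 := fun z₀ hz₀ =>
    eventually_ne_zero_of_ne_zero D.holo' hD0 hz₀
  have haτ : ∀ τ : ℍ, a τ = A τ := fun τ => by simp [ha_def]
  have hdτ : ∀ τ : ℍ, d τ = D τ := fun τ => by simp [hd_def]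
  -- the relation on the complex side
  have hrelC : ∀ z ∈ U, d z ≠ 0 →
      (a z / d z) ^ n + ∑ j : Fin n, b j (ofComplex z) * (a z / d z) ^ (n - 1 - (j : ℕ)) = 0 := by
    intro z _ hdz
    exact root_of_rel _ _ _ hdz (hrel (ofComplex z))
  -- local boundedness
  have hbdd : ∀ z₀ ∈ U, ∃ C : ℝ, ∀ᶠ z in 𝓝[≠] z₀, ‖a z / d z‖ ≤ C := by
    intro z₀ hz₀
    have hcont : ∀ j, ContinuousAt (fun z => b j (ofComplex z)) z₀ := fun j =>
      (hb_cont j).continuousAt.comp (contMDiffAt_ofComplex (n := 0) hz₀).continuousAt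
    set M : ℝ := ∑ j : Fin n, (‖b j (ofComplex z₀)‖ + 1) with hM
    have hMnonneg : 0 ≤ M := Finset.sum_nonneg fun j _ => by positivity
    set R : ℝ := max 1 (n * M) with hR
    have hR1 : 1 ≤ R := le_max_left _ _
    have hRpos : 0 < R := lt_of_lt_of_le one_pos hR1
    have hnpos : (0 : ℝ) < n := by exact_mod_cast hn
    refine ⟨R, ?_⟩
    have hev : ∀ᶠ z in 𝓝 z₀, ∀ j : Fin n, ‖b j (ofComplex z)‖ ≤ ‖b j (ofComplex z₀)‖ + 1 := by
      rw [eventually_all]
      intro j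
      have h1 : Tendsto (fun z => ‖b j (ofComplex z)‖) (𝓝 z₀) (𝓝 ‖b j (ofComplex z₀)‖) :=
        (hcont j).norm
      exact h1.eventually (eventually_le_nhds (by linarith))
    filter_upwards [hev.filter_mono nhdsWithin_le_nhds, hiso z₀ hz₀,
      eventually_nhdsWithin_of_eventually_nhds (hU.mem_nhds hz₀)] with z hz hdz hzU
    refine norm_le_of_monic_root (fun j => b j (ofComplex z)) _ hRpos (fun j => ?_)
      (hrelC z hzU hdz)
    have h1 : ‖b j (ofComplex z)‖ ≤ M := by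
      refine (hz j).trans ?_
      exact Finset.single_le_sum (f := fun j : Fin n => ‖b j (ofComplex z₀)‖ + 1)
        (fun i _ => by positivity) (Finset.mem_univ j)
    have h2 : R ≤ R ^ ((j : ℕ) + 1) := by
      calc R = R ^ 1 := (pow_one R).symm
        _ ≤ R ^ ((j : ℕ) + 1) := pow_le_pow_right₀ hR1 (by omega)
    rw [le_div_iff₀ hnpos]
    calc ‖b j (ofComplex z)‖ * n ≤ M * n := mul_le_mul_of_nonneg_right h1 hnpos.le
      _ = n * M := mul_comm _ _
      _ ≤ R := le_max_right _ _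
      _ ≤ R ^ ((j : ℕ) + 1) := h2
  -- the extended quotient
  set F₀ : ℂ → ℂ := limQuot a d with hF₀
  have hF₀diff : ∀ z₀ ∈ U, DifferentiableAt ℂ F₀ z₀ := fun z₀ hz₀ =>
    differentiableAt_limQuot hU ha hd hz₀ (hiso z₀ hz₀) (hbdd z₀ hz₀)
  set F : ℍ → ℂ := fun τ => F₀ τ with hF
  have hFholo : MDiff F := by
    rw [mdifferentiable_iff]
    intro z hz
    refine ((hF₀diff z hz).congr_of_eventuallyEq ?_).differentiableWithinAt
    filter_upwards [hU.mem_nhds hz] with y hy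
    simp [hF, Function.comp_apply, ofComplex_apply_of_im_pos hy]
  have hFcont : Continuous F := hFholo.continuous
  -- F * D = A
  have hFD : ∀ τ : ℍ, F τ * D τ = A τ := by
    intro τ
    by_cases hDτ : D τ = 0
    · have h1 := hrel τ
      rw [hDτ] at h1
      have h2 : A τ ^ n = 0 := by
        rw [← h1]
        simp
      rw [hDτ, mul_zero, (pow_eq_zero_iff hn.ne').mp h2]
    · have hdz : d τ ≠ 0 := by rwa [hdτ]
      have : F τ = a τ / d τ := limQuot_eq_div hU ha hd τ.im_pos hdz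
      rw [this, haτ, hdτ, div_mul_cancel₀ _ hDτ]
  have hFDfun : F * ⇑D = ⇑A := funext hFD
  -- slash invariance
  have hFinv : ∀ γ ∈ 𝒢, F ∣[k] γ = F := by
    intro γ hγ
    have hA : (⇑A) ∣[k + w] γ = ⇑A := SlashInvariantFormClass.slash_action_eq A γ hγ
    have hDs : (⇑D) ∣[w] γ = ⇑D := SlashInvariantFormClass.slash_action_eq D γ hγ
    have hdet : |(γ.det : ℝ)| = 1 := Subgroup.HasDetPlusMinusOne.abs_det hγ
    have h1 : (F * ⇑D) ∣[k + w] γ = F ∣[k] γ * ⇑D := by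
      rw [ModularForm.mul_slash, hdet, one_smul, hDs]
    have h2 : (F ∣[k] γ - F) * ⇑D = 0 := by
      rw [sub_mul, ← h1, hFDfun, hA, sub_self]
    have hholo : MDiff (F ∣[k] γ - F) := (hFholo.slash k γ).sub hFholo
    rcases (UpperHalfPlane.mul_eq_zero_iff hholo D.holo').mp h2 with h3 | h3
    · exact sub_eq_zero.mp h3
    · exact absurd h3 hD0
  -- the monic relation for F, everywhere
  have hFrel : ∀ τ : ℍ, F τ ^ n + ∑ j : Fin n, b j τ * F τ ^ (n - 1 - (j : ℕ)) = 0 := by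
    have hclosed : IsClosed {τ : ℍ | F τ ^ n + ∑ j : Fin n, b j τ * F τ ^ (n - 1 - (j : ℕ)) = 0} := by
      apply isClosed_eq _ continuous_const
      exact (hFcont.pow n).add (continuous_finsetSum _ fun j _ =>
        (hb_cont j).mul (hFcont.pow _))
    intro τ₀
    have hmem : τ₀ ∈ closure {τ : ℍ | F τ ^ n + ∑ j : Fin n, b j τ * F τ ^ (n - 1 - (j : ℕ)) = 0} := by
      rw [mem_closure_iff_frequently]
      have hev : ∀ᶠ z in 𝓝[≠] τ₀, D z ≠ 0 := by
        by_contra hcon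
        rw [not_eventually] at hcon
        simp only [not_not] at hcon
        exact hD0 (UpperHalfPlane.eq_zero_of_frequently D.holo' hcon)
      have hfreq : ∃ᶠ z in 𝓝[≠] τ₀, D z ≠ 0 := hev.frequently
      refine (hfreq.filter_mono nhdsWithin_le_nhds).mono fun τ hDτ => ?_
      have hdz : d τ ≠ 0 := by rwa [hdτ]
      have hFτ : F τ = a τ / d τ := limQuot_eq_div hU ha hd τ.im_pos hdz
      have := hrelC τ τ.im_pos hdz
      rw [ofComplex_apply] at this
      simpa [hFτ] using this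
    exact hclosed.closure_subset hmem
  -- vanishing at the cusps
  have hFzero : ∀ γ : SL(2, ℤ), IsZeroAtImInfty (F ∣[k] γ) := by
    intro γ
    have hroot : ∀ τ : ℍ, ((F ∣[k] γ) τ) ^ n +
        ∑ j : Fin n, b j τ * ((F ∣[k] γ) τ) ^ (n - 1 - (j : ℕ)) = 0 := by
      intro τ
      have h1 := root_mul_of_rel (fun j => b j (γ • τ)) (F (γ • τ)) (denom γ τ ^ (-k))
        (hFrel (γ • τ))
      have h2 : ∀ j : Fin n, b j (γ • τ) * (denom γ τ ^ (-k)) ^ ((j : ℕ) + 1) = b j τ := by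
        intro j
        have h3 := congrFun (hb_inv j γ) τ
        rw [ModularForm.SL_slash_apply] at h3
        rw [← h3]
        congr 1
        rw [← zpow_natCast, ← zpow_mul]
        congr 1
        push_cast
        ring
      rw [ModularForm.SL_slash_apply]
      simpa only [h2] using h1
    have hnpos : (0 : ℝ) < n := by exact_mod_cast hn
    rw [IsZeroAtImInfty, ZeroAtFilter, Metric.tendsto_nhds]
    intro ε hε
    have hev : ∀ᶠ τ in atImInfty, ∀ j : Fin n, ‖b j τ‖ ≤ (ε / 2) ^ ((j : ℕ) + 1) / n := by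
      rw [eventually_all]
      intro j
      have hpos : 0 < (ε / 2) ^ ((j : ℕ) + 1) / n := by positivity
      have h1 : Tendsto (fun τ => ‖b j τ‖) atImInfty (𝓝 0) :=
        tendsto_zero_iff_norm_tendsto_zero.mp (hb_zero j)
      exact h1.eventually (eventually_le_nhds hpos)
    filter_upwards [hev] with τ hτ
    have := norm_le_of_monic_root (fun j => b j τ) ((F ∣[k] γ) τ) (half_pos hε) hτ (hroot τ)
    rw [dist_zero_right]
    linarith
  refine ⟨{ toFun := F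
            slash_action_eq' := hFinv
            holo' := hFholo
            zero_at_cusps' := ?_ }, hFD⟩
  intro c hc
  have hc' : IsCusp c 𝒮ℒ := (Subgroup.IsArithmetic.isCusp_iff_isCusp_SL2Z 𝒢).mp hc
  rw [OnePoint.isZeroAt_iff_forall_SL2Z hc']
  intro γ _
  exact hFzero γ

end Main

end Fermat.Agent.S23
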