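import Mathlib

/-!
# Level one modular forms are "defined over ℚ"

For every ring homomorphism `s : ℂ →+* ℂ` and every level one modular form `g` of weight `k`
there is a level one modular form `g'` of weight `k` whose `q`-expansion is obtained from that
of `g` by applying `s` to every coefficient.  (Piece (3) of the S23 route.)
-/

open UpperHalfPlane ModularForm ModularFormClass MatrixGroups EisensteinSeries CuspFormClass

namespace Fermat.Agent.S23

/-- The `q`-expansion of the Eisenstein series `E_k` has rational coefficients, hence is fixed by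
every ring endomorphism of `ℂ`. -/
theorem E_qExpansion_map (s : ℂ →+* ℂ) {k : ℕ} (hk : 3 ≤ k) (hk2 : Even k) :
    (qExpansion 1 (E hk)).map s = qExpansion 1 (E hk) := by
  ext m
  rw [PowerSeries.coeff_map, E_qExpansion_coeff hk hk2]
  split_ifs with h
  · simp
  · simp only [map_neg, map_mul, map_div₀, map_natCast, map_ratCast, map_ofNat]

/-- The `q`-expansion of `E_k` has rational coefficients. -/
theorem E_qExpansion_coeff_rat {k : ℕ} (hk : 3 ≤ k) (hk2 : Even k) (m : ℕ) :
    ∃ r : ℚ, (qExpansion 1 (E hk)).coeff m = (r : ℂ) := by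
  rw [E_qExpansion_coeff hk hk2]
  split_ifs with h
  · exact ⟨1, by simp⟩
  · exact ⟨-(2 * k / bernoulli k) * (ArithmeticFunction.sigma (k - 1) m : ℚ), by push_cast; ring⟩

/-- `1728 Δ = E₄³ - E₆²` on the level of `q`-expansions. -/
theorem discriminant_qExpansion_eq :
    qExpansion 1 ModularForm.discriminant =
      (1 / 1728 : ℂ) • (qExpansion 1 E₄ ^ 3 - qExpansion 1 E₆ ^ 2) := by
  set F : ModularForm 𝒮ℒ 12 :=
    ModularForm.mcast (by decide) (E₄.pow 3) - ModularForm.mcast (by decide) (E₆.pow 2) with hF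
  have hfun : (ModularForm.discriminant : ℍ → ℂ) = ⇑((1 / 1728 : ℂ) • F) := by
    funext z
    rw [discriminant_eq_E₄_cube_sub_E₆_sq z]
    simp only [hF, smul_apply, sub_apply, coe_mcast, coe_pow, Pi.pow_apply,
      smul_eq_mul]
    ring
  rw [hfun, FunLike.coe_smul, ModularForm.qExpansion_smul one_pos one_mem_strictPeriods_SL]
  congr 1
  simp only [hF, FunLike.coe_sub, coe_mcast,
    ModularForm.qExpansion_sub one_pos one_mem_strictPeriods_SL,
    ModularForm.qExpansion_pow one_pos one_mem_strictPeriods_SL]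

/-- The `q`-expansion of `Δ` is fixed by every ring endomorphism of `ℂ`. -/
theorem discriminant_qExpansion_map (s : ℂ →+* ℂ) :
    (qExpansion 1 ModularForm.discriminant).map s = qExpansion 1 ModularForm.discriminant := by
  rw [discriminant_qExpansion_eq]
  ext m
  simp only [PowerSeries.coeff_map, PowerSeries.coeff_smul, smul_eq_mul, map_mul, map_div₀,
    map_one, map_ofNat]
  congr 1
  rw [← PowerSeries.coeff_map, map_sub, map_pow, map_pow, E_qExpansion_map s _ ⟨2, rfl⟩,
    E_qExpansion_map s _ ⟨3, rfl⟩]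


/-- The predicate: every level one form of weight `k` has an `s`-conjugate. -/
def HasConj (s : ℂ →+* ℂ) (k : ℤ) : Prop :=
  ∀ g : ModularForm 𝒮ℒ k, ∃ g' : ModularForm 𝒮ℒ k,
    qExpansion 1 g' = (qExpansion 1 g).map s

theorem hasConj_of_forall_eq_zero (s : ℂ →+* ℂ) {k : ℤ}
    (h : ∀ g : ModularForm 𝒮ℒ k, g = 0) : HasConj s k := by
  intro g
  refine ⟨0, ?_⟩
  rw [h g]
  simp [qExpansion_zero]

theorem hasConj_neg (s : ℂ →+* ℂ) {k : ℤ} (hk : k < 0) : HasConj s k :=
  hasConj_of_forall_eq_zero s
    (rank_zero_iff_forall_zero.mp (levelOne_neg_weight_rank_zero hk))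

theorem hasConj_zero (s : ℂ →+* ℂ) : HasConj s 0 := by
  intro g
  obtain ⟨c, hc⟩ := levelOne_weight_zero_const g
  refine ⟨s c • (1 : ModularForm 𝒮ℒ 0), ?_⟩
  have hg : (g : ℍ → ℂ) = ⇑(c • (1 : ModularForm 𝒮ℒ 0)) := by
    rw [hc]; funext z; simp
  rw [hg, FunLike.coe_smul, FunLike.coe_smul,
    ModularForm.qExpansion_smul one_pos one_mem_strictPeriods_SL,
    ModularForm.qExpansion_smul one_pos one_mem_strictPeriods_SL, ModularForm.qExpansion_one]
  ext m
  simp [PowerSeries.coeff_one]
  split_ifs <;> simp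

/-- The inductive step. -/
theorem hasConj_step (s : ℂ →+* ℂ) {k : ℕ} (hk : 3 ≤ k) (hk2 : Even k)
    (ih : HasConj s ((k : ℤ) - 12)) : HasConj s (k : ℤ) := by
  intro g
  set c : ℂ := (qExpansion 1 g).coeff 0 with hc
  set h : ModularForm 𝒮ℒ (k : ℤ) := g - c • E hk with hh
  have h0 : (qExpansion 1 h).coeff 0 = 0 := by
    rw [hh, FunLike.coe_sub, ModularForm.qExpansion_sub one_pos one_mem_strictPeriods_SL,
      FunLike.coe_smul, ModularForm.qExpansion_smul one_pos one_mem_strictPeriods_SL, map_sub,
      PowerSeries.coeff_smul, E_qExpansion_coeff_zero hk hk2, smul_eq_mul, mul_one, sub_self]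
  have hq := qExpansion_eq_qExpansion_discriminant_mul h h0
  obtain ⟨h'', hh''⟩ := ih (CuspForm.discriminantEquiv (toCuspForm h h0))
  -- the conjugate form
  let D : ModularForm 𝒮ℒ (k : ℤ) :=
    CuspForm.toModularFormₗ (CuspForm.ofMulDiscriminant h'')
  refine ⟨s c • E hk + D, ?_⟩
  have hD : qExpansion 1 D = qExpansion 1 ModularForm.discriminant * qExpansion 1 h'' := by
    have : (D : ℍ → ℂ) = ⇑CuspForm.discriminant * ⇑h'' := by
      funext z
      simp [D, CuspForm.toModularFormₗ_apply]
    rw [this]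
    exact ModularForm.qExpansion_mul_coe one_pos one_mem_strictPeriods_SL _ _
  have hg : (g : ℍ → ℂ) = ⇑(c • E hk + h) := by
    rw [hh]; funext z; simp
  rw [FunLike.coe_add, ModularForm.qExpansion_add one_pos one_mem_strictPeriods_SL,
    FunLike.coe_smul, ModularForm.qExpansion_smul one_pos one_mem_strictPeriods_SL, hD, hh'',
    hg, FunLike.coe_add, ModularForm.qExpansion_add one_pos one_mem_strictPeriods_SL,
    FunLike.coe_smul, ModularForm.qExpansion_smul one_pos one_mem_strictPeriods_SL, hq,
    map_add, map_mul, discriminant_qExpansion_map]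
  congr 1
  ext m
  have hE : s ((qExpansion 1 (E hk)).coeff m) = (qExpansion 1 (E hk)).coeff m := by
    rw [← PowerSeries.coeff_map, E_qExpansion_map s hk hk2]
  simp only [PowerSeries.coeff_map, PowerSeries.coeff_smul, smul_eq_mul, map_mul, hE]

theorem hasConj_nat (s : ℂ →+* ℂ) (k : ℕ) : HasConj s (k : ℤ) := by
  induction k using Nat.strong_induction_on with | _ k ih =>
  rcases Nat.even_or_odd k with hk2 | hk2
  · rcases lt_or_ge k 3 with hk | hk
    · have : k = 0 ∨ k = 2 := by
        rcases hk2 with ⟨m, rfl⟩; omega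
      rcases this with rfl | rfl
      · exact_mod_cast hasConj_zero s
      · exact hasConj_of_forall_eq_zero s
          (rank_zero_iff_forall_zero.mp (by exact_mod_cast levelOne_weight_two_rank_zero))
    · refine hasConj_step s hk hk2 ?_
      rcases lt_or_ge k 12 with hk12 | hk12
      · exact hasConj_neg s (by omega)
      · rw [show ((k : ℤ) - 12 : ℤ) = ((k - 12 : ℕ) : ℤ) by omega]
        exact ih (k - 12) (by omega)
  · exact hasConj_of_forall_eq_zero s
      (ModularForm.levelOne_odd_weight_eq_zero (by exact_mod_cast hk2))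

/-- **Level one modular forms are defined over `ℚ`**: for every ring endomorphism `s` of `ℂ`
and every level one modular form `g` there is a level one modular form of the same weight whose
`q`-expansion is the coefficientwise `s`-conjugate of that of `g`. -/
theorem exists_levelOne_conj (s : ℂ →+* ℂ) (k : ℤ) (g : ModularForm 𝒮ℒ k) :
    ∃ g' : ModularForm 𝒮ℒ k, qExpansion 1 g' = (qExpansion 1 g).map s := by
  rcases lt_or_ge k 0 with hk | hk
  · exact hasConj_neg s hk g
  · lift k to ℕ using hk
    exact hasConj_nat s k g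

/-- Cusp form version of `exists_levelOne_conj`. -/
theorem exists_levelOne_conj_cusp (s : ℂ →+* ℂ) (k : ℤ) (g : CuspForm 𝒮ℒ k) :
    ∃ g' : CuspForm 𝒮ℒ k, qExpansion 1 g' = (qExpansion 1 g).map s := by
  obtain ⟨g', hg'⟩ := exists_levelOne_conj s k (CuspForm.toModularFormₗ g)
  have hgq : qExpansion 1 (CuspForm.toModularFormₗ g) = qExpansion 1 g := rfl
  have h0 : (qExpansion 1 g').coeff 0 = 0 := by
    rw [hg', hgq, PowerSeries.coeff_map,
      CuspFormClass.qExpansion_coeff_zero g one_pos one_mem_strictPeriods_SL, map_zero]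
  exact ⟨toCuspForm g' h0, by rw [← hgq, ← hg']; rfl⟩

end Fermat.Agent.S23
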