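import Mathlib
import Fermat.Agent.S23.Defs
import Fermat.Agent.S23.LevelOneAut
import Fermat.Agent.S23.E4N
import Fermat.Agent.S23.SeparationE4N
import Fermat.Agent.S23.LagrangeData
import Fermat.Agent.S23.AnalyticCore
import Fermat.Agent.S23.HolAtInfty
import Fermat.Prelude.Thm_CongruenceSubgroup_one_mem_strictPeriods_Gamma0

set_option autoImplicit false

/-!
# S23, piece P9: Galois stability of `S_k(Γ₀(N))`

For every ring endomorphism `s` of `ℂ` and every cusp form `f` of weight `k` on `Γ₀(N)` there is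
a cusp form `f'` of the same weight and level whose `q`-expansion is the coefficientwise
`s`-conjugate of that of `f`.  (Assembly of P5, P6, P7c, the analytic core and the level one
conjugation; owner: helper40.)
-/


namespace Fermat.Agent.S23

open UpperHalfPlane Matrix.SpecialLinearGroup ModularForm
open scoped MatrixGroups ModularForm Manifold

namespace Conj

/-- Restriction of a level one modular form to a subgroup of `𝒮ℒ`. -/
def restrict {𝒢 : Subgroup (GL (Fin 2) ℝ)} (h𝒢 : 𝒢 ≤ 𝒮ℒ) {k : ℤ} (g : ModularForm 𝒮ℒ k) :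
    ModularForm 𝒢 k where
  toFun := g
  slash_action_eq' A hA := g.slash_action_eq' A (h𝒢 hA)
  holo' := g.holo'
  bdd_at_cusps' hc := g.bdd_at_cusps' (hc.mono h𝒢)

@[simp] lemma restrict_apply {𝒢 : Subgroup (GL (Fin 2) ℝ)} (h𝒢 : 𝒢 ≤ 𝒮ℒ) {k : ℤ}
    (g : ModularForm 𝒮ℒ k) (z : ℍ) : restrict h𝒢 g z = g z := rfl

/-- The subring of functions holomorphic at `i∞`. -/
def holSubring : Subring (ℍ → ℂ) where
  carrier := {f | HolAtInfty f}
  mul_mem' := fun hf hg => hf.mul hg
  one_mem' := HolAtInfty.one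
  add_mem' := fun hf hg => hf.add hg
  zero_mem' := HolAtInfty.zero
  neg_mem' := fun hf => hf.neg

/-- `qExpansion 1` as a ring homomorphism on `holSubring`. -/
noncomputable def qHom : holSubring →+* PowerSeries ℂ where
  toFun f := qExpansion 1 (f : ℍ → ℂ)
  map_one' := qExpansion_one 1
  map_mul' f g := qExpansion_mul' f.2 g.2
  map_zero' := qExpansion_zero 1
  map_add' f g := qExpansion_add' f.2 g.2

lemma qHom_mk (f : ℍ → ℂ) (hf : HolAtInfty f) : qHom ⟨f, hf⟩ = qExpansion 1 f := rfl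

lemma qHom_injective : Function.Injective qHom := by
  intro f g h
  exact Subtype.ext (HolAtInfty.eq_of_qExpansion_eq f.2 g.2 h)

lemma gamma0_le (N : ℕ) :
    ((CongruenceSubgroup.Gamma0 N : Subgroup SL(2, ℤ)) : Subgroup (GL (Fin 2) ℝ)) ≤ 𝒮ℒ :=
  Subgroup.map_le_range _ _

lemma coe_sum_apply {ι : Type*} (s : Finset ι) (x : ι → holSubring) (z : ℍ) :
    ((∑ i ∈ s, x i : holSubring) : ℍ → ℂ) z = ∑ i ∈ s, (x i : ℍ → ℂ) z := by
  rw [AddSubmonoidClass.coe_finsetSum, Finset.sum_apply]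

/-- the polynomial identity behind the reduction of the monic relation -/
lemma monic_rel_mul {R : Type*} [CommRing R] {μ : ℕ} (F D : R) (B : Fin μ → R) :
    (F * D) ^ μ + ∑ j : Fin μ, B j * (F * D) ^ (μ - 1 - (j : ℕ)) * D ^ ((j : ℕ) + 1) =
      D ^ μ * (F ^ μ + ∑ j : Fin μ, B j * F ^ (μ - 1 - (j : ℕ))) := by
  rw [mul_add, Finset.mul_sum, mul_pow]
  congr 1
  · ring
  · refine Finset.sum_congr rfl fun j _ => ?_
    have hj : μ - 1 - (j : ℕ) + ((j : ℕ) + 1) = μ := by have := j.isLt; omega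
    calc B j * (F * D) ^ (μ - 1 - (j : ℕ)) * D ^ ((j : ℕ) + 1)
        = B j * F ^ (μ - 1 - (j : ℕ)) * (D ^ (μ - 1 - (j : ℕ)) * D ^ ((j : ℕ) + 1)) := by
          rw [mul_pow]; ring
      _ = B j * F ^ (μ - 1 - (j : ℕ)) * D ^ μ := by rw [← pow_add, hj]
      _ = D ^ μ * (B j * F ^ (μ - 1 - (j : ℕ))) := by ring

end Conj

namespace Conj

theorem exists_conj_cuspForm (N : ℕ) [NeZero N] (k : ℤ) (s : ℂ →+* ℂ)
    (f : CuspForm ((CongruenceSubgroup.Gamma0 N : Subgroup SL(2, ℤ)) : Subgroup (GL (Fin 2) ℝ)) k) :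
    ∃ f' : CuspForm ((CongruenceSubgroup.Gamma0 N : Subgroup SL(2, ℤ)) : Subgroup (GL (Fin 2) ℝ)) k,
      qExpansion 1 f' = (qExpansion 1 f).map s := by
  classical
  have h1 : (1 : ℝ) ∈ ((CongruenceSubgroup.Gamma0 N : Subgroup SL(2, ℤ)) :
      Subgroup (GL (Fin 2) ℝ)).strictPeriods := CongruenceSubgroup.one_mem_strictPeriods_Gamma0 N
  have hle := gamma0_le N
  have hSL : (1 : ℝ) ∈ (𝒮ℒ).strictPeriods := one_mem_strictPeriods_SL
  obtain ⟨t, ht_eq, ht_int⟩ := exists_E4N_form N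
  have ht_sep : ∀ h : SL(2, ℤ), h ∉ CongruenceSubgroup.Gamma0 N →
      ((t : ℍ → ℂ) ∣[(4 : ℤ)] (mapGL ℝ h : GL (Fin 2) ℝ)) ≠ (t : ℍ → ℂ) := by
    intro h hh
    rw [ht_eq]
    exact E4N_slash_ne N h hh
  obtain ⟨μ, b, c, d, hb0, hV, hL, hP⟩ :=
    exists_lagrange_data (CongruenceSubgroup.Gamma0 N) f t ht_sep
  have hμ : 0 < μ := by
    rcases Nat.eq_zero_or_pos μ with rfl | h
    · obtain ⟨z, hz⟩ := hP
      simp at hz
    · exact h
  choose b' hb' using fun j => exists_levelOne_conj s _ (b j)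
  choose c' hc' using fun m => exists_levelOne_conj s _ (c m)
  choose d' hd' using fun m => exists_levelOne_conj s _ (d m)
  -- elements of the ring of functions holomorphic at infinity
  set σ : PowerSeries ℂ →+* PowerSeries ℂ := PowerSeries.map s with hσ
  have hσinj : Function.Injective σ := by
    intro p q hpq
    ext n
    have := congrArg (PowerSeries.coeff n) hpq
    simp only [hσ, PowerSeries.coeff_map] at this
    exact s.injective this
  set tH : holSubring := ⟨t, HolAtInfty.of_modularForm h1 t⟩ with htH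
  set fH : holSubring := ⟨f, HolAtInfty.of_cuspForm h1 f⟩ with hfH
  set bH : Fin μ → holSubring := fun j => ⟨b j, HolAtInfty.of_modularForm hSL (b j)⟩ with hbH
  set cH : Fin μ → holSubring := fun m => ⟨c m, HolAtInfty.of_modularForm hSL (c m)⟩ with hcH
  set dH : Fin μ → holSubring := fun m => ⟨d m, HolAtInfty.of_modularForm hSL (d m)⟩ with hdH
  set b'H : Fin μ → holSubring := fun j => ⟨b' j, HolAtInfty.of_modularForm hSL (b' j)⟩ with hb'H
  set c'H : Fin μ → holSubring := fun m => ⟨c' m, HolAtInfty.of_modularForm hSL (c' m)⟩ with hc'H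
  set d'H : Fin μ → holSubring := fun m => ⟨d' m, HolAtInfty.of_modularForm hSL (d' m)⟩ with hd'H
  set DH : holSubring := ∑ m : Fin μ, dH m * tH ^ (m : ℕ) with hDH
  set AH : holSubring := ∑ m : Fin μ, cH m * tH ^ (m : ℕ) with hAH
  set D'H : holSubring := ∑ m : Fin μ, d'H m * tH ^ (m : ℕ) with hD'H
  set A'H : holSubring := ∑ m : Fin μ, c'H m * tH ^ (m : ℕ) with hA'H
  -- q-expansions
  have hqt : σ (qHom tH) = qHom tH := by
    ext n
    obtain ⟨a, ha⟩ := ht_int n
    simp only [hσ, PowerSeries.coeff_map, htH, qHom_mk, ha, map_intCast]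
  have hqb : ∀ j, qHom (b'H j) = σ (qHom (bH j)) := fun j => hb' j
  have hqc : ∀ m, qHom (c'H m) = σ (qHom (cH m)) := fun m => hc' m
  have hqd : ∀ m, qHom (d'H m) = σ (qHom (dH m)) := fun m => hd' m
  have hqD : qHom D'H = σ (qHom DH) := by
    simp only [hD'H, hDH, map_sum, map_mul, map_pow, hqd, hqt]
  have hqA : qHom A'H = σ (qHom AH) := by
    simp only [hA'H, hAH, map_sum, map_mul, map_pow, hqc, hqt]
  -- the Lagrange relation `f * D = A` in the ring
  have hfDA : fH * DH = AH := by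
    apply Subtype.ext
    funext z
    have := hL z
    simp only [hDH, hAH, Subring.coe_mul, Pi.mul_apply, coe_sum_apply, Subring.coe_pow,
      Pi.pow_apply, hfH, hdH, hcH, htH]
    exact this
  -- the monic relation for `f`
  have hVH : fH ^ μ + ∑ j : Fin μ, bH j * fH ^ (μ - 1 - (j : ℕ)) = 0 := by
    apply Subtype.ext
    funext z
    have := hV z
    simp only [Subring.coe_add, Pi.add_apply, coe_sum_apply, Subring.coe_mul, Pi.mul_apply,
      Subring.coe_pow, Pi.pow_apply, hfH, hbH, Subring.coe_zero, Pi.zero_apply]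
    exact this
  -- the relation for `A`, `D`
  have hGH : AH ^ μ + ∑ j : Fin μ, bH j * AH ^ (μ - 1 - (j : ℕ)) * DH ^ ((j : ℕ) + 1) = 0 := by
    rw [← hfDA, monic_rel_mul, hVH, mul_zero]
  -- transported relation
  have hG'H : A'H ^ μ + ∑ j : Fin μ, b'H j * A'H ^ (μ - 1 - (j : ℕ)) * D'H ^ ((j : ℕ) + 1) = 0 := by
    apply qHom_injective
    have := congrArg (fun x => σ (qHom x)) hGH
    simp only [map_add, map_sum, map_mul, map_pow, map_zero] at this
    simp only [map_add, map_sum, map_mul, map_pow, map_zero, hqA, hqD, hqb]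
    exact this
  -- `D' ≠ 0`
  have hDH0 : DH ≠ 0 := by
    obtain ⟨z, hz⟩ := hP
    intro h0
    apply hz
    have := congrArg (fun x : holSubring => (x : ℍ → ℂ) z) h0
    simp only [hDH, coe_sum_apply, Subring.coe_mul, Pi.mul_apply, Subring.coe_pow, Pi.pow_apply,
      hdH, htH, Subring.coe_zero, Pi.zero_apply] at this
    exact this
  have hqD0 : qHom D'H ≠ 0 := by
    rw [hqD]
    intro h0
    apply hDH0
    apply qHom_injective
    apply hσinj
    rw [h0, map_zero, map_zero]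
  -- modular forms `A'`, `D'` on `Γ₀(N)`
  set A' : ModularForm ((CongruenceSubgroup.Gamma0 N : Subgroup SL(2, ℤ)) :
      Subgroup (GL (Fin 2) ℝ)) (k + 4 * ((μ : ℤ) - 1)) :=
    ∑ m : Fin μ, mcast (by ring) ((restrict hle (c' m)).mul (t.pow (m : ℕ))) with hA'def
  set D' : ModularForm ((CongruenceSubgroup.Gamma0 N : Subgroup SL(2, ℤ)) :
      Subgroup (GL (Fin 2) ℝ)) (4 * ((μ : ℤ) - 1)) :=
    ∑ m : Fin μ, mcast (by ring) ((restrict hle (d' m)).mul (t.pow (m : ℕ))) with hD'def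
  have hA' : ∀ z : ℍ, A' z = (A'H : ℍ → ℂ) z := by
    intro z
    rw [hA'def, hA'H, coe_sum_apply, FunLike.coe_sum, Finset.sum_apply]
    refine Finset.sum_congr rfl fun m _ => ?_
    simp only [mcast_apply, ModularForm.coe_mul, ModularForm.coe_pow, Pi.mul_apply, Pi.pow_apply,
      restrict_apply, hc'H, htH, Subring.coe_mul, Subring.coe_pow]
  have hD' : ∀ z : ℍ, D' z = (D'H : ℍ → ℂ) z := by
    intro z
    rw [hD'def, hD'H, coe_sum_apply, FunLike.coe_sum, Finset.sum_apply]
    refine Finset.sum_congr rfl fun m _ => ?_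
    simp only [mcast_apply, ModularForm.coe_mul, ModularForm.coe_pow, Pi.mul_apply, Pi.pow_apply,
      restrict_apply, hd'H, htH, Subring.coe_mul, Subring.coe_pow]
  have hD'ne : D' ≠ 0 := by
    intro h0
    apply hqD0
    have : D'H = 0 := by
      apply Subtype.ext
      funext z
      rw [← hD' z, h0]
      rfl
    rw [this, map_zero]
  -- the hypotheses of the analytic core
  have hb_cont : ∀ j : Fin μ, Continuous (b' j : ℍ → ℂ) := fun j =>
    ModularFormClass.continuous (b' j)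
  have hb_inv : ∀ (j : Fin μ) (g : SL(2, ℤ)),
      (b' j : ℍ → ℂ) ∣[(((j : ℕ) + 1 : ℕ) : ℤ) * k] g = (b' j : ℍ → ℂ) := by
    intro j g
    have hw : (((j : ℕ) + 1 : ℕ) : ℤ) * k = k * (((j : ℕ) : ℤ) + 1) := by push_cast; ring
    rw [hw]
    exact SlashInvariantFormClass.slash_action_eq (b' j) (mapGL ℝ g) ⟨g, rfl⟩
  have hb_zero : ∀ j : Fin μ, IsZeroAtImInfty (b' j : ℍ → ℂ) := by
    intro j
    rw [(HolAtInfty.of_modularForm hSL (b' j)).isZeroAtImInfty_iff, hb' j, hσ,
      PowerSeries.coeff_map,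
      ((HolAtInfty.of_modularForm hSL (b j)).isZeroAtImInfty_iff).mp (hb0 j), map_zero]
  have hrel : ∀ z : ℍ, A' z ^ μ +
      ∑ j : Fin μ, (b' j : ℍ → ℂ) z * A' z ^ (μ - 1 - (j : ℕ)) * D' z ^ ((j : ℕ) + 1) = 0 := by
    intro z
    have := congrArg (fun x : holSubring => (x : ℍ → ℂ) z) hG'H
    simp only [Subring.coe_add, Pi.add_apply, coe_sum_apply, Subring.coe_mul, Pi.mul_apply,
      Subring.coe_pow, Pi.pow_apply, Subring.coe_zero, Pi.zero_apply, ← hA' z, ← hD' z,
      hb'H] at this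
    exact this
  obtain ⟨F, hF⟩ := exists_cuspForm_mul_eq hμ A' D' hD'ne (fun j => (b' j : ℍ → ℂ))
    hb_cont hb_inv hb_zero hrel
  refine ⟨F, ?_⟩
  set FH : holSubring := ⟨F, HolAtInfty.of_cuspForm h1 F⟩ with hFH
  have hFDA : FH * D'H = A'H := by
    apply Subtype.ext
    funext z
    simp only [Subring.coe_mul, Pi.mul_apply, hFH, ← hA' z, ← hD' z]
    exact hF z
  have hq : qHom FH * qHom D'H = σ (qHom fH) * qHom D'H := by
    rw [← map_mul, hFDA, hqA, ← hfDA, map_mul, map_mul, hqD]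
  exact mul_right_cancel₀ hqD0 hq

end Conj

end Fermat.Agent.S23
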