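import Mathlib
import Fermat.Agent.S23.AutComplex

/-!
# Subspaces stable under coordinatewise automorphisms are spanned by rational points

Piece (7) of the S23 route: a subspace `W ⊆ Ωⁿ` (with `Ω` algebraically closed of characteristic
zero, e.g. `ℂ`) which is stable under the coordinatewise action of all ring automorphisms of `Ω`
is spanned by its vectors with rational coordinates.
-/

set_option autoImplicit false

namespace Fermat.Agent.S23

theorem span_rat_points_of_ringEquiv_stable {Ω ι : Type*} [Field Ω] [CharZero Ω] [IsAlgClosed Ω]
    [Fintype ι] (W : Submodule Ω (ι → Ω))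
    (hW : ∀ (σ : Ω ≃+* Ω) (v : ι → Ω), v ∈ W → (fun i => σ (v i)) ∈ W) :
    Submodule.span Ω {v : ι → Ω | v ∈ W ∧ ∀ i, ∃ q : ℚ, (q : Ω) = v i} = W := by
  classical
  set R : Set (ι → Ω) := {v | v ∈ W ∧ ∀ i, ∃ q : ℚ, (q : Ω) = v i} with hR
  apply le_antisymm
  · exact Submodule.span_le.mpr fun v hv => hv.1
  · let supp : (ι → Ω) → Finset ι := fun v => Finset.univ.filter fun i => v i ≠ 0
    have mem_supp : ∀ (v : ι → Ω) (i : ι), i ∈ supp v ↔ v i ≠ 0 := fun v i => by
      simp [supp]
    have key : ∀ k : ℕ, ∀ w ∈ W, (supp w).card ≤ k → w ∈ Submodule.span Ω R := by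
      intro k
      induction k with
      | zero =>
        intro w _ hk
        have hempty : supp w = ∅ := Finset.card_eq_zero.mp (Nat.le_zero.mp hk)
        have hw0 : w = 0 := by
          funext i
          by_contra hi
          have : i ∈ supp w := (mem_supp w i).mpr hi
          rw [hempty] at this
          exact Finset.notMem_empty i this
        rw [hw0]; exact Submodule.zero_mem _
      | succ k ih =>
        intro w hw hk
        by_cases hw0 : w = 0
        · rw [hw0]; exact Submodule.zero_mem _
        -- choose a nonzero vector of `W` with support inside that of `w`, of minimal support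
        have hex : ∃ m, ∃ u ∈ W, u ≠ 0 ∧ supp u ⊆ supp w ∧ (supp u).card = m :=
          ⟨_, w, hw, hw0, subset_rfl, rfl⟩
        obtain ⟨u, huW, hu0, husub, hucard⟩ := Nat.find_spec hex
        have hmin : ∀ u' ∈ W, u' ≠ 0 → supp u' ⊆ supp w → Nat.find hex ≤ (supp u').card :=
          fun u' h1 h2 h3 => Nat.find_min' hex ⟨u', h1, h2, h3, rfl⟩
        -- pick a coordinate in the support of `u` and normalise
        obtain ⟨i, hi⟩ : ∃ i, u i ≠ 0 := by
          by_contra hcon
          simp only [not_exists, not_not] at hcon
          exact hu0 (funext hcon)
        set u' : ι → Ω := (u i)⁻¹ • u with hu'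
        have hu'W : u' ∈ W := W.smul_mem _ huW
        have hu'i : u' i = 1 := by simp [hu', hi]
        have hsupp' : ∀ j, u' j ≠ 0 ↔ u j ≠ 0 := fun j => by
          simp [hu', hi]
        have hu'sub : supp u' ⊆ supp w := fun j hj =>
          husub ((mem_supp u j).mpr ((hsupp' j).mp ((mem_supp u' j).mp hj)))
        have hcard' : (supp u').card = Nat.find hex := by
          rw [← hucard]
          congr 1
          ext j
          rw [mem_supp, mem_supp, hsupp']
        -- `u'` is fixed by every automorphism
        have hfix : ∀ (σ : Ω ≃+* Ω) (j : ι), σ (u' j) = u' j := by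
          intro σ j
          set d : ι → Ω := (fun j => σ (u' j)) - u' with hd
          have hdW : d ∈ W := W.sub_mem (hW σ u' hu'W) hu'W
          have hdi : d i = 0 := by simp [hd, hu'i]
          have hdsub : supp d ⊆ supp u' := by
            intro l hl
            rw [mem_supp] at hl ⊢
            intro hzero
            apply hl
            simp [hd, hzero]
          have hdlt : (supp d).card < (supp u').card := by
            apply Finset.card_lt_card
            refine ⟨hdsub, fun hsub => ?_⟩
            have hi' : i ∈ supp u' := (mem_supp u' i).mpr (by rw [hu'i]; exact one_ne_zero)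
            have := hsub hi'
            rw [mem_supp] at this
            exact this hdi
          have hd0 : d = 0 := by
            by_contra hne
            have := hmin d hdW hne (hdsub.trans hu'sub)
            omega
          have := congrFun hd0 j
          simp only [hd, Pi.sub_apply, Pi.zero_apply] at this
          exact sub_eq_zero.mp this
        have hu'R : u' ∈ R := by
          refine ⟨hu'W, fun j => ?_⟩
          exact mem_range_ratCast_of_forall_ringEquiv fun σ => hfix σ j
        -- subtract a multiple of `u'` from `w` to shrink the support
        set w' : ι → Ω := w - (w i) • u' with hw'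
        have hw'W : w' ∈ W := W.sub_mem hw (W.smul_mem _ hu'W)
        have hw'i : w' i = 0 := by simp [hw', hu'i]
        have hiw : i ∈ supp w := husub ((mem_supp u i).mpr hi)
        have hw'sub : supp w' ⊆ supp w := by
          intro l hl
          rw [mem_supp] at hl ⊢
          intro hzero
          apply hl
          have hul : u' l = 0 := by
            by_contra hne
            have := hu'sub ((mem_supp u' l).mpr hne)
            rw [mem_supp] at this
            exact this hzero
          simp [hw', hzero, hul]
        have hw'lt : (supp w').card < (supp w).card := by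
          apply Finset.card_lt_card
          refine ⟨hw'sub, fun hsub => ?_⟩
          have := hsub hiw
          rw [mem_supp] at this
          exact this hw'i
        have hw'mem : w' ∈ Submodule.span Ω R := ih w' hw'W (by omega)
        have hweq : w = w' + (w i) • u' := by simp [hw']
        rw [hweq]
        exact Submodule.add_mem _ hw'mem (Submodule.smul_mem _ _ (Submodule.subset_span hu'R))
    intro w hw
    exact key _ w hw le_rfl

/-- Piece (7), concrete form for `ℂⁿ`. -/
theorem span_rat_points_of_aut_stable {n : ℕ} (W : Submodule ℂ (Fin n → ℂ))
    (hW : ∀ (σ : ℂ ≃+* ℂ) (v : Fin n → ℂ), v ∈ W → (fun i => σ (v i)) ∈ W) :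
    Submodule.span ℂ {v : Fin n → ℂ | v ∈ W ∧ ∀ i, ∃ q : ℚ, (q : ℂ) = v i} = W :=
  span_rat_points_of_ringEquiv_stable W hW

end Fermat.Agent.S23
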