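import Mathlib
import Fermat.Agent.S23.Conj
import Fermat.Agent.S23.RationalSpan
import Fermat.Agent.S23.AutComplex
import Fermat.Agent.S23.HolAtInfty
import Fermat.Agent.S23.BoundedDenomGlue
import Fermat.Prelude.Def_CuspForm_IntegralStructure
import Fermat.Prelude.Thm_CuspForm_intLattice_fg

/-!
# S23: glue.  `S_k(Γ₀(N))` has an integral structure, for every weight `k`.
-/

set_option autoImplicit false

namespace Fermat.Agent.S23

open UpperHalfPlane Matrix.SpecialLinearGroup
open scoped MatrixGroups ModularForm Manifold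

namespace Main

open P2MW.S_CuspForm_intLattice_fg.W3WsD

variable (N : ℕ) (k : ℤ)

theorem hol (f : CuspForm (CongruenceSubgroup.Gamma0 N) k) : HolAtInfty (f : ℍ → ℂ) :=
  HolAtInfty.of_cuspForm (hΓ N) f

/-- Truncated `q`-expansion as a `ℂ`-linear map. -/
noncomputable def truncC :
    CuspForm (CongruenceSubgroup.Gamma0 N) k →ₗ[ℂ] (Fin (sturmB N k + 1) → ℂ) where
  toFun f i := (qExpansion 1 f).coeff i
  map_add' f g := by
    funext i
    have : (⇑(f + g) : ℍ → ℂ) = ⇑f + ⇑g := by ext z; simp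
    simp only [this, qExpansion_add' (hol N k f) (hol N k g), map_add, Pi.add_apply]
  map_smul' c f := by
    funext i
    have : (⇑(c • f) : ℍ → ℂ) = c • ⇑f := by ext z; simp
    simp only [this, qExpansion_smul' c (hol N k f), RingHom.id_apply, Pi.smul_apply,
      PowerSeries.coeff_smul, smul_eq_mul]

theorem truncC_apply (f : CuspForm (CongruenceSubgroup.Gamma0 N) k) (i : Fin (sturmB N k + 1)) :
    truncC N k f i = (qExpansion 1 f).coeff i := rfl

theorem truncC_injective [NeZero N] : Function.Injective (truncC N k) := by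
  intro f g hfg
  apply trunc_injective N k
  funext i
  exact congrFun hfg i

end Main

open Main P2MW.S_CuspForm_intLattice_fg.W3WsD

/-- Rational structure: cusp forms with rational `q`-expansion span. -/
theorem span_rational_cuspForms (N : ℕ) [NeZero N] (k : ℤ) :
    Submodule.span ℂ {f : CuspForm (CongruenceSubgroup.Gamma0 N) k |
      ∀ n, ∃ r : ℚ, (qExpansion 1 f).coeff n = (r : ℂ)} = ⊤ := by
  set R : Set (CuspForm (CongruenceSubgroup.Gamma0 N) k) :=
    {f | ∀ n, ∃ r : ℚ, (qExpansion 1 f).coeff n = (r : ℂ)} with hR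
  set W : Submodule ℂ (Fin (sturmB N k + 1) → ℂ) := LinearMap.range (truncC N k) with hWdef
  -- conjugates
  have hconj : ∀ (σ : ℂ ≃+* ℂ) (f : CuspForm (CongruenceSubgroup.Gamma0 N) k),
      ∃ f' : CuspForm (CongruenceSubgroup.Gamma0 N) k,
        ∀ n, (qExpansion 1 f').coeff n = σ ((qExpansion 1 f).coeff n) := by
    intro σ f
    obtain ⟨f', hf'⟩ := Conj.exists_conj_cuspForm N k (σ : ℂ →+* ℂ) f
    exact ⟨f', fun n => by rw [hf', PowerSeries.coeff_map]; rfl⟩
  have hW : ∀ (σ : ℂ ≃+* ℂ) (v : Fin (sturmB N k + 1) → ℂ), v ∈ W →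
      (fun i => σ (v i)) ∈ W := by
    rintro σ _ ⟨f, rfl⟩
    obtain ⟨f', hf'⟩ := hconj σ f
    exact ⟨f', funext fun i => by rw [truncC_apply, hf', truncC_apply]⟩
  have hspan := span_rat_points_of_aut_stable W hW
  -- rational points of `W` come from forms with rational `q`-expansion
  have hsub : {v : Fin (sturmB N k + 1) → ℂ | v ∈ W ∧ ∀ i, ∃ q : ℚ, (q : ℂ) = v i} ⊆
      (truncC N k) '' R := by
    rintro v ⟨⟨f, rfl⟩, hrat⟩
    refine ⟨f, ?_, rfl⟩
    intro n
    have hfix : ∀ σ : ℂ ≃+* ℂ, σ ((qExpansion 1 f).coeff n) = (qExpansion 1 f).coeff n := by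
      intro σ
      obtain ⟨f', hf'⟩ := hconj σ f
      have : f' = f := by
        apply truncC_injective N k
        funext i
        rw [truncC_apply, hf', truncC_apply]
        obtain ⟨q, hq⟩ := hrat i
        rw [truncC_apply] at hq
        rw [← hq, map_ratCast]
      rw [← hf' n, this]
    obtain ⟨r, hr⟩ := mem_range_ratCast_of_forall_ringAut hfix
    exact ⟨r, hr.symm⟩
  have h1 : W ≤ Submodule.map (truncC N k) (Submodule.span ℂ R) := by
    rw [← hspan, Submodule.map_span]
    exact Submodule.span_mono hsub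
  rw [hWdef, LinearMap.range_eq_map] at h1
  exact top_le_iff.mp ((Submodule.map_le_map_iff_of_injective (truncC_injective N k) _ _).mp h1)

theorem hasIntegralStructure (N : ℕ) [NeZero N] (k : ℤ) : CuspForm.HasIntegralStructure N k := by
  unfold CuspForm.HasIntegralStructure
  rw [eq_top_iff, ← span_rational_cuspForms N k, Submodule.span_le]
  intro f hf
  obtain ⟨m, hm0, hm⟩ := exists_int_multiple N k f hf
  have hmem : ((m : ℂ) • f) ∈ CuspForm.intLattice N k := by
    refine Submodule.subset_span ?_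
    intro n
    obtain ⟨a, ha⟩ := hm n
    refine ⟨a, ?_⟩
    have : (⇑((m : ℂ) • f) : ℍ → ℂ) = (m : ℂ) • ⇑f := by ext z; simp
    rw [← ha, ModularFormClass.qCoeff, this, qExpansion_smul' _ (hol N k f)]
    simp
  have hmC : (m : ℂ) ≠ 0 := by exact_mod_cast hm0
  have : f = (m : ℂ)⁻¹ • ((m : ℂ) • f) := by rw [smul_smul, inv_mul_cancel₀ hmC, one_smul]
  rw [this]
  exact Submodule.smul_mem _ _ (Submodule.subset_span hmem)

end Fermat.Agent.S23
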