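/-
Piece (8) of the S23 route: bounded denominators for power series.
`ℤ⟦X⟧` is "completely integrally closed" inside `ℚ⟦X⟧`: if `c * h ^ n` has integer coefficients
for all `n` (with `c ≠ 0` an integral power series), then `h` has integer coefficients.
Consequently an element of `ℚ⟦X⟧` which is a quotient of integral power series and is integral
over `ℤ⟦X⟧` has integer coefficients.
-/
import Mathlib.RingTheory.PowerSeries.Basic
import Mathlib.RingTheory.PowerSeries.NoZeroDivisors
import Mathlib.RingTheory.Polynomial.Basic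
import Mathlib.Data.Rat.Lemmas
import Mathlib.RingTheory.Coprime.Lemmas
import Mathlib.RingTheory.IntegralClosure.IsIntegral.Defs
import Mathlib.Tactic

set_option autoImplicit false

namespace Fermat.Agent.S23.BoundedDenominators

open PowerSeries

/-- The coefficientwise cast `ℤ⟦X⟧ →+* ℚ⟦X⟧`. -/
noncomputable abbrev castQ : PowerSeries ℤ →+* PowerSeries ℚ :=
  PowerSeries.map (Int.castRingHom ℚ)

/-- A rational number `r` such that `c * r ^ n` is an integer for every `n`
(with `c` a fixed nonzero integer) is an integer. -/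
theorem rat_isInt_of_forall_mul_pow (c : ℤ) (hc : c ≠ 0) (r : ℚ)
    (H : ∀ n : ℕ, ∃ z : ℤ, (c : ℚ) * r ^ n = z) : ∃ z : ℤ, r = z := by
  -- write r = a / b in lowest terms
  have hb0 : (r.den : ℚ) ≠ 0 := by exact_mod_cast r.den_ne_zero
  have hr : r = (r.num : ℚ) / (r.den : ℚ) := (Rat.num_div_den r).symm
  have hcop : IsCoprime (r.den : ℤ) r.num := (Rat.isCoprime_num_den r).symm
  -- b ^ n ∣ c for all n
  have hdvd : ∀ n : ℕ, ((r.den : ℤ) ^ n) ∣ c := by
    intro n
    obtain ⟨z, hz⟩ := H n
    have h1 : (c : ℚ) * (r.num : ℚ) ^ n = (z : ℚ) * (r.den : ℚ) ^ n := by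
      have hbn : ((r.den : ℚ)) ^ n ≠ 0 := pow_ne_zero _ hb0
      rw [hr, div_pow] at hz
      rw [← hz, mul_assoc, div_mul_cancel₀ _ hbn]
    have h2 : c * r.num ^ n = z * (r.den : ℤ) ^ n := by exact_mod_cast h1
    have h3 : ((r.den : ℤ) ^ n) ∣ c * r.num ^ n := ⟨z, by rw [h2]; ring⟩
    exact (IsCoprime.pow (m := n) (n := n) hcop).dvd_of_dvd_mul_right h3
  -- hence b = 1
  have hb1 : r.den = 1 := by
    by_contra hne
    have hbpos : 0 < r.den := r.den_pos
    have hb2 : 2 ≤ r.den := by omega
    have hle : r.den ^ (c.natAbs) ≤ c.natAbs := by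
      have h := hdvd c.natAbs
      have h' : (r.den ^ c.natAbs : ℕ) ∣ c.natAbs := by
        have := Int.natAbs_dvd_natAbs.mpr h
        simpa [Int.natAbs_pow, Int.natAbs_natCast] using this
      exact Nat.le_of_dvd (Int.natAbs_pos.mpr hc) h'
    have hlt : c.natAbs < r.den ^ c.natAbs :=
      lt_of_lt_of_le (Nat.lt_two_pow_self) (Nat.pow_le_pow_left hb2 _)
    omega
  refine ⟨r.num, ?_⟩
  conv_lhs => rw [hr, hb1]
  simp


/-- The "almost integral" elements for a fixed denominator `c`. -/
def AlmostInt (c : PowerSeries ℤ) (y : PowerSeries ℚ) : Prop :=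
  ∃ b : PowerSeries ℤ, castQ c * y = castQ b

theorem AlmostInt.add {c : PowerSeries ℤ} {y y' : PowerSeries ℚ}
    (h : AlmostInt c y) (h' : AlmostInt c y') : AlmostInt c (y + y') := by
  obtain ⟨b, hb⟩ := h
  obtain ⟨b', hb'⟩ := h'
  exact ⟨b + b', by rw [mul_add, hb, hb', map_add]⟩

theorem AlmostInt.zero (c : PowerSeries ℤ) : AlmostInt c 0 :=
  ⟨0, by simp⟩

theorem AlmostInt.castQ_mul {c : PowerSeries ℤ} {y : PowerSeries ℚ} (g : PowerSeries ℤ)
    (h : AlmostInt c y) : AlmostInt c (castQ g * y) := by
  obtain ⟨b, hb⟩ := h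
  exact ⟨g * b, by rw [map_mul, ← hb]; ring⟩

theorem AlmostInt.mul_castQ {c : PowerSeries ℤ} {y : PowerSeries ℚ} (g : PowerSeries ℤ)
    (h : AlmostInt c y) : AlmostInt c (y * castQ g) := by
  rw [mul_comm]; exact h.castQ_mul g

theorem AlmostInt.sum {c : PowerSeries ℤ} {ι : Type*} (s : Finset ι) (f : ι → PowerSeries ℚ)
    (h : ∀ i ∈ s, AlmostInt c (f i)) : AlmostInt c (∑ i ∈ s, f i) := by
  classical
  induction s using Finset.induction_on with
  | empty => simpa using AlmostInt.zero c
  | insert a s ha ih =>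
    rw [Finset.sum_insert ha]
    exact (h a (Finset.mem_insert_self a s)).add
      (ih fun i hi => h i (Finset.mem_insert_of_mem hi))

/-- If all powers of `h` are almost integral (denominator `c`), so are all powers of
`h - castQ g`. -/
theorem AlmostInt.sub_castQ_pow {c : PowerSeries ℤ} {h : PowerSeries ℚ}
    (H : ∀ n : ℕ, AlmostInt c (h ^ n)) (g : PowerSeries ℤ) (n : ℕ) :
    AlmostInt c ((h - castQ g) ^ n) := by
  have e : (h - castQ g) ^ n =
      ∑ m ∈ Finset.range (n + 1), h ^ m * castQ ((-g) ^ (n - m) * (n.choose m : PowerSeries ℤ)) := by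
    rw [sub_eq_add_neg, add_pow]
    refine Finset.sum_congr rfl fun m _ => ?_
    simp only [map_mul, map_pow, map_neg, map_natCast]
    ring
  rw [e]
  exact AlmostInt.sum _ _ fun m _ => (H m).mul_castQ _

/-- **Complete integral closedness of `ℤ⟦X⟧` in `ℚ⟦X⟧`.**  If `c ≠ 0` is an integral power
series such that `c * h ^ n` is integral for every `n`, then `h` is integral. -/
theorem exists_int_powerSeries_of_almost_integral (h : PowerSeries ℚ) (c : PowerSeries ℤ)
    (hc : c ≠ 0)
    (H : ∀ n : ℕ, ∃ b : PowerSeries ℤ, castQ c * h ^ n = castQ b) :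
    ∃ g : PowerSeries ℤ, castQ g = h := by
  classical
  -- lowest nonzero coefficient of `c`
  have hex : ∃ m, coeff m c ≠ 0 := by
    by_contra hne
    push Not at hne
    exact hc (PowerSeries.ext fun n => by simpa using hne n)
  set m := Nat.find hex with hm
  have hcm : coeff m c ≠ 0 := Nat.find_spec hex
  have hclt : ∀ j < m, coeff j c = 0 := fun j hj => by
    by_contra hne
    exact Nat.find_min hex hj hne
  set c' : PowerSeries ℤ := PowerSeries.mk fun j => coeff (j + m) c with hc'
  have hcfac : c = X ^ m * c' := by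
    ext n
    rw [coeff_X_pow_mul']
    split_ifs with hn
    · rw [hc', coeff_mk, Nat.sub_add_cancel hn]
    · exact hclt n (not_le.mp hn)
  have hc'0 : constantCoeff c' = coeff m c := by
    rw [← coeff_zero_eq_constantCoeff_apply, hc', coeff_mk, zero_add]
  -- all coefficients of `h` are integers, by strong induction
  have key : ∀ i : ℕ, ∃ z : ℤ, coeff i h = z := by
    intro i
    induction i using Nat.strong_induction_on with
    | _ i ih =>
      have hch : ∀ j, ∃ z : ℤ, j < i → coeff j h = z := by
        intro j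
        by_cases hj : j < i
        · obtain ⟨z, hz⟩ := ih j hj
          exact ⟨z, fun _ => hz⟩
        · exact ⟨0, fun hj' => absurd hj' hj⟩
      choose zf hzf using hch
      set g' : PowerSeries ℤ := PowerSeries.mk fun j => if j < i then zf j else 0 with hg'
      set h'' : PowerSeries ℚ := h - castQ g' with hh''
      have hlow : ∀ j < i, coeff j h'' = 0 := by
        intro j hj
        rw [hh'', map_sub, coeff_map, hg', coeff_mk, if_pos hj, hzf j hj]
        simp
      have hi : coeff i h'' = coeff i h := by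
        rw [hh'', map_sub, coeff_map, hg', coeff_mk, if_neg (lt_irrefl i)]
        simp
      set u : PowerSeries ℚ := PowerSeries.mk fun j => coeff (j + i) h'' with hu
      have hfac : h'' = X ^ i * u := by
        ext n
        rw [coeff_X_pow_mul']
        split_ifs with hn
        · rw [hu, coeff_mk, Nat.sub_add_cancel hn]
        · exact hlow n (not_le.mp hn)
      have hu0 : constantCoeff u = coeff i h := by
        rw [← coeff_zero_eq_constantCoeff_apply, hu, coeff_mk, zero_add, hi]
      -- apply the rational lemma to `r = coeff i h`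
      refine rat_isInt_of_forall_mul_pow (coeff m c) hcm (coeff i h) fun n => ?_
      obtain ⟨b, hb⟩ := AlmostInt.sub_castQ_pow (c := c) (h := h) H g' n
      refine ⟨coeff (m + i * n) b, ?_⟩
      have e1 : castQ c * h'' ^ n = X ^ (m + i * n) * (castQ c' * u ^ n) := by
        rw [hfac, hcfac, map_mul, map_pow, PowerSeries.map_X, mul_pow, ← pow_mul, pow_add]
        ring
      have e2 : coeff (0 + (m + i * n)) (castQ c * h'' ^ n) = ((coeff m c : ℤ) : ℚ) * coeff i h ^ n := by
        rw [e1, coeff_X_pow_mul, coeff_zero_eq_constantCoeff_apply, map_mul, map_pow, hu0,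
          ← coeff_zero_eq_constantCoeff_apply, coeff_map, coeff_zero_eq_constantCoeff_apply, hc'0]
        rfl
      rw [← e2, zero_add, hb, coeff_map]
      rfl
  choose zf hzf using key
  exact ⟨PowerSeries.mk zf, by ext n; rw [coeff_map, coeff_mk, hzf n]; rfl⟩


/-- **Bounded denominators.**  Let `h ∈ ℚ⟦X⟧` be a quotient `a / d` of integral power series
(`d ≠ 0`) which is integral over `ℤ⟦X⟧` (i.e. a root of a monic polynomial with coefficients in
`ℤ⟦X⟧`).  Then `h` has integer coefficients. -/
theorem exists_int_powerSeries_of_isIntegralElem (h : PowerSeries ℚ) (d a : PowerSeries ℤ)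
    (hd : d ≠ 0) (hda : castQ d * h = castQ a)
    (hint : (castQ : PowerSeries ℤ →+* PowerSeries ℚ).IsIntegralElem h) :
    ∃ g : PowerSeries ℤ, castQ g = h := by
  obtain ⟨p, hmonic, hp⟩ := hint
  set N := p.natDegree with hN
  -- the monic relation
  have hrel : h ^ N = - ∑ j ∈ Finset.range N, castQ (p.coeff j) * h ^ j := by
    rw [Polynomial.eval₂_eq_sum_range, Finset.sum_range_succ, ← hN] at hp
    have hlead : p.coeff N = 1 := hmonic.coeff_natDegree
    rw [hlead, map_one, one_mul] at hp
    exact eq_neg_of_add_eq_zero_right hp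
  have hdN : d ^ N ≠ 0 := pow_ne_zero _ hd
  refine exists_int_powerSeries_of_almost_integral h (d ^ N) hdN ?_
  -- small powers
  have hsmall : ∀ j ≤ N, AlmostInt (d ^ N) (h ^ j) := by
    intro j hj
    refine ⟨d ^ (N - j) * a ^ j, ?_⟩
    have : castQ (d ^ N) * h ^ j = castQ (d ^ (N - j)) * (castQ d * h) ^ j := by
      rw [mul_pow, ← mul_assoc, ← map_pow castQ d j, ← map_mul, ← pow_add, Nat.sub_add_cancel hj]
    rw [this, hda, map_mul, map_pow castQ a j]
  intro n
  induction n using Nat.strong_induction_on with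
  | _ n ih =>
    by_cases hn : n ≤ N
    · exact hsmall n hn
    · push Not at hn
      have e : h ^ n = ∑ j ∈ Finset.range N, castQ (-(p.coeff j)) * h ^ (j + (n - N)) := by
        have : h ^ n = h ^ N * h ^ (n - N) := by
          rw [← pow_add, Nat.add_sub_cancel' hn.le]
        rw [this, hrel, neg_mul, Finset.sum_mul, ← Finset.sum_neg_distrib]
        refine Finset.sum_congr rfl fun j _ => ?_
        rw [map_neg, pow_add]
        ring
      have : AlmostInt (d ^ N) (h ^ n) := by
        rw [e]
        refine AlmostInt.sum _ _ fun j hj => AlmostInt.castQ_mul _ (ih _ ?_)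
        have := Finset.mem_range.mp hj
        omega
      exact this


/-- Version of `exists_int_powerSeries_of_isIntegralElem` phrased with Mathlib's algebra instance
`PowerSeries.algebraPowerSeries : Algebra ℤ⟦X⟧ ℚ⟦X⟧`. -/
theorem exists_int_powerSeries_of_isIntegral (h : PowerSeries ℚ) (d a : PowerSeries ℤ)
    (hd : d ≠ 0) (hda : castQ d * h = castQ a) (hint : IsIntegral (PowerSeries ℤ) h) :
    ∃ g : PowerSeries ℤ, castQ g = h := by
  refine exists_int_powerSeries_of_isIntegralElem h d a hd hda ?_
  have e : (algebraMap (PowerSeries ℤ) (PowerSeries ℚ)) = castQ := by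
    ext f n
    simp [PowerSeries.algebraMap_apply'']
  rw [← e]
  exact hint

/-- Coefficient form of `exists_int_powerSeries_of_isIntegralElem`. -/
theorem forall_coeff_int_of_isIntegralElem (h : PowerSeries ℚ) (d a : PowerSeries ℤ)
    (hd : d ≠ 0) (hda : castQ d * h = castQ a)
    (hint : (castQ : PowerSeries ℤ →+* PowerSeries ℚ).IsIntegralElem h) (n : ℕ) :
    ∃ z : ℤ, coeff n h = z := by
  obtain ⟨g, rfl⟩ := exists_int_powerSeries_of_isIntegralElem h d a hd hda hint
  exact ⟨coeff n g, by rw [coeff_map]; rfl⟩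

end Fermat.Agent.S23.BoundedDenominators
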