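/-
Extra export for piece (8) of the S23 route, in the `Fin n`-indexed shape requested by the
S23 architect: a power series `h ∈ ℚ⟦X⟧` with `d * h = a` (`d, a ∈ ℤ⟦X⟧`, `d ≠ 0`) satisfying
a monic relation `h ^ n + ∑ j, b j * h ^ (n - 1 - j) = 0` with `b j ∈ ℤ⟦X⟧` lies in `ℤ⟦X⟧`.
-/
import Fermat.Agent.S23.BoundedDenominatorsField

set_option autoImplicit false

namespace Fermat.Agent.S23

open PowerSeries Polynomial

/-- The monic polynomial `X ^ n + ∑ j, C (b j) * X ^ (n - 1 - j)`. -/
noncomputable def monicOfFin {R : Type*} [CommRing R] {n : ℕ} (b : Fin n → R) : R[X] :=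
  Polynomial.X ^ n + ∑ j : Fin n, Polynomial.C (b j) * Polynomial.X ^ (n - 1 - (j : ℕ))

theorem monicOfFin_monic {R : Type*} [CommRing R] [Nontrivial R] {n : ℕ} (b : Fin n → R) :
    (monicOfFin b).Monic := by
  unfold monicOfFin
  refine Polynomial.monic_X_pow_add ?_
  refine lt_of_le_of_lt (Polynomial.degree_sum_le _ _) ?_
  rw [Finset.sup_lt_iff (by exact WithBot.bot_lt_coe n)]
  intro j _
  refine lt_of_le_of_lt (Polynomial.degree_C_mul_X_pow_le _ _) ?_
  have : n - 1 - (j : ℕ) < n := by have := j.2; omega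
  exact_mod_cast this

theorem eval₂_monicOfFin {R S : Type*} [CommRing R] [CommRing S] (f : R →+* S) {n : ℕ}
    (b : Fin n → R) (x : S) :
    (monicOfFin b).eval₂ f x = x ^ n + ∑ j : Fin n, f (b j) * x ^ (n - 1 - (j : ℕ)) := by
  unfold monicOfFin
  simp [Polynomial.eval₂_add, Polynomial.eval₂_finsetSum, Polynomial.eval₂_mul,
    Polynomial.eval₂_pow]

/-- Bounded denominators, `Fin n`-indexed monic relation (shape requested by the S23 glue). -/
theorem powerSeries_int_of_integral {n : ℕ} (h : PowerSeries ℚ) (d a : PowerSeries ℤ)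
    (hd : d ≠ 0)
    (hda : d.map (Int.castRingHom ℚ) * h = a.map (Int.castRingHom ℚ))
    (b : Fin n → PowerSeries ℤ)
    (hint : h ^ n + ∑ j : Fin n, (b j).map (Int.castRingHom ℚ) * h ^ (n - 1 - (j : ℕ)) = 0) :
    ∃ h' : PowerSeries ℤ, h'.map (Int.castRingHom ℚ) = h := by
  refine exists_map_eq_of_isIntegralElem (K := ℚ) hd hda ?_
  exact ⟨monicOfFin b, monicOfFin_monic b, by rw [eval₂_monicOfFin]; exact hint⟩

/-- Same statement over an arbitrary field of characteristic zero (e.g. `ℂ`). -/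
theorem powerSeries_int_of_integral' {K : Type*} [Field K] [CharZero K] {n : ℕ}
    (h : PowerSeries K) (d a : PowerSeries ℤ) (hd : d ≠ 0)
    (hda : d.map (Int.castRingHom K) * h = a.map (Int.castRingHom K))
    (b : Fin n → PowerSeries ℤ)
    (hint : h ^ n + ∑ j : Fin n, (b j).map (Int.castRingHom K) * h ^ (n - 1 - (j : ℕ)) = 0) :
    ∃ h' : PowerSeries ℤ, h'.map (Int.castRingHom K) = h := by
  refine exists_map_eq_of_isIntegralElem (K := K) hd hda ?_
  exact ⟨monicOfFin b, monicOfFin_monic b, by rw [eval₂_monicOfFin]; exact hint⟩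

end Fermat.Agent.S23
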