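import Mathlib
import Fermat.Prelude.Def_ModularForm_HeckeOperator
import Fermat.Prelude.Thm_CongruenceSubgroup_one_mem_strictPeriods_Gamma0

set_option autoImplicit false

/-!
# S23, piece (2): the separating form `t_N(z) = E₄(N z)` on `Γ₀(N)`.
-/

noncomputable section

namespace Fermat.Agent.S23.Separation

open UpperHalfPlane ModularForm CongruenceSubgroup Matrix.SpecialLinearGroup Filter
open scoped MatrixGroups ModularForm Topology

/-- Restriction of a modular form to a subgroup. -/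
def restrictSubgroup {Γ Γ' : Subgroup (GL (Fin 2) ℝ)} {k : ℤ} (h : Γ' ≤ Γ)
    (f : ModularForm Γ k) : ModularForm Γ' k where
  toFun := f
  slash_action_eq' γ hγ := SlashInvariantFormClass.slash_action_eq f γ (h hγ)
  holo' := ModularFormClass.holo f
  bdd_at_cusps' hc := ModularFormClass.bdd_at_cusps f (hc.mono h)

@[simp] lemma coe_restrictSubgroup {Γ Γ' : Subgroup (GL (Fin 2) ℝ)} {k : ℤ} (h : Γ' ≤ Γ)
    (f : ModularForm Γ k) : ⇑(restrictSubgroup h f) = ⇑f := rfl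

variable (N : ℕ) [NeZero N]

/-- The matrix `diag(N, 1)`. -/
abbrev alphaN : GL (Fin 2) ℝ := ModularForm.heckeDiagMatrix N

/-- For `A ∈ Γ₀(N)`, the conjugate `diag(N,1) A diag(N,1)⁻¹ = [[a, N b],[c / N, d]]`. -/
def conjGamma0 (A : SL(2, ℤ)) (hA : A ∈ Gamma0 N) : SL(2, ℤ) :=
  ⟨!![A 0 0, N * A 0 1; A 1 0 / N, A 1 1], by
    have hdvd : (N : ℤ) ∣ A 1 0 := by
      rw [Gamma0_mem] at hA
      exact (ZMod.intCast_zmod_eq_zero_iff_dvd _ _).1 hA
    obtain ⟨c, hc⟩ := hdvd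
    have hN : (N : ℤ) ≠ 0 := by exact_mod_cast NeZero.ne N
    have hdet := Matrix.det_fin_two A.1
    have h1 : A.1.det = 1 := A.2
    rw [Matrix.det_fin_two_of, hc, Int.mul_ediv_cancel_left _ hN]
    rw [hc] at hdet
    linarith⟩

lemma mapGL_apply_apply (B : SL(2, ℤ)) (i j : Fin 2) :
    ((mapGL ℝ B : GL (Fin 2) ℝ) : Matrix (Fin 2) (Fin 2) ℝ) i j = ((B i j : ℤ) : ℝ) := rfl

lemma alphaN_mul_mapGL (A : SL(2, ℤ)) (hA : A ∈ Gamma0 N) :
    alphaN N * mapGL ℝ A = mapGL ℝ (conjGamma0 N A hA) * alphaN N := by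
  have hdvd : (N : ℤ) ∣ A 1 0 := by
    rw [Gamma0_mem] at hA
    exact (ZMod.intCast_zmod_eq_zero_iff_dvd _ _).1 hA
  obtain ⟨c, hc⟩ := hdvd
  have hN : (N : ℤ) ≠ 0 := by exact_mod_cast NeZero.ne N
  have hN' : N ≠ 0 := NeZero.ne N
  apply Units.ext
  rw [Units.val_mul, Units.val_mul, ModularForm.val_heckeDiagMatrix hN']
  have h00 : (conjGamma0 N A hA) 0 0 = A 0 0 := by simp [conjGamma0]
  have h01 : (conjGamma0 N A hA) 0 1 = N * A 0 1 := by simp [conjGamma0]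
  have h10 : (conjGamma0 N A hA) 1 0 = c := by
    simp [conjGamma0, hc, Int.mul_ediv_cancel_left _ hN]
  have h11 : (conjGamma0 N A hA) 1 1 = A 1 1 := by simp [conjGamma0]
  have hcR : ((A 1 0 : ℤ) : ℝ) = (N : ℝ) * (c : ℝ) := by exact_mod_cast hc
  ext i j
  fin_cases i <;> fin_cases j <;>
    simp only [Matrix.mul_apply, Fin.sum_univ_two, mapGL_apply_apply, h00, h01, h10, h11,
      Fin.zero_eta, Fin.mk_one, Matrix.of_apply, Matrix.cons_val_zero, Matrix.cons_val_one,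
      Matrix.cons_val', Matrix.cons_val_fin_one, hcR] <;> push_cast <;> ring

open ConjAct Pointwise in
lemma gamma0_le_conj :
    ((Gamma0 N : Subgroup SL(2, ℤ)) : Subgroup (GL (Fin 2) ℝ)) ≤
      toConjAct (alphaN N)⁻¹ • 𝒮ℒ := by
  rintro _ ⟨A, hA, rfl⟩
  rw [Subgroup.mem_pointwise_smul_iff_inv_smul_mem, ← map_inv, inv_inv, ConjAct.toConjAct_smul,
    alphaN_mul_mapGL N A hA, mul_inv_cancel_right]
  exact ⟨_, rfl⟩

/-- The modular form `t_N(z) = E₄(N z)` of weight `4` on `Γ₀(N)`. -/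
def tN : ModularForm ((Gamma0 N : Subgroup SL(2, ℤ)) : Subgroup (GL (Fin 2) ℝ)) 4 :=
  ((N : ℂ) ^ 3)⁻¹ • restrictSubgroup (gamma0_le_conj N) (ModularForm.translate E₄ (alphaN N))

lemma tN_apply (z : ℍ) : tN N z = E₄ (alphaN N • z) := by
  have hN' : N ≠ 0 := NeZero.ne N
  have hN : (N : ℂ) ≠ 0 := by exact_mod_cast hN'
  show ((N : ℂ) ^ 3)⁻¹ • ((⇑E₄ ∣[(4 : ℤ)] (alphaN N)) z) = _
  rw [ModularForm.slash_heckeDiagMatrix_apply 4 hN', smul_eq_mul, ← mul_assoc]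
  have : ((N : ℂ) ^ 3)⁻¹ * (N : ℂ) ^ ((4 : ℤ) - 1) = 1 := by
    rw [show ((4 : ℤ) - 1) = ((3 : ℕ) : ℤ) by norm_num, zpow_natCast]
    exact inv_mul_cancel₀ (pow_ne_zero _ hN)
  rw [this, one_mul]

lemma coe_alphaN_smul (z : ℍ) : ((alphaN N • z : ℍ) : ℂ) = (N : ℂ) * z :=
  ModularForm.coe_heckeDiagMatrix_smul (NeZero.ne N) z

local notation "𝕢" => Function.Periodic.qParam

lemma qParam_alphaN_smul (z : ℍ) : 𝕢 1 ((alphaN N • z : ℍ) : ℂ) = (𝕢 1 (z : ℂ)) ^ N := by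
  rw [coe_alphaN_smul, Function.Periodic.qParam, Function.Periodic.qParam, ← Complex.exp_nat_mul]
  congr 1
  push_cast
  ring

/-- The `q`-expansion of `t_N` is that of `E₄` with `q` replaced by `q ^ N`. -/
theorem tN_qExpansion_coeff (n : ℕ) :
    (qExpansion 1 (tN N)).coeff n =
      if N ∣ n then (qExpansion 1 E₄).coeff (n / N) else 0 := by
  have hN' : N ≠ 0 := NeZero.ne N
  set c : ℕ → ℂ := fun n => if N ∣ n then (qExpansion 1 E₄).coeff (n / N) else 0 with hc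
  refine (ModularFormClass.qExpansion_coeff_unique (f := tN N) (c := c) one_pos
    (CongruenceSubgroup.one_mem_strictPeriods_Gamma0 N) (fun τ => ?_) n).symm
  have h1 := ModularForm.hasSum_qExpansion E₄ one_pos one_mem_strictPeriods_SL
    (alphaN N • τ)
  rw [← tN_apply] at h1
  have hinj : Function.Injective (fun m : ℕ => N * m) := fun a b h =>
    Nat.eq_of_mul_eq_mul_left (Nat.pos_of_ne_zero hN') h
  rw [← hinj.hasSum_iff]
  · convert h1 using 2 with m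
    simp only [Function.comp_apply, hc, dvd_mul_right, if_true, Nat.mul_div_cancel_left _
      (Nat.pos_of_ne_zero hN'), smul_eq_mul, qParam_alphaN_smul, pow_mul]
  · intro x hx
    have : ¬ N ∣ x := fun ⟨m, hm⟩ => hx ⟨m, hm.symm⟩
    simp [hc, this]

lemma E₄_qExpansion_coeff_rat (m : ℕ) : ∃ r : ℚ, (qExpansion 1 E₄).coeff m = (r : ℂ) := by
  rw [EisensteinSeries.E_qExpansion_coeff (by norm_num) ⟨2, rfl⟩ m]
  split_ifs with h
  · exact ⟨1, by simp⟩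
  · exact ⟨-(2 * (4 : ℕ) / bernoulli 4) * (ArithmeticFunction.sigma (4 - 1) m : ℕ), by push_cast; ring⟩

theorem tN_qExpansion_coeff_rat (n : ℕ) : ∃ r : ℚ, (qExpansion 1 (tN N)).coeff n = (r : ℂ) := by
  rw [tN_qExpansion_coeff]
  split_ifs with h
  · exact E₄_qExpansion_coeff_rat _
  · exact ⟨0, by simp⟩

/-- The `q`-expansion of `t_N` is fixed by every ring endomorphism of `ℂ`. -/
theorem tN_qExpansion_map (σ : ℂ →+* ℂ) :
    PowerSeries.map σ (qExpansion 1 (tN N)) = qExpansion 1 (tN N) := by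
  ext n
  obtain ⟨r, hr⟩ := tN_qExpansion_coeff_rat N n
  rw [PowerSeries.coeff_map, hr, map_ratCast]

theorem tN_qExpansion_coeff_zero : (qExpansion 1 (tN N)).coeff 0 = 1 := by
  rw [tN_qExpansion_coeff, if_pos (dvd_zero N), Nat.zero_div,
    EisensteinSeries.E_qExpansion_coeff_zero (by norm_num) ⟨2, rfl⟩]

/-- A modular form with period `1` tends to its `0`-th `q`-coefficient at `i∞`. -/
lemma tendsto_atImInfty_coeff_zero {Γ : Subgroup (GL (Fin 2) ℝ)} {k : ℤ} (f : ModularForm Γ k)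
    (hΓ : (1 : ℝ) ∈ Γ.strictPeriods) :
    Tendsto f atImInfty (𝓝 ((qExpansion 1 f).coeff 0)) := by
  have han := ModularFormClass.analyticAt_cuspFunction_zero f one_pos hΓ
  have hper := SlashInvariantFormClass.periodic_comp_ofComplex f hΓ
  have h0 : (qExpansion 1 f).coeff 0 = cuspFunction 1 f 0 := by
    simp [qExpansion_coeff]
  rw [h0]
  have : (cuspFunction 1 f ∘ fun τ : ℍ ↦ 𝕢 1 τ : ℍ → ℂ) = f := by
    funext τ
    simpa using eq_cuspFunction τ one_ne_zero hper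
  simpa [this] using han.continuousAt.tendsto.comp (qParam_tendsto_atImInfty one_pos)

lemma tendsto_E₄_atImInfty : Tendsto E₄ atImInfty (𝓝 1) := by
  have := tendsto_atImInfty_coeff_zero E₄ one_mem_strictPeriods_SL
  rwa [EisensteinSeries.E_qExpansion_coeff_zero (by norm_num) ⟨2, rfl⟩] at this

/-- Slash by an upper triangular matrix of positive determinant. -/
lemma slash_upper_apply (f : ℍ → ℂ) (k : ℤ) (U : GL (Fin 2) ℝ) (hU : U 1 0 = 0)
    (hdet : 0 < U.det.val) (z : ℍ) :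
    (f ∣[k] U) z = f (U • z) * ((U.det.val : ℝ) : ℂ) ^ (k - 1) * ((U 1 1 : ℝ) : ℂ) ^ (-k) := by
  rw [ModularForm.slash_apply, UpperHalfPlane.σ, if_pos hdet, abs_of_pos hdet]
  simp [UpperHalfPlane.denom, hU]

/-- Decomposition `diag(N,1) · h = γ · U` with `γ ∈ SL(2,ℤ)` and `U` upper triangular with
`U 1 1 = N / gcd(N, c)`. -/
lemma exists_decomp (h : SL(2, ℤ)) :
    ∃ (γ : SL(2, ℤ)) (U : GL (Fin 2) ℝ), alphaN N * mapGL ℝ h = mapGL ℝ γ * U ∧
      U 1 0 = 0 ∧ U 1 1 = ((N / Int.gcd N (h 1 0) : ℕ) : ℝ) ∧ U.det.val = (N : ℝ) := by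
  have hN' : N ≠ 0 := NeZero.ne N
  have hNz : (N : ℤ) ≠ 0 := by exact_mod_cast hN'
  set a := h 0 0 with ha
  set b := h 0 1 with hb
  set c := h 1 0 with hc
  set d := h 1 1 with hd
  have hdet : a * d - b * c = 1 := by
    have h1 := Matrix.det_fin_two h.1
    rw [h.2] at h1
    linarith
  set g : ℕ := Int.gcd N c with hg
  have hgpos : 0 < g := Int.gcd_pos_of_ne_zero_left _ hNz
  have hgN : (g : ℤ) ∣ N := Int.gcd_dvd_left _ _
  have hgc : (g : ℤ) ∣ c := Int.gcd_dvd_right _ _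
  obtain ⟨N1, hN1⟩ := hgN
  obtain ⟨c1, hc1⟩ := hgc
  have hgz : (g : ℤ) ≠ 0 := by exact_mod_cast hgpos.ne'
  have hgdvd : g ∣ N := Int.natCast_dvd_natCast.1 ⟨N1, hN1⟩
  have hN1' : ((N / g : ℕ) : ℤ) = N1 := by
    rw [Int.natCast_div, hN1, Int.mul_ediv_cancel_left _ hgz]
  -- coprimality of `N1` and `c1`
  have hcop1 : IsCoprime N1 c1 := by
    have h1 : Int.gcd ((N : ℤ) / (g : ℤ)) (c / (g : ℤ)) = 1 :=
      Int.gcd_div_gcd_div_gcd hgpos
    rw [hN1, hc1, Int.mul_ediv_cancel_left _ hgz, Int.mul_ediv_cancel_left _ hgz] at h1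
    exact Int.isCoprime_iff_gcd_eq_one.2 h1
  have hcop2 : IsCoprime a c1 := ⟨d, -(b * g), by rw [← hdet, hc1]; ring⟩
  have hcop : IsCoprime (N1 * a) c1 := hcop1.mul_left hcop2
  obtain ⟨γ, hγ0, hγ1⟩ := hcop.exists_SL2_col 0
  have hi10 : (γ⁻¹ : SL(2, ℤ)) 1 0 = - γ 1 0 := by
    rw [Matrix.SpecialLinearGroup.SL2_inv_expl]; rfl
  have hi11 : (γ⁻¹ : SL(2, ℤ)) 1 1 = γ 0 0 := by
    rw [Matrix.SpecialLinearGroup.SL2_inv_expl]; rfl
  have e1 : ((γ 1 0 : ℤ) : ℝ) = (c1 : ℝ) := by exact_mod_cast hγ1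
  have e2 : ((γ 0 0 : ℤ) : ℝ) = (N1 : ℝ) * (a : ℝ) := by exact_mod_cast hγ0
  have e3 : ((N : ℕ) : ℝ) = (g : ℝ) * (N1 : ℝ) := by exact_mod_cast hN1
  have e4 : ((c : ℤ) : ℝ) = (g : ℝ) * (c1 : ℝ) := by exact_mod_cast hc1
  have e5 : ((N / g : ℕ) : ℝ) = (N1 : ℝ) := by
    have : (((N / g : ℕ) : ℤ) : ℝ) = (N1 : ℝ) := by rw [hN1']
    rw [← this, Int.cast_natCast]
  have e6 : (a : ℝ) * (d : ℝ) - (b : ℝ) * (c : ℝ) = 1 := by exact_mod_cast hdet
  refine ⟨γ, (mapGL ℝ γ)⁻¹ * (alphaN N * mapGL ℝ h), by group, ?_, ?_, ?_⟩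
  · -- lower left entry
    rw [← map_inv]
    simp only [Units.val_mul, Matrix.mul_apply, Fin.sum_univ_two, mapGL_apply_apply,
      ModularForm.val_heckeDiagMatrix hN', hi10, hi11]
    simp only [Matrix.of_apply, Matrix.cons_val_zero, Matrix.cons_val_one,
      Matrix.cons_val', Matrix.cons_val_fin_one]
    push_cast
    rw [e1, e2, e3]
    simp only [← ha, ← hc, e4]
    ring
  · rw [← map_inv]
    simp only [Units.val_mul, Matrix.mul_apply, Fin.sum_univ_two, mapGL_apply_apply,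
      ModularForm.val_heckeDiagMatrix hN', hi10, hi11]
    simp only [Matrix.of_apply, Matrix.cons_val_zero, Matrix.cons_val_one,
      Matrix.cons_val', Matrix.cons_val_fin_one]
    push_cast
    rw [e1, e2, e3, e5]
    simp only [← hb, ← hd]
    rw [e4] at e6
    linear_combination (N1 : ℝ) * e6
  · rw [map_mul, map_mul, map_inv, Matrix.SpecialLinearGroup.det_mapGL,
      Matrix.SpecialLinearGroup.det_mapGL, inv_one, one_mul, mul_one]
    exact ModularForm.det_heckeDiagMatrix hN'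

lemma coe_tN : (⇑(tN N) : ℍ → ℂ) = ((N : ℂ) ^ 3)⁻¹ • ((⇑E₄ : ℍ → ℂ) ∣[(4 : ℤ)] (alphaN N)) := rfl

/-- Formula for the translates of `t_N` under `SL(2, ℤ)`. -/
lemma tN_slash_apply (h : SL(2, ℤ)) :
    ∃ U : GL (Fin 2) ℝ, U 1 0 = 0 ∧ ∀ z : ℍ, ((⇑(tN N) : ℍ → ℂ) ∣[(4 : ℤ)] h) z =
      E₄ (U • z) * (((N / Int.gcd N (h 1 0) : ℕ) : ℂ) ^ 4)⁻¹ := by
  have hN' : N ≠ 0 := NeZero.ne N
  have hN : (N : ℂ) ≠ 0 := by exact_mod_cast hN'
  obtain ⟨γ, U, hdec, hU10, hU11, hUdet⟩ := exists_decomp N h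
  refine ⟨U, hU10, fun z => ?_⟩
  have h1 : ((⇑E₄ : ℍ → ℂ) ∣[(4 : ℤ)] (alphaN N)) ∣[(4 : ℤ)] h = (⇑E₄ : ℍ → ℂ) ∣[(4 : ℤ)] U := by
    have h0 : ((⇑E₄ : ℍ → ℂ) ∣[(4 : ℤ)] (alphaN N)) ∣[(4 : ℤ)] h =
        ((⇑E₄ : ℍ → ℂ) ∣[(4 : ℤ)] (alphaN N)) ∣[(4 : ℤ)] (mapGL ℝ h) := rfl
    rw [h0, ← SlashAction.slash_mul, hdec, SlashAction.slash_mul,
      SlashInvariantFormClass.slash_action_eq E₄ (mapGL ℝ γ) (MonoidHom.mem_range.2 ⟨γ, rfl⟩)]
  rw [coe_tN, ModularForm.SL_smul_slash, h1, Pi.smul_apply, smul_eq_mul,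
    slash_upper_apply _ _ U hU10 (by rw [hUdet]; exact_mod_cast Nat.pos_of_ne_zero hN'),
    hU11, hUdet]
  have e1 : (((N : ℕ) : ℝ) : ℂ) ^ ((4 : ℤ) - 1) = (N : ℂ) ^ 3 := by
    rw [Complex.ofReal_natCast, show ((4 : ℤ) - 1) = ((3 : ℕ) : ℤ) by norm_num, zpow_natCast]
  have e2 : ((((N / Int.gcd N (h 1 0) : ℕ) : ℝ) : ℂ)) ^ (-(4 : ℤ)) =
      (((N / Int.gcd N (h 1 0) : ℕ) : ℂ) ^ 4)⁻¹ := by
    rw [Complex.ofReal_natCast, zpow_neg, show (4 : ℤ) = ((4 : ℕ) : ℤ) by norm_num, zpow_natCast]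
  rw [e1, e2]
  field_simp

/-- **Separation**: `t_N ∣[4] h ≠ t_N` for `h ∈ SL(2, ℤ) \ Γ₀(N)`. -/
theorem tN_slash_ne (h : SL(2, ℤ)) (hh : h ∉ Gamma0 N) :
    (⇑(tN N) : ℍ → ℂ) ∣[(4 : ℤ)] h ≠ ⇑(tN N) := by
  have hN' : N ≠ 0 := NeZero.ne N
  intro heq
  obtain ⟨U, hU10, hU⟩ := tN_slash_apply N h
  set N1 : ℕ := N / Int.gcd N (h 1 0) with hN1
  -- limit of the translate
  have hlim1 : Tendsto ((⇑(tN N) : ℍ → ℂ) ∣[(4 : ℤ)] h) atImInfty (𝓝 (1 * ((N1 : ℂ) ^ 4)⁻¹)) := by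
    have : ((⇑(tN N) : ℍ → ℂ) ∣[(4 : ℤ)] h) = fun z => E₄ (U • z) * ((N1 : ℂ) ^ 4)⁻¹ :=
      funext hU
    rw [this]
    exact (tendsto_E₄_atImInfty.comp (tendsto_smul_atImInfty hU10)).mul_const _
  -- limit of `t_N`
  have hlim2 : Tendsto (⇑(tN N) : ℍ → ℂ) atImInfty (𝓝 1) := by
    have := tendsto_atImInfty_coeff_zero (tN N) (CongruenceSubgroup.one_mem_strictPeriods_Gamma0 N)
    rwa [tN_qExpansion_coeff_zero] at this
  rw [heq] at hlim1
  have hval := tendsto_nhds_unique hlim1 hlim2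
  rw [one_mul, inv_eq_one] at hval
  have hN1pow : N1 ^ 4 = 1 := by exact_mod_cast hval
  have hN1one : N1 = 1 := by
    rcases Nat.pow_eq_one.1 hN1pow with h1 | h1
    · exact h1
    · norm_num at h1
  -- hence `N ∣ h 1 0`
  have hgdvd : Int.gcd N (h 1 0) ∣ N := Int.natCast_dvd_natCast.1 (Int.gcd_dvd_left _ _)
  have hgN : Int.gcd N (h 1 0) = N := by
    have := Nat.div_mul_cancel hgdvd
    rw [← hN1, hN1one, one_mul] at this
    exact this
  apply hh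
  rw [Gamma0_mem, ZMod.intCast_zmod_eq_zero_iff_dvd]
  have : ((Int.gcd N (h 1 0) : ℕ) : ℤ) ∣ h 1 0 := Int.gcd_dvd_right _ _
  rwa [hgN] at this

/-- `GL`-version of the separation statement. -/
theorem tN_slash_mapGL_ne (h : SL(2, ℤ)) (hh : h ∉ Gamma0 N) :
    (⇑(tN N) : ℍ → ℂ) ∣[(4 : ℤ)] (mapGL ℝ h) ≠ ⇑(tN N) :=
  tN_slash_ne N h hh

/-- Separation in the shape of Mathlib's `SlashInvariantForm.quotientFunc`: the translates of
`t_N` by the nontrivial cosets of `Γ₀(N)` in `SL(2, ℤ)` are all different from `t_N`. -/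
theorem quotientFunc_tN_ne
    (q : 𝒮ℒ ⧸ (((Gamma0 N : Subgroup SL(2, ℤ)) : Subgroup (GL (Fin 2) ℝ)).subgroupOf 𝒮ℒ))
    (hq : q ≠ ⟦1⟧) :
    SlashInvariantForm.quotientFunc (tN N) q ≠ ⇑(tN N) := by
  induction q using Quotient.inductionOn with
  | h r =>
    rw [SlashInvariantForm.quotientFunc_mk]
    obtain ⟨r', hr'⟩ := r.2
    have hr'' : r.val⁻¹ = mapGL ℝ r'⁻¹ := by rw [map_inv, hr']
    rw [hr'']
    apply tN_slash_mapGL_ne
    intro hmem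
    apply hq
    have hmem' : r' ∈ Gamma0 N := by simpa using inv_mem hmem
    refine Quotient.sound ?_
    show (QuotientGroup.leftRel _) r 1
    rw [QuotientGroup.leftRel_apply, Subgroup.mem_subgroupOf]
    simp only [mul_one, Subgroup.coe_inv]
    refine inv_mem ?_
    exact ⟨r', hmem', hr'⟩

end Fermat.Agent.S23.Separation
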