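import Mathlib
import Fermat.Prelude.Thm_CongruenceSubgroup_one_mem_strictPeriods_Gamma0
import Fermat.Agent.S23.Defs
import Fermat.Agent.S23.LevelOneAut
import Fermat.Agent.S23.Separation
import Fermat.Agent.S23.LagrangeData
import Fermat.Agent.S23.AnalyticCore
import Fermat.Agent.S23.HolAtInfty

/-!
# S23, piece P9 (backup, owner helper2): Galois stability of `S_k(Γ₀(N))`

For every ring endomorphism `s` of `ℂ` and every cusp form `f` on `Γ₀(N)` there is a cusp form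
of the same weight and level whose `q`-expansion is the coefficientwise `s`-conjugate of that
of `f`.
-/

set_option autoImplicit false

namespace Fermat.Agent.S23.ConjB

open UpperHalfPlane Matrix.SpecialLinearGroup CongruenceSubgroup
open Fermat.Agent.S23.Separation (restrictSubgroup coe_restrictSubgroup tN tN_slash_mapGL_ne tN_qExpansion_map)
open scoped MatrixGroups ModularForm Manifold

section polyForm

variable {Γ : Subgroup (GL (Fin 2) ℝ)}

theorem modularForm_sum_apply {ι : Type*} {k : ℤ} (s : Finset ι) (F : ι → ModularForm Γ k)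
    (z : ℍ) : (∑ i ∈ s, F i) z = ∑ i ∈ s, F i z := by
  classical
  induction s using Finset.induction_on with
  | empty => simp
  | insert a s ha ih => rw [Finset.sum_insert ha, Finset.sum_insert ha, add_apply, ih]

/-- A polynomial in `t` with level one coefficients of the right weights is a modular form. -/
theorem exists_polyForm [Γ.HasDetPlusMinusOne] (hΓ : Γ ≤ 𝒮ℒ) {l W : ℤ} {μ : ℕ} {wt : Fin μ → ℤ}
    (hwt : ∀ m : Fin μ, wt m + ((m : ℕ) : ℤ) * l = W)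
    (c : (m : Fin μ) → ModularForm 𝒮ℒ (wt m)) (t : ModularForm Γ l) :
    ∃ A : ModularForm Γ W, ∀ z, A z = ∑ m : Fin μ, c m z * t z ^ (m : ℕ) := by
  refine ⟨∑ m : Fin μ, ModularForm.mcast (hwt m)
    ((restrictSubgroup hΓ (c m)).mul (t.pow (m : ℕ))), fun z => ?_⟩
  rw [modularForm_sum_apply]
  refine Finset.sum_congr rfl fun m _ => ?_
  rw [ModularForm.mcast_apply]
  show (restrictSubgroup hΓ (c m)) z * (t.pow (m : ℕ)) z = _
  rw [ModularForm.coe_pow]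
  rfl

end polyForm


section algebra

/-- Pure algebra: from a monic relation for `G` get the homogenised relation for `G * QD`. -/
theorem homogenise_rel {R : Type*} [CommRing R] {μ : ℕ} (G QD : R) (B : Fin μ → R)
    (hV : G ^ μ + ∑ j : Fin μ, B j * G ^ (μ - 1 - (j : ℕ)) = 0) :
    (G * QD) ^ μ + ∑ j : Fin μ, B j * (G * QD) ^ (μ - 1 - (j : ℕ)) * QD ^ ((j : ℕ) + 1) = 0 := by
  have h1 : ∀ j : Fin μ, B j * (G * QD) ^ (μ - 1 - (j : ℕ)) * QD ^ ((j : ℕ) + 1)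
      = QD ^ μ * (B j * G ^ (μ - 1 - (j : ℕ))) := by
    intro j
    have hj : μ - 1 - (j : ℕ) + ((j : ℕ) + 1) = μ := by have := j.2; omega
    calc B j * (G * QD) ^ (μ - 1 - (j : ℕ)) * QD ^ ((j : ℕ) + 1)
        = B j * G ^ (μ - 1 - (j : ℕ)) * (QD ^ (μ - 1 - (j : ℕ)) * QD ^ ((j : ℕ) + 1)) := by
          rw [mul_pow]; ring
      _ = B j * G ^ (μ - 1 - (j : ℕ)) * QD ^ μ := by rw [← pow_add, hj]
      _ = QD ^ μ * (B j * G ^ (μ - 1 - (j : ℕ))) := by ring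
  rw [Finset.sum_congr rfl fun j _ => h1 j, ← Finset.mul_sum, mul_pow]
  have : G ^ μ * QD ^ μ + QD ^ μ * ∑ j : Fin μ, B j * G ^ (μ - 1 - (j : ℕ))
      = QD ^ μ * (G ^ μ + ∑ j : Fin μ, B j * G ^ (μ - 1 - (j : ℕ))) := by ring
  rw [this, hV, mul_zero]

end algebra


section qexp

variable {μ : ℕ}

theorem holAtInfty_poly (C : Fin μ → ℍ → ℂ) (T : ℍ → ℂ) (hC : ∀ m, HolAtInfty (C m))
    (hT : HolAtInfty T) : HolAtInfty (∑ m : Fin μ, C m * T ^ (m : ℕ)) :=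
  HolAtInfty.sum _ fun m _ => (hC m).mul (hT.pow _)

theorem qExpansion_poly (C : Fin μ → ℍ → ℂ) (T : ℍ → ℂ) (hC : ∀ m, HolAtInfty (C m))
    (hT : HolAtInfty T) :
    qExpansion 1 (∑ m : Fin μ, C m * T ^ (m : ℕ)) =
      ∑ m : Fin μ, qExpansion 1 (C m) * qExpansion 1 T ^ (m : ℕ) := by
  rw [qExpansion_sum' _ fun m _ => (hC m).mul (hT.pow _)]
  refine Finset.sum_congr rfl fun m _ => ?_
  rw [qExpansion_mul' (hC m) (hT.pow _), qExpansion_pow' hT]

theorem holAtInfty_rel (A D : ℍ → ℂ) (B : Fin μ → ℍ → ℂ) (hA : HolAtInfty A) (hD : HolAtInfty D)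
    (hB : ∀ j, HolAtInfty (B j)) :
    HolAtInfty (A ^ μ + ∑ j : Fin μ, B j * A ^ (μ - 1 - (j : ℕ)) * D ^ ((j : ℕ) + 1)) :=
  (hA.pow _).add (HolAtInfty.sum _ fun j _ => ((hB j).mul (hA.pow _)).mul (hD.pow _))

theorem qExpansion_rel (A D : ℍ → ℂ) (B : Fin μ → ℍ → ℂ) (hA : HolAtInfty A) (hD : HolAtInfty D)
    (hB : ∀ j, HolAtInfty (B j)) :
    qExpansion 1 (A ^ μ + ∑ j : Fin μ, B j * A ^ (μ - 1 - (j : ℕ)) * D ^ ((j : ℕ) + 1)) =
      qExpansion 1 A ^ μ + ∑ j : Fin μ, qExpansion 1 (B j) * qExpansion 1 A ^ (μ - 1 - (j : ℕ)) *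
        qExpansion 1 D ^ ((j : ℕ) + 1) := by
  rw [qExpansion_add' (hA.pow _)
    (HolAtInfty.sum _ fun j _ => ((hB j).mul (hA.pow _)).mul (hD.pow _)),
    qExpansion_pow' hA,
    qExpansion_sum' _ fun j _ => ((hB j).mul (hA.pow _)).mul (hD.pow _)]
  congr 1
  refine Finset.sum_congr rfl fun j _ => ?_
  rw [qExpansion_mul' ((hB j).mul (hA.pow _)) (hD.pow _), qExpansion_mul' (hB j) (hA.pow _),
    qExpansion_pow' hA, qExpansion_pow' hD]

theorem powerSeries_map_injective (s : ℂ →+* ℂ) : Function.Injective (PowerSeries.map s) := by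
  intro p q hpq
  ext n
  have := congrArg (PowerSeries.coeff n) hpq
  rw [PowerSeries.coeff_map, PowerSeries.coeff_map] at this
  exact s.injective this

end qexp


/-- **Galois stability of `S_k(Γ₀(N))`**. -/
theorem exists_conj_cuspForm_Gamma0 (N : ℕ) [NeZero N] (k : ℤ) (s : ℂ →+* ℂ)
    (f : CuspForm ((Gamma0 N : Subgroup SL(2, ℤ)) : Subgroup (GL (Fin 2) ℝ)) k) :
    ∃ f' : CuspForm ((Gamma0 N : Subgroup SL(2, ℤ)) : Subgroup (GL (Fin 2) ℝ)) k,
      qExpansion 1 f' = (qExpansion 1 f).map s := by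
  classical
  have h1Γ : (1 : ℝ) ∈ (((Gamma0 N : Subgroup SL(2, ℤ)) : Subgroup (GL (Fin 2) ℝ))).strictPeriods :=
    CongruenceSubgroup.one_mem_strictPeriods_Gamma0 N
  have h1SL : (1 : ℝ) ∈ (𝒮ℒ : Subgroup (GL (Fin 2) ℝ)).strictPeriods := one_mem_strictPeriods_SL
  have hΓle : ((Gamma0 N : Subgroup SL(2, ℤ)) : Subgroup (GL (Fin 2) ℝ)) ≤ 𝒮ℒ :=
    Subgroup.map_le_range _ _
  -- the separating form
  let t : ModularForm ((Gamma0 N : Subgroup SL(2, ℤ)) : Subgroup (GL (Fin 2) ℝ)) 4 := tN N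
  have ht : ∀ h : SL(2, ℤ), h ∉ Gamma0 N →
      ((t : ℍ → ℂ) ∣[(4 : ℤ)] (mapGL ℝ h : GL (Fin 2) ℝ)) ≠ (t : ℍ → ℂ) :=
    fun h hh => tN_slash_mapGL_ne N h hh
  have htmap : PowerSeries.map s (qExpansion 1 t) = qExpansion 1 t := tN_qExpansion_map N s
  obtain ⟨μ, b, c, d, hb0, hV, hL, hD⟩ := exists_lagrange_data (Gamma0 N) f t ht
  have hμ : 0 < μ := by
    rcases Nat.eq_zero_or_pos μ with h0 | h0
    · subst h0
      obtain ⟨z, hz⟩ := hD
      simp at hz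
    · exact h0
  -- conjugate level one coefficients
  choose b' hb' using fun j => exists_levelOne_conj s _ (b j)
  choose c' hc' using fun m => exists_levelOne_conj s _ (c m)
  choose d' hd' using fun m => exists_levelOne_conj s _ (d m)
  -- holomorphy at infinity
  have Hf : HolAtInfty (f : ℍ → ℂ) := HolAtInfty.of_cuspForm h1Γ f
  have Ht : HolAtInfty (t : ℍ → ℂ) := HolAtInfty.of_modularForm h1Γ t
  have Hb : ∀ j, HolAtInfty (b j : ℍ → ℂ) := fun j => HolAtInfty.of_modularForm h1SL (b j)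
  have Hc : ∀ m, HolAtInfty (c m : ℍ → ℂ) := fun m => HolAtInfty.of_modularForm h1SL (c m)
  have Hd : ∀ m, HolAtInfty (d m : ℍ → ℂ) := fun m => HolAtInfty.of_modularForm h1SL (d m)
  have Hb' : ∀ j, HolAtInfty (b' j : ℍ → ℂ) := fun j => HolAtInfty.of_modularForm h1SL (b' j)
  have Hc' : ∀ m, HolAtInfty (c' m : ℍ → ℂ) := fun m => HolAtInfty.of_modularForm h1SL (c' m)
  have Hd' : ∀ m, HolAtInfty (d' m : ℍ → ℂ) := fun m => HolAtInfty.of_modularForm h1SL (d' m)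
  -- the bundled forms `A' = ∑ c'_m t^m`, `D' = ∑ d'_m t^m`
  obtain ⟨A', hA'⟩ := exists_polyForm hΓle (W := k + 4 * ((μ : ℤ) - 1)) (l := 4)
    (wt := fun m : Fin μ => k + 4 * ((μ : ℤ) - 1 - ((m : ℕ) : ℤ))) (fun m => by ring) c' t
  obtain ⟨D', hD'⟩ := exists_polyForm hΓle (W := 4 * ((μ : ℤ) - 1)) (l := 4)
    (wt := fun m : Fin μ => 4 * ((μ : ℤ) - 1 - ((m : ℕ) : ℤ))) (fun m => by ring) d' t
  -- function-level descriptions
  have hA'fun : (A' : ℍ → ℂ) = ∑ m : Fin μ, (c' m : ℍ → ℂ) * (t : ℍ → ℂ) ^ (m : ℕ) := by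
    funext z
    rw [hA' z, Finset.sum_apply]
    rfl
  have hD'fun : (D' : ℍ → ℂ) = ∑ m : Fin μ, (d' m : ℍ → ℂ) * (t : ℍ → ℂ) ^ (m : ℕ) := by
    funext z
    rw [hD' z, Finset.sum_apply]
    rfl
  -- q-expansions
  set QT := qExpansion 1 (t : ℍ → ℂ) with hQT
  set QF := qExpansion 1 (f : ℍ → ℂ) with hQF
  set G := PowerSeries.map s QF with hG
  set QD := ∑ m : Fin μ, qExpansion 1 (d m : ℍ → ℂ) * QT ^ (m : ℕ) with hQD
  set QA := ∑ m : Fin μ, qExpansion 1 (c m : ℍ → ℂ) * QT ^ (m : ℕ) with hQA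
  have hQD' : qExpansion 1 (D' : ℍ → ℂ) = PowerSeries.map s QD := by
    rw [hD'fun, qExpansion_poly _ _ Hd' Ht, hQD, map_sum]
    refine Finset.sum_congr rfl fun m _ => ?_
    rw [map_mul, map_pow, htmap, hd' m]
  have hQA' : qExpansion 1 (A' : ℍ → ℂ) = PowerSeries.map s QA := by
    rw [hA'fun, qExpansion_poly _ _ Hc' Ht, hQA, map_sum]
    refine Finset.sum_congr rfl fun m _ => ?_
    rw [map_mul, map_pow, htmap, hc' m]
  -- Lagrange relation on q-expansions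
  have hLq : QF * QD = QA := by
    have hfun : (f : ℍ → ℂ) * ∑ m : Fin μ, (d m : ℍ → ℂ) * (t : ℍ → ℂ) ^ (m : ℕ)
        = ∑ m : Fin μ, (c m : ℍ → ℂ) * (t : ℍ → ℂ) ^ (m : ℕ) := by
      funext z
      rw [Pi.mul_apply, Finset.sum_apply, Finset.sum_apply]
      exact hL z
    have := congrArg (qExpansion 1) hfun
    rw [qExpansion_mul' Hf (holAtInfty_poly _ _ Hd Ht), qExpansion_poly _ _ Hd Ht,
      qExpansion_poly _ _ Hc Ht] at this
    exact this
  have hLq' : G * qExpansion 1 (D' : ℍ → ℂ) = qExpansion 1 (A' : ℍ → ℂ) := by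
    rw [hQD', hQA', hG, ← map_mul, hLq]
  -- Vieta relation on q-expansions
  have hVq : QF ^ μ + ∑ j : Fin μ, qExpansion 1 (b j : ℍ → ℂ) * QF ^ (μ - 1 - (j : ℕ)) = 0 := by
    have hfun : (f : ℍ → ℂ) ^ μ + ∑ j : Fin μ, (b j : ℍ → ℂ) * (f : ℍ → ℂ) ^ (μ - 1 - (j : ℕ)) *
        (1 : ℍ → ℂ) ^ ((j : ℕ) + 1) = 0 := by
      funext z
      rw [Pi.add_apply, Finset.sum_apply, Pi.zero_apply]
      simp only [Pi.mul_apply, Pi.pow_apply, Pi.one_apply, one_pow, mul_one]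
      exact hV z
    have := congrArg (qExpansion 1) hfun
    rw [qExpansion_rel _ _ _ Hf HolAtInfty.one Hb, qExpansion_zero] at this
    simpa [qExpansion_one] using this
  have hVq' : G ^ μ + ∑ j : Fin μ, qExpansion 1 (b' j : ℍ → ℂ) * G ^ (μ - 1 - (j : ℕ)) = 0 := by
    have := congrArg (PowerSeries.map s) hVq
    rw [map_add, map_pow, map_sum, map_zero] at this
    rw [← this]
    congr 1
    refine Finset.sum_congr rfl fun j _ => ?_
    rw [map_mul, map_pow, hb' j]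
  -- the homogenised relation, first on q-expansions, then on functions
  have hrelq := homogenise_rel G (qExpansion 1 (D' : ℍ → ℂ)) (fun j => qExpansion 1 (b' j : ℍ → ℂ)) hVq'
  rw [hLq'] at hrelq
  have HA' : HolAtInfty (A' : ℍ → ℂ) := HolAtInfty.of_modularForm h1Γ A'
  have HD' : HolAtInfty (D' : ℍ → ℂ) := HolAtInfty.of_modularForm h1Γ D'
  have hrelfun : (A' : ℍ → ℂ) ^ μ + ∑ j : Fin μ, (b' j : ℍ → ℂ) * (A' : ℍ → ℂ) ^ (μ - 1 - (j : ℕ)) *
      (D' : ℍ → ℂ) ^ ((j : ℕ) + 1) = 0 := by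
    apply (holAtInfty_rel _ _ _ HA' HD' Hb').eq_zero_of_qExpansion
    rw [qExpansion_rel _ _ _ HA' HD' Hb']
    exact hrelq
  have hrel : ∀ z : ℍ, A' z ^ μ + ∑ j : Fin μ, (b' j : ℍ → ℂ) z * A' z ^ (μ - 1 - (j : ℕ)) *
      D' z ^ ((j : ℕ) + 1) = 0 := by
    intro z
    have := congrFun hrelfun z
    rw [Pi.add_apply, Finset.sum_apply, Pi.zero_apply] at this
    simpa only [Pi.mul_apply, Pi.pow_apply] using this
  -- `D' ≠ 0`
  have hQDne : QD ≠ 0 := by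
    intro h0
    obtain ⟨z, hz⟩ := hD
    apply hz
    have hDfun0 : (∑ m : Fin μ, (d m : ℍ → ℂ) * (t : ℍ → ℂ) ^ (m : ℕ)) = 0 := by
      apply (holAtInfty_poly _ _ Hd Ht).eq_zero_of_qExpansion
      rw [qExpansion_poly _ _ Hd Ht]
      exact h0
    have := congrFun hDfun0 z
    rw [Finset.sum_apply] at this
    exact this
  have hQD'ne : qExpansion 1 (D' : ℍ → ℂ) ≠ 0 := by
    rw [hQD']
    intro h0
    apply hQDne
    apply powerSeries_map_injective s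
    rw [h0, map_zero]
  have hD'ne : D' ≠ 0 := by
    rintro rfl
    apply hQD'ne
    exact qExpansion_zero 1
  -- properties of the `b'`
  have hb_cont : ∀ j : Fin μ, Continuous (b' j : ℍ → ℂ) := fun j => (b' j).holo'.continuous
  have hb_zero : ∀ j : Fin μ, IsZeroAtImInfty (b' j : ℍ → ℂ) := by
    intro j
    rw [(Hb' j).isZeroAtImInfty_iff, hb' j, PowerSeries.coeff_map,
      ((Hb j).isZeroAtImInfty_iff).1 (hb0 j), map_zero]
  have hb_inv : ∀ (j : Fin μ) (g : SL(2, ℤ)),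
      (b' j : ℍ → ℂ) ∣[(((j : ℕ) + 1 : ℕ) : ℤ) * k] g = (b' j : ℍ → ℂ) := by
    intro j g
    have hw : (((j : ℕ) + 1 : ℕ) : ℤ) * k = k * (((j : ℕ) : ℤ) + 1) := by push_cast; ring
    rw [hw, ModularForm.SL_slash]
    exact SlashInvariantFormClass.slash_action_eq (b' j) _ ⟨g, rfl⟩
  -- the analytic core
  obtain ⟨F', hF'⟩ := exists_cuspForm_mul_eq (k := k) (w := 4 * ((μ : ℤ) - 1)) hμ A' D' hD'ne
    (fun j => (b' j : ℍ → ℂ)) hb_cont hb_inv hb_zero hrel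
  refine ⟨F', ?_⟩
  have HF' : HolAtInfty (F' : ℍ → ℂ) := HolAtInfty.of_cuspForm h1Γ F'
  have hfun : (F' : ℍ → ℂ) * (D' : ℍ → ℂ) = (A' : ℍ → ℂ) := by
    funext z
    exact hF' z
  have hq := congrArg (qExpansion 1) hfun
  rw [qExpansion_mul' HF' HD', ← hLq'] at hq
  exact mul_right_cancel₀ hQD'ne hq

end Fermat.Agent.S23.ConjB
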