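import Mathlib

/-!
# Symmetric functions of the coset translates of a modular form are level-one forms

For an arithmetic subgroup `𝒢` and a modular form `v` for `𝒢`, the translates
`v_q = SlashInvariantForm.quotientFunc v q`, `q ∈ 𝒬 = 𝒮ℒ ⧸ 𝒢 ⊓ 𝒮ℒ` are permuted by `𝒮ℒ`.
We package the elementary symmetric functions of the translates (and a mixed variant used for
Lagrange interpolation) as modular forms of level one, and prove the Vieta / Lagrange identities.
-/

set_option autoImplicit false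

open UpperHalfPlane SlashInvariantForm
open scoped ModularForm MatrixGroups Topology Filter Manifold

namespace Fermat.Agent.S23.CosetSymm

noncomputable section

attribute [local instance] Classical.propDecidable

variable {𝒢 : Subgroup (GL (Fin 2) ℝ)}

local notation "𝒬" => 𝒮ℒ ⧸ (𝒢.subgroupOf 𝒮ℒ)

/-- Fintype structure on the coset space (classical). -/
local instance instFintypeCoset [𝒢.IsFiniteRelIndex 𝒮ℒ] :
    Fintype (𝒮ℒ ⧸ (𝒢.subgroupOf 𝒮ℒ)) := Fintype.ofFinite _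

/-- The permutation of the coset space induced by (the inverse of) an element of `𝒮ℒ`. -/
def cosetPerm (𝒢 : Subgroup (GL (Fin 2) ℝ)) {h : GL (Fin 2) ℝ} (hh : h ∈ 𝒮ℒ) :
    Equiv.Perm (𝒮ℒ ⧸ (𝒢.subgroupOf 𝒮ℒ)) :=
  MulAction.toPerm ((⟨h, hh⟩ : 𝒮ℒ)⁻¹)

section defs

variable {F : Type*} [FunLike F ℍ ℂ] {k : ℤ} [SlashInvariantFormClass F 𝒢 k]

/-- Product of the translates of `v` indexed by a finset of cosets. -/
def prodOn (v : F) (T : Finset 𝒬) : ℍ → ℂ := ∏ q ∈ T, quotientFunc v q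

lemma quotientFunc_slash (v : F) {h : GL (Fin 2) ℝ} (hh : h ∈ 𝒮ℒ) (q : 𝒬) :
    quotientFunc v q ∣[k] h = quotientFunc v (cosetPerm 𝒢 hh q) :=
  quotientFunc_smul v hh q

lemma abs_det_eq_one {h : GL (Fin 2) ℝ} (hh : h ∈ 𝒮ℒ) : |h.det.val| = 1 :=
  Subgroup.HasDetPlusMinusOne.abs_det hh

lemma prodOn_slash (v : F) {h : GL (Fin 2) ℝ} (hh : h ∈ 𝒮ℒ) (T : Finset 𝒬) :
    prodOn v T ∣[k * (T.card : ℤ)] h = prodOn v (T.map (cosetPerm 𝒢 hh).toEmbedding) := by
  rw [prodOn, ModularForm.prod_slash, abs_det_eq_one hh, prodOn, Finset.prod_map]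
  simp only [one_zpow, one_smul]
  exact Finset.prod_congr rfl fun q _ ↦ quotientFunc_slash v hh q

/-- `j`-th elementary symmetric function of the translates of `v` indexed by `A`. -/
def esymmOn (v : F) (A : Finset 𝒬) (j : ℕ) : ℍ → ℂ := ∑ T ∈ A.powersetCard j, prodOn v T

lemma esymmOn_slash (v : F) {h : GL (Fin 2) ℝ} (hh : h ∈ 𝒮ℒ) (A : Finset 𝒬) (j : ℕ) :
    esymmOn v A j ∣[k * (j : ℤ)] h = esymmOn v (A.map (cosetPerm 𝒢 hh).toEmbedding) j := by
  rw [esymmOn, SlashAction.sum_slash, esymmOn, Finset.powersetCard_map, Finset.sum_map]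
  refine Finset.sum_congr rfl fun T hT ↦ ?_
  rw [← (Finset.mem_powersetCard.mp hT).2, prodOn_slash v hh T]
  rfl

end defs

section mixed

variable {F : Type*} [FunLike F ℍ ℂ] {k : ℤ} [SlashInvariantFormClass F 𝒢 k]
variable {F' : Type*} [FunLike F' ℍ ℂ] {k' : ℤ} [SlashInvariantFormClass F' 𝒢 k']
variable [𝒢.IsFiniteRelIndex 𝒮ℒ]

/-- The mixed symmetric function `∑_q u_q · e_s({v_q'} : q' ≠ q)`. -/
def mixedFun (u : F') (v : F) (s : ℕ) : ℍ → ℂ :=
  ∑ q : 𝒬, quotientFunc u q * esymmOn v (Finset.univ.erase q) s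

lemma mixedFun_slash (u : F') (v : F) (s : ℕ) {h : GL (Fin 2) ℝ} (hh : h ∈ 𝒮ℒ) :
    mixedFun u v s ∣[k' + k * (s : ℤ)] h = mixedFun u v s := by
  rw [mixedFun, SlashAction.sum_slash]
  rw [← Equiv.sum_comp (cosetPerm 𝒢 hh)
    (fun q ↦ quotientFunc u q * esymmOn v (Finset.univ.erase q) s)]
  refine Finset.sum_congr rfl fun q _ ↦ ?_
  rw [ModularForm.mul_slash, abs_det_eq_one hh, one_smul, quotientFunc_slash u hh q,
    esymmOn_slash v hh, Finset.map_erase, Finset.map_univ_equiv]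
  rfl

/-- The `j`-th elementary symmetric function of all translates. -/
def esymmFun (v : F) (j : ℕ) : ℍ → ℂ := esymmOn v Finset.univ j

lemma esymmFun_slash (v : F) (j : ℕ) {h : GL (Fin 2) ℝ} (hh : h ∈ 𝒮ℒ) :
    esymmFun v j ∣[k * (j : ℤ)] h = esymmFun v j := by
  rw [esymmFun, esymmOn_slash v hh, Finset.map_univ_equiv]

end mixed

section analytic

variable {F : Type*} [FunLike F ℍ ℂ] {k : ℤ}

lemma mdifferentiable_quotientFunc [ModularFormClass F 𝒢 k] (v : F) (q : 𝒬) :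
    MDifferentiable 𝓘(ℂ) 𝓘(ℂ) (quotientFunc v q) := by
  induction q using Quotient.inductionOn with
  | h r => exact (ModularForm.translate v r.val⁻¹).holo'

lemma quotientFunc_mk_mapGL [SlashInvariantFormClass F 𝒢 k] (v : F) (g : SL(2, ℤ)) :
    quotientFunc v (⟦⟨Matrix.SpecialLinearGroup.mapGL ℝ g, ⟨g, rfl⟩⟩⟧ : 𝒬) = (v : ℍ → ℂ) ∣[k] g⁻¹ := by
  rw [quotientFunc_mk, ModularForm.SL_slash, map_inv]
  rfl

lemma isBoundedAtImInfty_quotientFunc [𝒢.IsArithmetic] [ModularFormClass F 𝒢 k] (v : F) (q : 𝒬) :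
    IsBoundedAtImInfty (quotientFunc v q) := by
  induction q using Quotient.inductionOn with
  | h r =>
    obtain ⟨_, ⟨g, rfl⟩⟩ := r
    rw [quotientFunc_mk_mapGL]
    exact ModularFormClass.bdd_at_infty_slash v g⁻¹

lemma isZeroAtImInfty_quotientFunc [𝒢.IsArithmetic] [CuspFormClass F 𝒢 k] (v : F) (q : 𝒬) :
    IsZeroAtImInfty (quotientFunc v q) := by
  induction q using Quotient.inductionOn with
  | h r =>
    obtain ⟨_, ⟨g, rfl⟩⟩ := r
    rw [quotientFunc_mk_mapGL]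
    exact CuspFormClass.zero_at_infty_slash v g⁻¹

lemma mdifferentiable_prodOn [ModularFormClass F 𝒢 k] (v : F) (T : Finset 𝒬) :
    MDifferentiable 𝓘(ℂ) 𝓘(ℂ) (prodOn v T) :=
  .prod fun q _ ↦ mdifferentiable_quotientFunc v q

lemma mdifferentiable_esymmOn [ModularFormClass F 𝒢 k] (v : F) (A : Finset 𝒬) (j : ℕ) :
    MDifferentiable 𝓘(ℂ) 𝓘(ℂ) (esymmOn v A j) :=
  .sum fun T _ ↦ mdifferentiable_prodOn v T

lemma isBoundedAtImInfty_prodOn [𝒢.IsArithmetic] [ModularFormClass F 𝒢 k] (v : F)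
    (T : Finset 𝒬) : IsBoundedAtImInfty (prodOn v T) :=
  (boundedAtImInftySubalgebra ℂ).prod_mem fun q _ ↦ isBoundedAtImInfty_quotientFunc v q

lemma isBoundedAtImInfty_esymmOn [𝒢.IsArithmetic] [ModularFormClass F 𝒢 k] (v : F)
    (A : Finset 𝒬) (j : ℕ) : IsBoundedAtImInfty (esymmOn v A j) :=
  (boundedAtImInftySubalgebra ℂ).sum_mem fun T _ ↦ isBoundedAtImInfty_prodOn v T

lemma isZeroAtImInfty_prodOn [𝒢.IsArithmetic] [CuspFormClass F 𝒢 k] (v : F)
    {T : Finset 𝒬} (hT : T.Nonempty) : IsZeroAtImInfty (prodOn v T) := by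
  obtain ⟨q, hq⟩ := hT
  rw [prodOn, ← Finset.mul_prod_erase T _ hq]
  exact Filter.ZeroAtFilter.mul_boundedAtFilter (isZeroAtImInfty_quotientFunc v q)
    (isBoundedAtImInfty_prodOn v (T.erase q))

lemma isZeroAtImInfty_esymmOn [𝒢.IsArithmetic] [CuspFormClass F 𝒢 k] (v : F)
    (A : Finset 𝒬) {j : ℕ} (hj : 0 < j) : IsZeroAtImInfty (esymmOn v A j) := by
  refine (zeroAtImInftySubmodule ℂ).sum_mem fun T hT ↦ ?_
  refine isZeroAtImInfty_prodOn v (Finset.card_pos.mp ?_)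
  rw [(Finset.mem_powersetCard.mp hT).2]
  exact hj

end analytic

section forms

variable {F : Type*} [FunLike F ℍ ℂ] {k : ℤ} [ModularFormClass F 𝒢 k]
variable {F' : Type*} [FunLike F' ℍ ℂ] {k' : ℤ} [ModularFormClass F' 𝒢 k']
variable [𝒢.IsArithmetic]

/-- The `j`-th elementary symmetric function of the translates of `v`, as a modular form of
level one and weight `k * j`. -/
def esymmT (v : F) (j : ℕ) : ModularForm 𝒮ℒ (k * (j : ℤ)) where
  toFun := esymmFun v j
  slash_action_eq' _ hh := esymmFun_slash v j hh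
  holo' := mdifferentiable_esymmOn v _ j
  bdd_at_cusps' {c} hc := by
    rw [OnePoint.isBoundedAt_iff_forall_SL2Z hc]
    intro γ _
    have h1 : esymmFun v j ∣[k * (j : ℤ)] γ = esymmFun v j := esymmFun_slash v j ⟨γ, rfl⟩
    rw [h1]
    exact isBoundedAtImInfty_esymmOn v _ j

lemma esymmT_apply (v : F) (j : ℕ) (z : ℍ) : esymmT v j z = esymmFun v j z := rfl

lemma coe_esymmT (v : F) (j : ℕ) : (esymmT v j : ℍ → ℂ) = esymmFun v j := rfl

/-- The mixed symmetric function `∑_q u_q · e_s({v_q'} : q' ≠ q)` as a modular form of level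
one and weight `k' + k * s`. -/
def mixedT (u : F') (v : F) (s : ℕ) : ModularForm 𝒮ℒ (k' + k * (s : ℤ)) where
  toFun := mixedFun u v s
  slash_action_eq' _ hh := mixedFun_slash u v s hh
  holo' := .sum fun q _ ↦ (mdifferentiable_quotientFunc u q).mul (mdifferentiable_esymmOn v _ s)
  bdd_at_cusps' {c} hc := by
    rw [OnePoint.isBoundedAt_iff_forall_SL2Z hc]
    intro γ _
    have h1 : mixedFun u v s ∣[k' + k * (s : ℤ)] γ = mixedFun u v s :=
      mixedFun_slash u v s ⟨γ, rfl⟩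
    rw [h1]
    exact (boundedAtImInftySubalgebra ℂ).sum_mem fun q _ ↦
      (boundedAtImInftySubalgebra ℂ).mul_mem (isBoundedAtImInfty_quotientFunc u q)
        (isBoundedAtImInfty_esymmOn v _ s)

lemma mixedT_apply (u : F') (v : F) (s : ℕ) (z : ℍ) : mixedT u v s z = mixedFun u v s z := rfl

lemma coe_mixedT (u : F') (v : F) (s : ℕ) : (mixedT u v s : ℍ → ℂ) = mixedFun u v s := rfl

end forms

section identities

/-- Vieta's formula for a finite family of complex numbers, in evaluated form. -/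
lemma finset_prod_sub_eq_sum_esymm {ι : Type*} (A : Finset ι) (a : ι → ℂ) (x : ℂ) :
    ∏ q ∈ A, (x - a q) = ∑ j ∈ Finset.range (A.card + 1),
      (-1) ^ j * (∑ T ∈ A.powersetCard j, ∏ q ∈ T, a q) * x ^ (A.card - j) := by
  have h := congrArg (Polynomial.eval x) (Multiset.prod_X_sub_X_eq_sum_esymm (A.val.map a))
  rw [Polynomial.eval_multiset_prod, Multiset.map_map, Multiset.map_map] at h
  simp only [Function.comp_def, Polynomial.eval_sub, Polynomial.eval_X, Polynomial.eval_C,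
    Multiset.card_map, Finset.card_val, Polynomial.eval_finsetSum, Polynomial.eval_mul,
    Polynomial.eval_pow, Polynomial.eval_neg, Polynomial.eval_one, Finset.esymm_map_val] at h
  rw [← Finset.prod_eq_multiset_prod] at h
  rw [h]
  refine Finset.sum_congr rfl fun j _ ↦ ?_
  ring

variable {F : Type*} [FunLike F ℍ ℂ] {k : ℤ} [SlashInvariantFormClass F 𝒢 k]

lemma esymmOn_apply (v : F) (A : Finset 𝒬) (j : ℕ) (z : ℍ) :
    esymmOn v A j z = ∑ T ∈ A.powersetCard j, ∏ q ∈ T, quotientFunc v q z := by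
  simp only [esymmOn, prodOn, Finset.sum_apply, Finset.prod_apply]

/-- The translate attached to the trivial coset is the form itself. -/
lemma quotientFunc_one (v : F) : quotientFunc v ((1 : 𝒮ℒ) : 𝒬) = (v : ℍ → ℂ) := by
  have : ((1 : 𝒮ℒ) : 𝒬) = ⟦(1 : 𝒮ℒ)⟧ := rfl
  rw [this, quotientFunc_mk]
  simp

/-- Evaluated Vieta formula for the translates indexed by `A`. -/
lemma prod_sub_quotientFunc (v : F) (A : Finset 𝒬) (x : ℂ) (z : ℍ) :
    ∏ q ∈ A, (x - quotientFunc v q z) = ∑ j ∈ Finset.range (A.card + 1),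
      (-1) ^ j * esymmOn v A j z * x ^ (A.card - j) := by
  rw [finset_prod_sub_eq_sum_esymm]
  simp only [esymmOn_apply]

variable [𝒢.IsFiniteRelIndex 𝒮ℒ]

/-- The number of cosets. -/
def cosetCard (𝒢 : Subgroup (GL (Fin 2) ℝ)) : ℕ := Nat.card (𝒮ℒ ⧸ (𝒢.subgroupOf 𝒮ℒ))

omit [𝒢.IsFiniteRelIndex 𝒮ℒ] in
lemma cosetCard_eq_card_univ [𝒢.IsFiniteRelIndex 𝒮ℒ] :
    cosetCard 𝒢 = (Finset.univ : Finset 𝒬).card := by
  rw [cosetCard, Nat.card_eq_fintype_card, Finset.card_univ]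

/-- **Vieta**: `v` is a root of the monic polynomial whose coefficients are (up to sign) the
elementary symmetric functions of its translates. -/
theorem vieta_self_fun (v : F) (z : ℍ) :
    ∑ j ∈ Finset.range (cosetCard 𝒢 + 1),
      (-1) ^ j * esymmFun v j z * (v z) ^ (cosetCard 𝒢 - j) = 0 := by
  rw [cosetCard_eq_card_univ]
  have h := prod_sub_quotientFunc v (Finset.univ : Finset 𝒬) (v z) z
  simp only [esymmFun]
  rw [← h]
  refine Finset.prod_eq_zero (Finset.mem_univ ((1 : 𝒮ℒ) : 𝒬)) ?_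
  rw [quotientFunc_one, sub_self]

/-- The separating product `∏_{q ≠ 1} (v - v_q)`. -/
def sepProd (v : F) : ℍ → ℂ :=
  ∏ q ∈ (Finset.univ : Finset 𝒬).erase ((1 : 𝒮ℒ) : 𝒬), ((v : ℍ → ℂ) - quotientFunc v q)

lemma sepProd_apply (v : F) (z : ℍ) :
    sepProd v z = ∏ q ∈ (Finset.univ : Finset 𝒬).erase ((1 : 𝒮ℒ) : 𝒬),
      (v z - quotientFunc v q z) := by
  simp only [sepProd, Finset.prod_apply, Pi.sub_apply]

variable {F' : Type*} [FunLike F' ℍ ℂ] {k' : ℤ} [SlashInvariantFormClass F' 𝒢 k']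

/-- **Lagrange interpolation**: `u · ∏_{q ≠ 1} (v - v_q)` is a polynomial in `v` whose coefficients
are (up to sign) the mixed symmetric functions. -/
theorem lagrange_fun (u : F') (v : F) (z : ℍ) :
    ∑ s ∈ Finset.range (cosetCard 𝒢),
      (-1) ^ s * mixedFun u v s z * (v z) ^ (cosetCard 𝒢 - 1 - s) = u z * sepProd v z := by
  have hcard : ∀ q : 𝒬, ((Finset.univ : Finset 𝒬).erase q).card = cosetCard 𝒢 - 1 := by
    intro q
    rw [Finset.card_erase_of_mem (Finset.mem_univ q), cosetCard_eq_card_univ]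
  have hpos : 0 < cosetCard 𝒢 := by
    rw [cosetCard_eq_card_univ]
    exact Finset.card_pos.mpr ⟨((1 : 𝒮ℒ) : 𝒬), Finset.mem_univ _⟩
  -- expand `mixedFun` and swap the sums
  have h1 : ∀ s, mixedFun u v s z
      = ∑ q : 𝒬, quotientFunc u q z * esymmOn v (Finset.univ.erase q) s z := by
    intro s
    simp only [mixedFun, Finset.sum_apply, Pi.mul_apply]
  simp only [h1, Finset.mul_sum, Finset.sum_mul]
  rw [Finset.sum_comm]
  -- now each inner sum is a Vieta expansion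
  have h2 : ∀ q : 𝒬, ∑ s ∈ Finset.range (cosetCard 𝒢),
      (-1) ^ s * (quotientFunc u q z * esymmOn v (Finset.univ.erase q) s z)
        * (v z) ^ (cosetCard 𝒢 - 1 - s)
      = quotientFunc u q z * ∏ q' ∈ (Finset.univ : Finset 𝒬).erase q,
          (v z - quotientFunc v q' z) := by
    intro q
    rw [prod_sub_quotientFunc v _ (v z) z, hcard q, Nat.sub_add_cancel hpos, Finset.mul_sum]
    refine Finset.sum_congr rfl fun s _ ↦ ?_
    ring
  rw [Finset.sum_congr rfl fun q _ ↦ h2 q]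
  rw [Finset.sum_eq_single ((1 : 𝒮ℒ) : 𝒬)]
  · rw [quotientFunc_one, sepProd_apply]
  · intro q _ hq
    have hmem : ((1 : 𝒮ℒ) : 𝒬) ∈ (Finset.univ : Finset 𝒬).erase q :=
      Finset.mem_erase.mpr ⟨fun h ↦ hq h.symm, Finset.mem_univ _⟩
    rw [Finset.prod_eq_zero hmem (by rw [quotientFunc_one, sub_self]), mul_zero]
  · intro h
    exact absurd (Finset.mem_univ _) h

omit [𝒢.IsFiniteRelIndex 𝒮ℒ] in
lemma cosetCard_pos [𝒢.IsFiniteRelIndex 𝒮ℒ] : 0 < cosetCard 𝒢 := by
  rw [cosetCard_eq_card_univ]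
  exact Finset.card_pos.mpr ⟨((1 : 𝒮ℒ) : 𝒬), Finset.mem_univ _⟩

omit [𝒢.IsFiniteRelIndex 𝒮ℒ] in
lemma esymmOn_zero (v : F) (A : Finset 𝒬) : esymmOn v A 0 = 1 := by
  simp [esymmOn, prodOn]

lemma esymmFun_zero (v : F) : esymmFun v 0 = 1 := esymmOn_zero v _

end identities

section sep

variable {F : Type*} [FunLike F ℍ ℂ] {k : ℤ} [ModularFormClass F 𝒢 k] [𝒢.IsFiniteRelIndex 𝒮ℒ]

lemma mdifferentiable_sepProd (v : F) : MDifferentiable 𝓘(ℂ) 𝓘(ℂ) (sepProd v) :=
  .prod fun q _ ↦ (ModularFormClass.holo v).sub (mdifferentiable_quotientFunc v q)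

/-- If no non-trivial translate of `v` coincides with `v`, the separating product is not the
zero function. -/
theorem sepProd_ne_zero (v : F)
    (hv : ∀ q : 𝒬, q ≠ ((1 : 𝒮ℒ) : 𝒬) → quotientFunc v q ≠ (v : ℍ → ℂ)) : sepProd v ≠ 0 := by
  intro h0
  rw [sepProd, UpperHalfPlane.prod_eq_zero_iff
    (fun q _ ↦ (ModularFormClass.holo v).sub (mdifferentiable_quotientFunc v q))] at h0
  obtain ⟨q, hq, hq0⟩ := h0
  exact hv q (Finset.ne_of_mem_erase hq) (sub_eq_zero.mp hq0).symm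

end sep

section final

variable {F : Type*} [FunLike F ℍ ℂ] {k : ℤ} [ModularFormClass F 𝒢 k]
variable {F' : Type*} [FunLike F' ℍ ℂ] {k' : ℤ} [ModularFormClass F' 𝒢 k']
variable [𝒢.IsArithmetic]

@[simp] lemma esymmT_zero_apply (v : F) (z : ℍ) : esymmT v 0 z = 1 := by
  rw [esymmT_apply, esymmFun_zero]
  rfl

/-- **Vieta**, for the level-one forms `esymmT v j`. -/
theorem vieta_self (v : F) (z : ℍ) :
    ∑ j ∈ Finset.range (cosetCard 𝒢 + 1),
      (-1) ^ j * esymmT v j z * (v z) ^ (cosetCard 𝒢 - j) = 0 :=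
  vieta_self_fun v z

/-- **Lagrange interpolation**, for the level-one forms `mixedT u v s`. -/
theorem lagrange (u : F') (v : F) (z : ℍ) :
    ∑ s ∈ Finset.range (cosetCard 𝒢),
      (-1) ^ s * mixedT u v s z * (v z) ^ (cosetCard 𝒢 - 1 - s) = u z * sepProd v z :=
  lagrange_fun u v z

/-- If `v` is a cusp form, the positive-degree symmetric functions of its translates vanish at
`i∞` (so they are level-one cusp forms). -/
theorem isZeroAtImInfty_esymmT {G : Type*} [FunLike G ℍ ℂ] [CuspFormClass G 𝒢 k] (v : G)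
    {j : ℕ} (hj : 0 < j) : IsZeroAtImInfty (esymmT v j) :=
  isZeroAtImInfty_esymmOn v _ hj

/-- If `u` is a cusp form, the mixed symmetric functions vanish at `i∞`. -/
theorem isZeroAtImInfty_mixedT {G : Type*} [FunLike G ℍ ℂ] [CuspFormClass G 𝒢 k'] (u : G)
    (v : F) (s : ℕ) : IsZeroAtImInfty (mixedT u v s) := by
  refine (zeroAtImInftySubmodule ℂ).sum_mem fun q _ ↦ ?_
  exact Filter.ZeroAtFilter.mul_boundedAtFilter (isZeroAtImInfty_quotientFunc u q)
    (isBoundedAtImInfty_esymmOn v _ s)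

/-- For a cusp form `v` and `0 < j`, the `j`-th elementary symmetric function of the translates
of `v`, as a cusp form of level one. -/
def esymmCusp {G : Type*} [FunLike G ℍ ℂ] [CuspFormClass G 𝒢 k] (v : G) {j : ℕ} (hj : 0 < j) :
    CuspForm 𝒮ℒ (k * (j : ℤ)) where
  toFun := esymmFun v j
  slash_action_eq' _ hh := esymmFun_slash v j hh
  holo' := mdifferentiable_esymmOn v _ j
  zero_at_cusps' {c} hc := by
    rw [OnePoint.isZeroAt_iff_forall_SL2Z hc]
    intro γ _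
    have h1 : esymmFun v j ∣[k * (j : ℤ)] γ = esymmFun v j := esymmFun_slash v j ⟨γ, rfl⟩
    rw [h1]
    exact isZeroAtImInfty_esymmOn v _ hj

lemma coe_esymmCusp {G : Type*} [FunLike G ℍ ℂ] [CuspFormClass G 𝒢 k] (v : G) {j : ℕ}
    (hj : 0 < j) : (esymmCusp v hj : ℍ → ℂ) = (esymmT v j : ℍ → ℂ) := rfl

end final

end

end Fermat.Agent.S23.CosetSymm
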