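import Mathlib
import Fermat.Prelude.Def_FLTPrelim_Modularity
import Fermat.Prelude.Def_CuspForm_IntegralStructure
import Fermat.Prelude.Sol.S_CuspForm_intLattice_fg
import Fermat.Agent.S23.AutComplex
import Fermat.Agent.S23.RationalSpan

/-!
# S23, Step B: descent from `Aut(ℂ)`-stability to a rational structure

If the space `S_k(Γ₀(N))` is stable under coefficientwise conjugation of `q`-expansions by every
ring automorphism of `ℂ`, then it is spanned by the forms with rational `q`-expansion.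
-/

set_option autoImplicit false

namespace Fermat.Agent.S23

open CongruenceSubgroup ModularFormClass UpperHalfPlane
open P2MW.S_CuspForm_intLattice_fg.W3WsD

noncomputable section

variable {N : ℕ} {k : ℤ}

/-- `qCoeff` is compatible with complex scalar multiplication on cusp forms. -/
theorem descent_qCoeff_smul (c : ℂ) (f : CuspForm (Gamma0 N) k) (n : ℕ) :
    qCoeff ⇑(c • f) n = c * qCoeff ⇑f n := by
  have h1 : ⇑(c • f) = c • ⇑f := by
    ext z
    simp
  simp only [qCoeff, h1]
  rw [ModularForm.qExpansion_smul one_pos (hΓ N) c f]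
  simp

/-- The `ℂ`-linear truncation map to the first `sturmB N k + 1` coefficients. -/
def truncC (N : ℕ) (k : ℤ) : CuspForm (Gamma0 N) k →ₗ[ℂ] (Fin (sturmB N k + 1) → ℂ) where
  toFun f i := qCoeff ⇑f i
  map_add' f g := by
    funext i
    exact qCoeff_add f g i
  map_smul' c f := by
    funext i
    simp only [Pi.smul_apply, RingHom.id_apply, smul_eq_mul]
    exact descent_qCoeff_smul c f i

theorem truncC_apply (f : CuspForm (Gamma0 N) k) (i : Fin (sturmB N k + 1)) :
    truncC N k f i = qCoeff ⇑f i := rfl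

theorem truncC_injective (N : ℕ) [NeZero N] (k : ℤ) : Function.Injective (truncC N k) := by
  intro f g h
  apply trunc_injective N k
  funext i
  exact congrFun h i

/-- The set of cusp forms with rational `q`-expansion. -/
def ratCuspForms (N : ℕ) (k : ℤ) : Set (CuspForm (Gamma0 N) k) :=
  {f | ∀ n : ℕ, ∃ r : ℚ, qCoeff ⇑f n = (r : ℂ)}

/-- **Step B.** If `S_k(Γ₀(N))` is stable under coefficientwise conjugation by all ring
automorphisms of `ℂ`, then it is spanned over `ℂ` by forms with rational `q`-expansion. -/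
theorem span_ratCuspForms_eq_top (N : ℕ) [NeZero N] (k : ℤ)
    (hconj : ∀ (σ : ℂ ≃+* ℂ) (f : CuspForm (Gamma0 N) k),
      ∃ f' : CuspForm (Gamma0 N) k, ∀ n : ℕ, qCoeff ⇑f' n = σ (qCoeff ⇑f n)) :
    Submodule.span ℂ (ratCuspForms N k) = ⊤ := by
  set Φ := truncC N k with hΦ
  have hinj : Function.Injective Φ := truncC_injective N k
  set W : Submodule ℂ (Fin (sturmB N k + 1) → ℂ) := LinearMap.range Φ with hW
  -- `W` is stable under coordinatewise automorphisms
  have hstab : ∀ (σ : ℂ ≃+* ℂ) (v : Fin (sturmB N k + 1) → ℂ), v ∈ W →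
      (fun i => σ (v i)) ∈ W := by
    rintro σ v ⟨f, rfl⟩
    obtain ⟨f', hf'⟩ := hconj σ f
    refine ⟨f', ?_⟩
    funext i
    exact hf' i
  have hspan := span_rat_points_of_aut_stable W hstab
  -- rational points of `W` come from rational forms
  have hsub : {v : Fin (sturmB N k + 1) → ℂ | v ∈ W ∧ ∀ i, ∃ q : ℚ, (q : ℂ) = v i} ⊆
      Φ '' (ratCuspForms N k) := by
    rintro v ⟨⟨g, rfl⟩, hv⟩
    refine ⟨g, ?_, rfl⟩
    intro n
    have hfix : ∀ σ : ℂ ≃+* ℂ, σ (qCoeff ⇑g n) = qCoeff ⇑g n := by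
      intro σ
      obtain ⟨g', hg'⟩ := hconj σ g
      have hgg : g' = g := by
        apply hinj
        funext i
        rw [hΦ, truncC_apply, truncC_apply, hg']
        obtain ⟨q, hq⟩ := hv i
        have : qCoeff ⇑g i = (q : ℂ) := by rw [hq]; rfl
        rw [this, map_ratCast]
      rw [← hg' n, hgg]
    obtain ⟨r, hr⟩ := mem_range_ratCast_of_forall_ringAut hfix
    exact ⟨r, hr.symm⟩
  rw [eq_top_iff]
  intro f _
  have hfW : Φ f ∈ W := ⟨f, rfl⟩
  rw [← hspan] at hfW
  have h2 : Φ f ∈ Submodule.span ℂ (Φ '' (ratCuspForms N k)) := Submodule.span_mono hsub hfW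
  rw [← Submodule.map_span] at h2
  obtain ⟨g, hg, hgf⟩ := h2
  rw [← hinj hgf]
  exact hg

/-- Step B in the shape produced by the Galois-stability theorem (`qExpansion` conjugated by a
ring endomorphism of `ℂ`). -/
theorem span_ratCuspForms_eq_top_of_qExpansion_map (N : ℕ) [NeZero N] (k : ℤ)
    (hconj : ∀ (s : ℂ →+* ℂ) (f : CuspForm (Gamma0 N) k),
      ∃ f' : CuspForm (Gamma0 N) k, qExpansion 1 f' = (qExpansion 1 f).map s) :
    Submodule.span ℂ (ratCuspForms N k) = ⊤ := by
  apply span_ratCuspForms_eq_top N k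
  intro σ f
  obtain ⟨f', hf'⟩ := hconj (σ : ℂ →+* ℂ) f
  refine ⟨f', fun n => ?_⟩
  simp only [qCoeff, hf', PowerSeries.coeff_map]
  rfl

/-- Final glue: Galois stability (Step A), via descent (Step B), together with bounded
denominators (Step C) gives the integral structure. -/
theorem hasIntegralStructure_of_span_rat_of_bounded (N : ℕ) [NeZero N] (k : ℤ)
    (hspan : Submodule.span ℂ (ratCuspForms N k) = ⊤)
    (hbd : ∀ f ∈ ratCuspForms N k, ∃ c : ℤ, c ≠ 0 ∧ ∀ n : ℕ, ∃ m : ℤ,
      qCoeff ⇑(c • f) n = (m : ℂ)) :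
    CuspForm.HasIntegralStructure N k := by
  unfold CuspForm.HasIntegralStructure
  rw [eq_top_iff, ← hspan]
  apply Submodule.span_le.mpr
  intro f hf
  obtain ⟨c, hc, hcf⟩ := hbd f hf
  have hmem : c • f ∈ CuspForm.intLattice N k := (mem_intLattice_iff (c • f)).mpr hcf
  have hcC : (c : ℂ) ≠ 0 := Int.cast_ne_zero.mpr hc
  have hfeq : f = (c : ℂ)⁻¹ • (c • f) := by
    rw [← Int.cast_smul_eq_zsmul ℂ c f, smul_smul, inv_mul_cancel₀ hcC, one_smul]
  rw [hfeq]
  exact Submodule.smul_mem _ _ (Submodule.subset_span hmem)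

end

end Fermat.Agent.S23
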