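import Mathlib
import Fermat.Agent.S23.Main
import Fermat.Prelude.Def_CuspForm_HeckeAlgebra
import Fermat.Prelude.Thm_CuspForm_mem_intLattice_of_mem_heckeAlgebra
import Fermat.Prelude.Thm_CuspForm_intLattice_fg

/-!
# The Hecke algebra of `S_k(Γ₀(N))` is a finitely generated `ℤ`-module (from the integral structure)
-/

set_option autoImplicit false

namespace Fermat.Agent.S23

open UpperHalfPlane Matrix.SpecialLinearGroup
open scoped MatrixGroups ModularForm Manifold

namespace HeckeFin

variable (N : ℕ) [NeZero N] (k : ℤ) (S : Set ℕ)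

/-- Cusp forms of weight `≤ 0` vanish. -/
theorem cuspForm_eq_zero_of_nonpos (hk : k ≤ 0) (f : CuspForm (CongruenceSubgroup.Gamma0 N) k) :
    f = 0 := by
  rcases lt_or_eq_of_le hk with hk | rfl
  · have h0 : (ModularFormClass.modularForm f : ModularForm (CongruenceSubgroup.Gamma0 N) k) = 0 :=
      ModularForm.isZero_of_neg_weight hk _
    ext z
    have := congrArg (fun F : ModularForm (CongruenceSubgroup.Gamma0 N) k => F z) h0
    simpa using this
  · obtain ⟨c, hc⟩ := ModularForm.eq_const_of_weight_zero
      (ModularFormClass.modularForm f : ModularForm (CongruenceSubgroup.Gamma0 N) 0)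
    have hzero : IsZeroAtImInfty (f : ℍ → ℂ) := CuspFormClass.zero_at_infty f
    have hfc : (f : ℍ → ℂ) = Function.const ℍ c := by
      rw [← hc]; rfl
    have hc0 : c = 0 := by
      rw [hfc] at hzero
      have h1 : Filter.Tendsto (Function.const ℍ c) atImInfty (nhds 0) := hzero
      have h2 : Filter.Tendsto (Function.const ℍ c) atImInfty (nhds c) := tendsto_const_nhds
      exact tendsto_nhds_unique h2 h1
    ext z
    rw [hfc, hc0]; rfl

theorem intLattice_moduleFinite : Module.Finite ℤ ↥(CuspForm.intLattice N k) :=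
  Module.Finite.iff_fg.mpr (CuspForm.intLattice_fg N k)

omit [NeZero N] in
theorem isAddTorsionFree_cuspForm :
    IsAddTorsionFree (CuspForm (CongruenceSubgroup.Gamma0 N) k) :=
  .of_isTorsionFree ℂ _

theorem intLattice_moduleFree : Module.Free ℤ ↥(CuspForm.intLattice N k) := by
  haveI := intLattice_moduleFinite N k
  haveI := isAddTorsionFree_cuspForm N k
  exact Module.free_of_finite_type_torsion_free'

/-- Restriction of a Hecke operator to the integral lattice. -/
noncomputable def latticeRestrict (hk : 1 ≤ k) :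
    ↥(CuspForm.heckeAlgebra N k S) →ₗ[ℤ] Module.End ℤ ↥(CuspForm.intLattice N k) where
  toFun t := LinearMap.restrict
    ((t : Module.End ℂ (CuspForm (CongruenceSubgroup.Gamma0 N) k)).restrictScalars ℤ)
    (fun _f hf => CuspForm.mem_intLattice_of_mem_heckeAlgebra hk t.2 hf)
  map_add' _ _ := LinearMap.ext fun _ => Subtype.ext rfl
  map_smul' _ _ := LinearMap.ext fun _ => Subtype.ext rfl

theorem latticeRestrict_injective (hk : 1 ≤ k) : Function.Injective (latticeRestrict N k S hk) := by
  intro t t' h
  apply Subtype.ext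
  have hint : Submodule.span ℂ
      ((CuspForm.intLattice N k : Submodule ℤ (CuspForm (CongruenceSubgroup.Gamma0 N) k)) :
        Set (CuspForm (CongruenceSubgroup.Gamma0 N) k)) = ⊤ :=
    hasIntegralStructure N k
  refine LinearMap.ext_on hint fun f hf => ?_
  exact congrArg Subtype.val (LinearMap.congr_fun h ⟨f, hf⟩)

end HeckeFin

open HeckeFin in
theorem heckeAlgebra_moduleFinite (N : ℕ) [NeZero N] (k : ℤ) (S : Set ℕ) :
    Module.Finite ℤ (CuspForm.heckeAlgebra N k S) := by
  rcases le_or_gt k 0 with hk | hk
  · haveI : Subsingleton (CuspForm (CongruenceSubgroup.Gamma0 N) k) :=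
      ⟨fun f g => by rw [cuspForm_eq_zero_of_nonpos N k hk f, cuspForm_eq_zero_of_nonpos N k hk g]⟩
    haveI : Subsingleton (Module.End ℂ (CuspForm (CongruenceSubgroup.Gamma0 N) k)) :=
      ⟨fun a b => LinearMap.ext fun x => Subsingleton.elim _ _⟩
    haveI : Subsingleton ↥(CuspForm.heckeAlgebra N k S) :=
      ⟨fun a b => Subtype.ext (Subsingleton.elim _ _)⟩
    infer_instance
  · have hk1 : 1 ≤ k := hk
    haveI := intLattice_moduleFinite N k
    haveI := intLattice_moduleFree N k
    exact Module.Finite.of_injective (latticeRestrict N k S hk1) (latticeRestrict_injective N k S hk1)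

end Fermat.Agent.S23
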