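import Mathlib
import Fermat.Prelude.Def_CuspForm_HeckeAlgebra
import Fermat.Prelude.Def_CuspForm_IntegralStructure
import Fermat.Prelude.Thm_CuspForm_intLattice_fg
import Fermat.Prelude.Thm_CuspForm_mem_intLattice_of_mem_heckeAlgebra
import Fermat.Agent.S22.Assembly
import Fermat.Agent.S22.LowWeight

set_option autoImplicit false

namespace Fermat.Agent.S23

/-- Abstract finiteness lemma (lattice in the space itself): a `ℤ`-submodule `A` of `End_ℂ V`
which stabilises a finitely generated `ℤ`-submodule `L` of `V` spanning `V` over `ℂ` is a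
finitely generated `ℤ`-module. -/
theorem fg_of_stabilizes_spanning_lattice {V : Type*} [AddCommGroup V] [Module ℂ V]
    (L : Submodule ℤ V) (hL : L.FG)
    (hspan : Submodule.span ℂ (L : Set V) = ⊤)
    (A : Submodule ℤ (Module.End ℂ V))
    (hA : ∀ T ∈ A, ∀ f ∈ L, T f ∈ L) : A.FG := by
  classical
  have : Module.Finite ℤ L := Module.Finite.iff_fg.mpr hL
  obtain ⟨s, hs⟩ := hL
  -- the evaluation map A → (s → L)
  let ev : A →ₗ[ℤ] (s → L) :=
    { toFun := fun T i => ⟨(T : Module.End ℂ V) (i : V),
        hA T T.2 i (hs ▸ Submodule.subset_span i.2)⟩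
      map_add' := by
        intro T T'
        funext i
        apply Subtype.ext
        simp
      map_smul' := by
        intro n T
        funext i
        apply Subtype.ext
        simp }
  have hinj : Function.Injective ev := by
    rw [← LinearMap.ker_eq_bot, Submodule.eq_bot_iff]
    intro T hT
    apply Subtype.ext
    -- T vanishes on s, hence on L, hence on span_ℂ L = ⊤
    have hTs : ∀ i ∈ s, (T : Module.End ℂ V) i = 0 := by
      intro i hi
      have := congrFun (LinearMap.mem_ker.mp hT) ⟨i, hi⟩
      exact congrArg Subtype.val this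
    have hTL : ∀ f ∈ L, (T : Module.End ℂ V) f = 0 := by
      intro f hf
      rw [← hs] at hf
      induction hf using Submodule.span_induction with
      | mem x hx => exact hTs x hx
      | zero => simp
      | add x y _ _ hx hy => rw [map_add, hx, hy, add_zero]
      | smul n x _ hx =>
        rw [← Int.cast_smul_eq_zsmul ℂ n x, map_smul, hx, smul_zero]
    apply LinearMap.ext
    intro f
    have hf : f ∈ Submodule.span ℂ (L : Set V) := by rw [hspan]; trivial
    induction hf using Submodule.span_induction with
    | mem x hx => simpa using hTL x hx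
    | zero => simp
    | add x y _ _ hx hy => simp [hx, hy] at *
    | smul c x _ hx => simp [hx] at *
  have hfin : Module.Finite ℤ A := Module.Finite.of_injective ev hinj
  exact Module.Finite.iff_fg.mp hfin

end Fermat.Agent.S23

namespace Fermat.Agent.S23

open CuspForm

/-- If `S_k(Γ₀(N))` (`k ≥ 1`) has an integral structure, then every Hecke algebra
`heckeAlgebra N k S` is a finite `ℤ`-module. -/
theorem finite_heckeAlgebra_of_hasIntegralStructure (N : ℕ) [NeZero N] {k : ℤ} (hk : 1 ≤ k)
    (S : Set ℕ) (h : CuspForm.HasIntegralStructure N k) :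
    Module.Finite ℤ (CuspForm.heckeAlgebra N k S) := by
  have hfg : (Subalgebra.toSubmodule (CuspForm.heckeAlgebra N k S)).FG :=
    fg_of_stabilizes_spanning_lattice (CuspForm.intLattice N k) (CuspForm.intLattice_fg N k) h _
      (fun T hT f hf => CuspForm.mem_intLattice_of_mem_heckeAlgebra hk
        ((Subalgebra.mem_toSubmodule _).1 hT) hf)
  exact Module.Finite.iff_fg.mpr hfg

/-- Reduction of S22 to the integral structure in all weights `k ≥ 2`: if every
`S_k(Γ₀(N))`, `k ≥ 2`, has an integral structure, then every Hecke algebra (any weight, any `S`)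
is a finite `ℤ`-module. (Weights `k ≤ 1` have no nonzero cusp forms.) -/
theorem finite_heckeAlgebra_of_forall_hasIntegralStructure (N : ℕ) [NeZero N]
    (h : ∀ k : ℤ, 2 ≤ k → CuspForm.HasIntegralStructure N k) (k : ℤ) (S : Set ℕ) :
    Module.Finite ℤ (CuspForm.heckeAlgebra N k S) := by
  rcases le_or_gt k 1 with hk | hk
  · exact Fermat.Agent.S22.finite_heckeAlgebra_of_forall_eq_zero N k S
      (fun f => Fermat.Agent.S22.cuspForm_eq_zero_of_weight_le_one N hk f)
  · exact finite_heckeAlgebra_of_hasIntegralStructure N (by omega) S (h k (by omega))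

end Fermat.Agent.S23
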