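import Mathlib
import Fermat.Prelude.Def_CuspForm_HeckeAlgebra
import Fermat.Prelude.Def_CuspForm_IntegralStructure
import Fermat.Prelude.Thm_CuspForm_mem_intLattice_of_mem_heckeAlgebra
import Fermat.Prelude.Thm_CuspForm_intLattice_fg
import Fermat.Agent.S22.Assembly
import Fermat.Agent.S22.LowWeight

/-!
# Hecke algebras are finite over `ℤ` as soon as the cusp forms have an integral structure

Bridge from S23-type statements (`CuspForm.HasIntegralStructure N k`) to S22-type statements
(`Module.Finite ℤ (CuspForm.heckeAlgebra N k S)`), for weights `k ≥ 1`: the Hecke algebra acts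
faithfully on the finitely generated free `ℤ`-module `intLattice N k`.
-/

set_option autoImplicit false

noncomputable section

namespace Fermat.Agent.S23.HeckeFiniteOfIntegral

open CuspForm

variable (N : ℕ) [NeZero N] (k : ℤ) (S : Set ℕ)

/-- Restriction of a Hecke operator to the integral lattice. -/
def latticeRestrictK (hk : 1 ≤ k)
    (t : Module.End ℂ (CuspForm (CongruenceSubgroup.Gamma0 N) k))
    (ht : t ∈ heckeAlgebra N k S) : Module.End ℤ ↥(intLattice N k) :=
  LinearMap.restrict (t.restrictScalars ℤ)
    (fun _f hf => mem_intLattice_of_mem_heckeAlgebra hk ht hf)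

/-- The `ℤ`-linear restriction map from the Hecke algebra to endomorphisms of the lattice. -/
def latticeRestrictLin (hk : 1 ≤ k) :
    ↥(heckeAlgebra N k S) →ₗ[ℤ] Module.End ℤ ↥(intLattice N k) where
  toFun t := latticeRestrictK N k S hk t.1 t.2
  map_add' _ _ := LinearMap.ext fun _ => Subtype.ext rfl
  map_smul' _ _ := LinearMap.ext fun _ => Subtype.ext rfl

theorem latticeRestrictLin_injective (hk : 1 ≤ k) (hint : HasIntegralStructure N k) :
    Function.Injective (latticeRestrictLin N k S hk) := by
  rw [← LinearMap.ker_eq_bot, LinearMap.ker_eq_bot']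
  intro t h
  refine Subtype.ext (LinearMap.ext_on hint fun f hf => ?_)
  exact congrArg Subtype.val (LinearMap.congr_fun h ⟨f, hf⟩)

theorem intLattice_moduleFinite : Module.Finite ℤ ↥(intLattice N k) :=
  Module.Finite.iff_fg.mpr (intLattice_fg N k)

theorem intLattice_moduleFree : Module.Free ℤ ↥(intLattice N k) := by
  have := intLattice_moduleFinite N k
  have : IsAddTorsionFree (CuspForm (CongruenceSubgroup.Gamma0 N) k) := .of_isTorsionFree ℂ _
  exact Module.free_of_finite_type_torsion_free'

/-- **Bridge**: an integral structure on `S_k(Γ₀(N))`, `k ≥ 1`, makes every Hecke algebra a finite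
`ℤ`-module. -/
theorem finite_heckeAlgebra_of_hasIntegralStructure_of_one_le (hk : 1 ≤ k)
    (hint : HasIntegralStructure N k) : Module.Finite ℤ (heckeAlgebra N k S) := by
  have := intLattice_moduleFinite N k
  have := intLattice_moduleFree N k
  exact Module.Finite.of_injective (latticeRestrictLin N k S hk)
    (latticeRestrictLin_injective N k S hk hint)

/-- **Bridge, all weights**: if `S_k(Γ₀(N))` has an integral structure for every `k ≥ 2`, then
every Hecke algebra `heckeAlgebra N k S` (any weight `k : ℤ`, any `S`) is a finite `ℤ`-module.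
Weights `k ≤ 1` are trivial because there are no nonzero cusp forms. -/
theorem finite_heckeAlgebra_of_forall_hasIntegralStructure
    (hint : ∀ k : ℤ, 2 ≤ k → HasIntegralStructure N k) :
    Module.Finite ℤ (heckeAlgebra N k S) := by
  by_cases hk : 2 ≤ k
  · exact finite_heckeAlgebra_of_hasIntegralStructure_of_one_le N k S (by omega) (hint k hk)
  · exact Fermat.Agent.S22.finite_heckeAlgebra_of_forall_eq_zero N k S
      (Fermat.Agent.S22.cuspForm_eq_zero_of_weight_le_one N (by omega))

end Fermat.Agent.S23.HeckeFiniteOfIntegral
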