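import Mathlib

set_option autoImplicit false

open UpperHalfPlane ModularForm ModularFormClass MatrixGroups EisensteinSeries

namespace Fermat.Agent.S23

noncomputable section

/-- Coefficientwise action of a ring automorphism of `ℂ` on power series. -/
abbrev psConj (σ : ℂ ≃+* ℂ) : PowerSeries ℂ →+* PowerSeries ℂ :=
  PowerSeries.map (σ : ℂ →+* ℂ)

theorem coeff_psConj (σ : ℂ ≃+* ℂ) (p : PowerSeries ℂ) (n : ℕ) :
    (psConj σ p).coeff n = σ (p.coeff n) := by
  simp [psConj]

/-- Eisenstein series have rational `q`-expansions, hence are fixed by `psConj σ`. -/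
theorem psConj_qExpansion_E (σ : ℂ ≃+* ℂ) {k : ℕ} (hk : 3 ≤ k) (hk2 : Even k) :
    psConj σ (qExpansion 1 (E hk)) = qExpansion 1 (E hk) := by
  ext m
  rw [coeff_psConj, E_qExpansion_coeff hk hk2]
  split_ifs
  · simp
  · simp [map_ofNat]

/-- `E₄³ - E₆²` as a modular form of weight 12. -/
def E4CubeSubE6Sq : ModularForm 𝒮ℒ 12 :=
  ModularForm.mcast (by decide) (E₄.pow 3) - ModularForm.mcast (by decide) (E₆.pow 2)

theorem E4CubeSubE6Sq_apply (z : ℍ) :
    E4CubeSubE6Sq z = E₄ z ^ 3 - E₆ z ^ 2 := by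
  simp only [E4CubeSubE6Sq, coe_mcast, coe_pow, sub_apply, Pi.pow_apply]

theorem E4CubeSubE6Sq_qExpansion_eq :
    qExpansion 1 E4CubeSubE6Sq = qExpansion 1 E₄ ^ 3 - qExpansion 1 E₆ ^ 2 := by
  simp only [E4CubeSubE6Sq, FunLike.coe_sub, coe_mcast,
    ModularForm.qExpansion_sub one_pos one_mem_strictPeriods_SL,
    ModularForm.qExpansion_pow one_pos one_mem_strictPeriods_SL]

theorem discriminant_eq_smul_E4CubeSubE6Sq :
    (CuspForm.discriminant : ℍ → ℂ) = ((1 / 1728 : ℂ) • E4CubeSubE6Sq : ModularForm 𝒮ℒ 12) := by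
  ext z
  rw [CuspForm.coe_discriminant, discriminant_eq_E₄_cube_sub_E₆_sq]
  simp only [ModularForm.smul_apply, E4CubeSubE6Sq_apply, smul_eq_mul]
  ring

theorem qExpansion_discriminant_eq :
    qExpansion 1 (CuspForm.discriminant : ℍ → ℂ) =
      (1 / 1728 : ℂ) • (qExpansion 1 E₄ ^ 3 - qExpansion 1 E₆ ^ 2) := by
  rw [discriminant_eq_smul_E4CubeSubE6Sq, FunLike.coe_smul,
    ModularForm.qExpansion_smul one_pos one_mem_strictPeriods_SL, E4CubeSubE6Sq_qExpansion_eq]

/-- The discriminant has a rational `q`-expansion. -/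
theorem psConj_qExpansion_discriminant (σ : ℂ ≃+* ℂ) :
    psConj σ (qExpansion 1 (CuspForm.discriminant : ℍ → ℂ)) =
      qExpansion 1 (CuspForm.discriminant : ℍ → ℂ) := by
  rw [qExpansion_discriminant_eq]
  have h4 := psConj_qExpansion_E σ (k := 4) (by norm_num) ⟨2, rfl⟩
  have h6 := psConj_qExpansion_E σ (k := 6) (by norm_num) ⟨3, rfl⟩
  have hs : ∀ p : PowerSeries ℂ, psConj σ ((1 / 1728 : ℂ) • p) = (1 / 1728 : ℂ) • psConj σ p := by
    intro p
    ext n
    simp [map_ofNat]
  rw [hs, map_sub, map_pow, map_pow]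
  rw [show psConj σ (qExpansion 1 (E₄ : ℍ → ℂ)) = qExpansion 1 (E₄ : ℍ → ℂ) from h4,
    show psConj σ (qExpansion 1 (E₆ : ℍ → ℂ)) = qExpansion 1 (E₆ : ℍ → ℂ) from h6]

theorem psConj_smul (σ : ℂ ≃+* ℂ) (c : ℂ) (p : PowerSeries ℂ) :
    psConj σ (c • p) = σ c • psConj σ p := by
  ext n
  simp

theorem levelOne_exists_conj_aux (σ : ℂ ≃+* ℂ) :
    ∀ (n : ℕ) (k : ℤ), k ≤ n → ∀ g : ModularForm 𝒮ℒ k,
      ∃ g' : ModularForm 𝒮ℒ k, qExpansion 1 g' = psConj σ (qExpansion 1 g) := by
  intro n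
  induction n using Nat.strong_induction_on with
  | _ n ih =>
  intro k hk g
  rcases lt_trichotomy k 0 with hneg | rfl | hpos
  · -- negative weight: `g = 0`
    have hg : g = 0 := rank_zero_iff_forall_zero.mp (levelOne_neg_weight_rank_zero hneg) g
    subst hg
    exact ⟨0, by simp [qExpansion_zero]⟩
  · -- weight zero: constants
    obtain ⟨c, hc⟩ := levelOne_weight_zero_const g
    refine ⟨σ c • (1 : ModularForm 𝒮ℒ 0), ?_⟩
    have hg : (g : ℍ → ℂ) = ((c • (1 : ModularForm 𝒮ℒ 0) : ModularForm 𝒮ℒ 0) : ℍ → ℂ) := by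
      ext z
      simp [hc]
    rw [hg, FunLike.coe_smul, FunLike.coe_smul,
      ModularForm.qExpansion_smul one_pos one_mem_strictPeriods_SL,
      ModularForm.qExpansion_smul one_pos one_mem_strictPeriods_SL,
      ModularForm.qExpansion_one, psConj_smul, map_one]
  · by_cases hodd : Odd k
    · have hg : g = 0 := levelOne_odd_weight_eq_zero hodd g
      subst hg
      exact ⟨0, by simp [qExpansion_zero]⟩
    · have heven : Even k := Int.not_odd_iff_even.mp hodd
      by_cases h2 : k = 2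
      · subst h2
        have hg : g = 0 := rank_zero_iff_forall_zero.mp levelOne_weight_two_rank_zero g
        subst hg
        exact ⟨0, by simp [qExpansion_zero]⟩
      · obtain ⟨m, rfl⟩ : ∃ m : ℕ, k = m := ⟨k.toNat, (Int.toNat_of_nonneg hpos.le).symm⟩
        have hm2 : Even m := by exact_mod_cast heven
        have hm3 : 3 ≤ m := by
          obtain ⟨r, hr⟩ := hm2
          have : m ≠ 2 := by
            intro h
            apply h2
            exact_mod_cast h
          have : 0 < m := by exact_mod_cast hpos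
          omega
        have hmn : m ≤ n := by exact_mod_cast hk
        obtain ⟨a0, ha0⟩ : ∃ a0 : ℂ, a0 = (qExpansion 1 g).coeff 0 := ⟨_, rfl⟩
        have hcusp0 : IsCuspForm (g - (qExpansion 1 g).coeff 0 • E hm3) :=
          sub_smul_isCuspForm g (E hm3) (E_qExpansion_coeff_zero hm3 hm2)
        rw [← ha0] at hcusp0
        obtain ⟨f0, hf0⟩ : ∃ f0 : ModularForm 𝒮ℒ m, f0 = g - a0 • E hm3 := ⟨_, rfl⟩
        rw [← hf0] at hcusp0
        have hcusp : (qExpansion 1 f0).coeff 0 = 0 :=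
          (isCuspForm_iff_coeffZero_eq_zero f0).mp hcusp0
        obtain ⟨h, hh⟩ : ∃ h : ModularForm 𝒮ℒ ((m : ℤ) - 12),
          h = CuspForm.discriminantEquiv (toCuspForm f0 hcusp) := ⟨_, rfl⟩
        obtain ⟨h', hh'⟩ := ih (n - 1) (by omega) ((m : ℤ) - 12) (by omega) h
        refine ⟨σ a0 • E hm3 + CuspForm.toModularFormₗ (CuspForm.ofMulDiscriminant h'), ?_⟩
        have hfun : ((CuspForm.toModularFormₗ (CuspForm.ofMulDiscriminant h') :
            ModularForm 𝒮ℒ m) : ℍ → ℂ) = (CuspForm.discriminant : ℍ → ℂ) * (h' : ℍ → ℂ) := by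
          ext z
          simp [CuspForm.coe_discriminant]
        have hg : g = a0 • E hm3 + f0 := by rw [hf0]; abel
        have hqf0 : qExpansion 1 f0 =
            qExpansion 1 (CuspForm.discriminant : ℍ → ℂ) * qExpansion 1 h := by
          rw [hh]
          exact qExpansion_eq_qExpansion_discriminant_mul f0 hcusp
        rw [FunLike.coe_add, ModularForm.qExpansion_add one_pos one_mem_strictPeriods_SL,
          FunLike.coe_smul, ModularForm.qExpansion_smul one_pos one_mem_strictPeriods_SL,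
          hfun, ModularForm.qExpansion_mul_coe one_pos one_mem_strictPeriods_SL, hh']
        conv_rhs => rw [hg]
        rw [FunLike.coe_add, ModularForm.qExpansion_add one_pos one_mem_strictPeriods_SL,
          FunLike.coe_smul, ModularForm.qExpansion_smul one_pos one_mem_strictPeriods_SL,
          hqf0, map_add, psConj_smul, map_mul, psConj_qExpansion_E σ hm3 hm2,
          psConj_qExpansion_discriminant]

/-- **Level one modular forms are stable under `Aut(ℂ)` acting on `q`-expansions.** -/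
theorem levelOne_exists_conj (σ : ℂ ≃+* ℂ) (k : ℤ) (g : ModularForm 𝒮ℒ k) :
    ∃ g' : ModularForm 𝒮ℒ k,
      qExpansion 1 g' = PowerSeries.map (σ : ℂ →+* ℂ) (qExpansion 1 g) :=
  levelOne_exists_conj_aux σ k.toNat k (Int.self_le_toNat k) g

/-- Cusp form version. -/
theorem levelOne_cuspForm_exists_conj (σ : ℂ ≃+* ℂ) (k : ℤ) (g : CuspForm 𝒮ℒ k) :
    ∃ g' : CuspForm 𝒮ℒ k,
      qExpansion 1 g' = PowerSeries.map (σ : ℂ →+* ℂ) (qExpansion 1 g) := by
  obtain ⟨g', hg'⟩ := levelOne_exists_conj σ k (CuspForm.toModularFormₗ g)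
  have h0 : (qExpansion 1 g').coeff 0 = 0 := by
    rw [hg', PowerSeries.coeff_map]
    have : (qExpansion 1 (CuspForm.toModularFormₗ g)).coeff 0 = 0 :=
      (isCuspForm_iff_coeffZero_eq_zero _).mp (CuspForm.isCuspForm_toModularFormₗ g)
    rw [this, map_zero]
  exact ⟨toCuspForm g' h0, hg'⟩

end

end Fermat.Agent.S23
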