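import Mathlib.NumberTheory.ModularForms.LevelOne.GradedRing
import Mathlib.NumberTheory.ModularForms.LevelOne.DimensionFormula
import Mathlib.NumberTheory.ModularForms.EisensteinSeries.QExpansion

set_option autoImplicit false

namespace Fermat.Agent.S23.LevelOneRational

open UpperHalfPlane ModularForm ModularFormClass MatrixGroups EisensteinSeries

/-- The subring of power series over `ℂ` with rational coefficients. -/
noncomputable def ratSeries : Subring (PowerSeries ℂ) :=
  (PowerSeries.map (algebraMap ℚ ℂ)).range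

theorem mem_ratSeries_iff {p : PowerSeries ℂ} :
    p ∈ ratSeries ↔ ∀ n : ℕ, ∃ r : ℚ, p.coeff n = (r : ℂ) := by
  constructor
  · rintro ⟨q, rfl⟩ n
    exact ⟨q.coeff n, by simp⟩
  · intro h
    choose r hr using h
    refine ⟨PowerSeries.mk r, ?_⟩
    ext n
    simp [hr n]

/-- A function on the upper half plane has rational `q`-expansion (for the period `1`). -/
def HasRatQExp (f : ℍ → ℂ) : Prop := qExpansion 1 f ∈ ratSeries

theorem hasRatQExp_iff {f : ℍ → ℂ} :
    HasRatQExp f ↔ ∀ n : ℕ, ∃ r : ℚ, (qExpansion 1 f).coeff n = (r : ℂ) :=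
  mem_ratSeries_iff

theorem ratCast_smul_mem_ratSeries {p : PowerSeries ℂ} (hp : p ∈ ratSeries) (r : ℚ) :
    (r : ℂ) • p ∈ ratSeries := by
  rw [mem_ratSeries_iff] at hp ⊢
  intro n
  obtain ⟨s, hs⟩ := hp n
  exact ⟨r * s, by simp [hs]⟩

theorem hasRatQExp_E {k : ℕ} (hk : 3 ≤ k) (hk2 : Even k) : HasRatQExp (E hk) := by
  rw [hasRatQExp_iff]
  intro m
  rw [E_qExpansion_coeff hk hk2 m]
  split_ifs
  · exact ⟨1, by simp⟩
  · exact ⟨-(2 * k / bernoulli k) * (ArithmeticFunction.sigma (k - 1) m : ℚ), by push_cast; ring⟩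

/-- `E₄³ - E₆²` as a modular form of weight 12. -/
noncomputable def e4CubeSubE6Sq : ModularForm 𝒮ℒ 12 :=
  ModularForm.mcast (by decide) (E₄.pow 3) - ModularForm.mcast (by decide) (E₆.pow 2)

theorem e4CubeSubE6Sq_apply (z : ℍ) : e4CubeSubE6Sq z = E₄ z ^ 3 - E₆ z ^ 2 := by
  simp only [e4CubeSubE6Sq, coe_mcast, coe_pow, sub_apply, Pi.pow_apply]

theorem qExpansion_e4CubeSubE6Sq :
    qExpansion 1 e4CubeSubE6Sq = qExpansion 1 E₄ ^ 3 - qExpansion 1 E₆ ^ 2 := by
  simp only [e4CubeSubE6Sq, FunLike.coe_sub, coe_mcast,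
    ModularForm.qExpansion_sub one_pos one_mem_strictPeriods_SL,
    ModularForm.qExpansion_pow one_pos one_mem_strictPeriods_SL]

theorem hasRatQExp_discriminant : HasRatQExp ModularForm.discriminant := by
  have h1 : (ModularForm.discriminant : ℍ → ℂ) = ⇑(((1 / 1728 : ℚ) : ℂ) • e4CubeSubE6Sq) := by
    funext z
    rw [discriminant_eq_E₄_cube_sub_E₆_sq z]
    change _ = ((1 / 1728 : ℚ) : ℂ) * e4CubeSubE6Sq z
    rw [e4CubeSubE6Sq_apply]
    push_cast
    ring
  unfold HasRatQExp
  rw [h1, FunLike.coe_smul,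
    ModularForm.qExpansion_smul one_pos one_mem_strictPeriods_SL, qExpansion_e4CubeSubE6Sq]
  refine ratCast_smul_mem_ratSeries ?_ _
  exact ratSeries.sub_mem (ratSeries.pow_mem (hasRatQExp_E _ ⟨2, rfl⟩) 3)
    (ratSeries.pow_mem (hasRatQExp_E _ ⟨3, rfl⟩) 2)

/-- The set of level one modular forms of weight `k` with rational `q`-expansion. -/
def ratForms (k : ℤ) : Set (ModularForm 𝒮ℒ k) := {g | HasRatQExp g}

/-- Multiplication by the discriminant, as a linear map on level one modular forms. -/
noncomputable def mulDiscriminantₗ (k : ℤ) : ModularForm 𝒮ℒ (k - 12) →ₗ[ℂ] ModularForm 𝒮ℒ k :=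
  CuspForm.toModularFormₗ ∘ₗ (CuspForm.discriminantEquiv (k := k)).symm.toLinearMap

theorem mulDiscriminantₗ_apply (k : ℤ) (f : ModularForm 𝒮ℒ (k - 12)) (z : ℍ) :
    mulDiscriminantₗ k f z = ModularForm.discriminant z * f z := rfl

theorem hasRatQExp_mulDiscriminantₗ (k : ℤ) {f : ModularForm 𝒮ℒ (k - 12)} (hf : HasRatQExp f) :
    HasRatQExp (mulDiscriminantₗ k f) := by
  have h1 : (⇑(mulDiscriminantₗ k f) : ℍ → ℂ) = ⇑CuspForm.discriminant * ⇑f := by
    funext z
    rfl
  unfold HasRatQExp
  rw [h1, ModularForm.qExpansion_mul_coe one_pos one_mem_strictPeriods_SL]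
  exact ratSeries.mul_mem hasRatQExp_discriminant hf

theorem mem_span_ratForms_aux :
    ∀ (n : ℕ) (k : ℤ), k < n → ∀ g : ModularForm 𝒮ℒ k, g ∈ Submodule.span ℂ (ratForms k) := by
  intro n
  induction n using Nat.strong_induction_on with
  | _ n ih =>
    intro k hkn g
    have hzero : ∀ g : ModularForm 𝒮ℒ k, (⇑g : ℍ → ℂ) = 0 → g ∈ Submodule.span ℂ (ratForms k) := by
      intro g hg
      have : g = 0 := DFunLike.coe_injective hg
      rw [this]
      exact Submodule.zero_mem _
    rcases lt_trichotomy k 0 with hk | hk | hk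
    · exact hzero g (levelOne_neg_weight_eq_zero hk g)
    · subst hk
      obtain ⟨c, hc⟩ := levelOne_weight_zero_const g
      have hg : g = c • (1 : ModularForm 𝒮ℒ 0) := by
        ext z
        rw [hc]
        simp
      rw [hg]
      refine Submodule.smul_mem _ _ (Submodule.subset_span ?_)
      change HasRatQExp _
      unfold HasRatQExp
      rw [ModularForm.qExpansion_one]
      exact ratSeries.one_mem
    · obtain ⟨m, rfl⟩ : ∃ m : ℕ, k = (m : ℤ) := ⟨k.toNat, (Int.toNat_of_nonneg hk.le).symm⟩
      have hm0 : 0 < m := by exact_mod_cast hk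
      rcases Nat.even_or_odd m with hme | hmo
      · rcases Nat.lt_or_ge m 3 with hm3 | hm3
        · -- `m = 2`
          have hm2 : m = 2 := by
            obtain ⟨t, ht⟩ := hme
            omega
          subst hm2
          have := rank_zero_iff_forall_zero.mp levelOne_weight_two_rank_zero g
          rw [this]
          exact Submodule.zero_mem _
        · -- `m ≥ 4` even
          set a₀ : ℂ := (qExpansion 1 g).coeff 0 with ha₀
          set g' : ModularForm 𝒮ℒ (m : ℤ) := g - a₀ • E hm3 with hg'
          have h0 : (qExpansion 1 g').coeff 0 = 0 := by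
            rw [hg', FunLike.coe_sub, ModularForm.qExpansion_sub one_pos one_mem_strictPeriods_SL,
              FunLike.coe_smul, ModularForm.qExpansion_smul one_pos one_mem_strictPeriods_SL,
              map_sub, PowerSeries.coeff_smul, E_qExpansion_coeff_zero hm3 hme, smul_eq_mul,
              mul_one, sub_self]
          set c : CuspForm 𝒮ℒ (m : ℤ) := toCuspForm g' h0 with hc
          set h : ModularForm 𝒮ℒ ((m : ℤ) - 12) := CuspForm.discriminantEquiv c with hh
          have hlt : (m : ℤ) - 12 < ((m - 1 : ℕ) : ℤ) := by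
            have : ((m - 1 : ℕ) : ℤ) = (m : ℤ) - 1 := by
              rw [Nat.cast_sub hm0]; simp
            rw [this]; omega
          have hmn : m - 1 < n := by
            have : (m : ℤ) < n := hkn
            have : m < n := by exact_mod_cast this
            omega
          have hIH := ih (m - 1) hmn ((m : ℤ) - 12) hlt h
          have hLh : mulDiscriminantₗ (m : ℤ) h = g' := by
            ext z
            rw [mulDiscriminantₗ_apply, hh, ModularForm.discriminant_mul_discriminantEquiv_apply]
            rfl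
          have hg'mem : g' ∈ Submodule.span ℂ (ratForms (m : ℤ)) := by
            rw [← hLh]
            have := Submodule.apply_mem_span_image_of_mem_span (mulDiscriminantₗ (m : ℤ)) hIH
            refine Submodule.span_mono ?_ this
            rintro _ ⟨f, hf, rfl⟩
            exact hasRatQExp_mulDiscriminantₗ _ hf
          have hE : a₀ • E hm3 ∈ Submodule.span ℂ (ratForms (m : ℤ)) :=
            Submodule.smul_mem _ _ (Submodule.subset_span (hasRatQExp_E hm3 hme))
          have : g = g' + a₀ • E hm3 := by rw [hg']; abel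
          rw [this]
          exact Submodule.add_mem _ hg'mem hE
      · exact hzero g (congrArg DFunLike.coe
          (levelOne_odd_weight_eq_zero (by exact_mod_cast hmo) g))

/-- Level one modular forms are spanned by forms with rational `q`-expansion. -/
theorem span_ratForms_eq_top (k : ℤ) : Submodule.span ℂ (ratForms k) = ⊤ := by
  rw [eq_top_iff]
  intro g _
  exact mem_span_ratForms_aux (k.toNat + 1) k (by
    have := Int.self_le_toNat k
    push_cast
    omega) g

/-- Level one cusp forms are spanned by cusp forms with rational `q`-expansion. -/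
theorem span_ratCuspForms_eq_top (k : ℤ) :
    Submodule.span ℂ {g : CuspForm 𝒮ℒ k | HasRatQExp g} = ⊤ := by
  rw [eq_top_iff]
  intro g _
  have hh : CuspForm.discriminantEquiv g ∈ Submodule.span ℂ (ratForms (k - 12)) := by
    rw [span_ratForms_eq_top]; trivial
  have := Submodule.apply_mem_span_image_of_mem_span
    (CuspForm.discriminantEquiv (k := k)).symm.toLinearMap hh
  rw [LinearEquiv.coe_coe, LinearEquiv.symm_apply_apply] at this
  refine Submodule.span_mono ?_ this
  rintro _ ⟨f, hf, rfl⟩
  exact hasRatQExp_mulDiscriminantₗ k hf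

/-- **Level one is defined over `ℚ`**: for a ring automorphism `s` of `ℂ` (indeed any ring
endomorphism) and a level one modular form `g`, there is a level one modular form of the same
weight whose `q`-expansion is obtained by applying `s` to the coefficients. -/
theorem exists_conj_modularForm (k : ℤ) (s : ℂ →+* ℂ) (g : ModularForm 𝒮ℒ k) :
    ∃ g' : ModularForm 𝒮ℒ k,
      ∀ n : ℕ, (qExpansion 1 g').coeff n = s ((qExpansion 1 g).coeff n) := by
  have hg : g ∈ Submodule.span ℂ (ratForms k) := by
    rw [span_ratForms_eq_top]; trivial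
  induction hg using Submodule.span_induction with
  | mem f hf =>
    refine ⟨f, fun n => ?_⟩
    obtain ⟨r, hr⟩ := hasRatQExp_iff.mp hf n
    rw [hr, map_ratCast]
  | zero =>
    refine ⟨0, fun n => ?_⟩
    simp [qExpansion_zero]
  | add f₁ f₂ _ _ h₁ h₂ =>
    obtain ⟨f₁', h₁'⟩ := h₁
    obtain ⟨f₂', h₂'⟩ := h₂
    refine ⟨f₁' + f₂', fun n => ?_⟩
    rw [FunLike.coe_add, ModularForm.qExpansion_add one_pos one_mem_strictPeriods_SL,
      FunLike.coe_add, ModularForm.qExpansion_add one_pos one_mem_strictPeriods_SL,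
      map_add, map_add, map_add, h₁' n, h₂' n]
  | smul a f _ h =>
    obtain ⟨f', hf'⟩ := h
    refine ⟨s a • f', fun n => ?_⟩
    rw [FunLike.coe_smul, ModularForm.qExpansion_smul one_pos one_mem_strictPeriods_SL,
      FunLike.coe_smul, ModularForm.qExpansion_smul one_pos one_mem_strictPeriods_SL,
      PowerSeries.coeff_smul, PowerSeries.coeff_smul, smul_eq_mul, smul_eq_mul, map_mul, hf' n]

/-- Cusp form version of `exists_conj_modularForm`. -/
theorem exists_conj_cuspForm (k : ℤ) (s : ℂ →+* ℂ) (g : CuspForm 𝒮ℒ k) :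
    ∃ g' : CuspForm 𝒮ℒ k,
      ∀ n : ℕ, (qExpansion 1 g').coeff n = s ((qExpansion 1 g).coeff n) := by
  obtain ⟨f, hf⟩ := exists_conj_modularForm k s (CuspForm.toModularFormₗ g)
  have hg0 : (qExpansion 1 (CuspForm.toModularFormₗ g)).coeff 0 = 0 :=
    (isCuspForm_iff_coeffZero_eq_zero _).mp (CuspForm.isCuspForm_toModularFormₗ g)
  have h0 : (qExpansion 1 f).coeff 0 = 0 := by
    rw [hf 0, hg0, map_zero]
  exact ⟨toCuspForm f h0, fun n => hf n⟩

end Fermat.Agent.S23.LevelOneRational
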