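import Mathlib

/-!
# Piece (4) of the S23 route: a quotient `A / D` of modular forms satisfying a monic
polynomial relation with level-one cusp-form coefficients is a cusp form.
-/

namespace Fermat.Agent.S23

open scoped Topology

section RootBound

/-- Root bound: a root `x` of `X^n + Σ_{j<n} c_j X^(n-1-j)` satisfies `‖x‖ ≤ max 1 (Σ ‖c_j‖)`. -/
theorem norm_le_max_one_sum_of_root {n : ℕ} (c : Fin n → ℂ) (x : ℂ)
    (h : x ^ n + ∑ j : Fin n, c j * x ^ (n - 1 - (j : ℕ)) = 0) :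
    ‖x‖ ≤ max 1 (∑ j : Fin n, ‖c j‖) := by
  rcases le_or_gt ‖x‖ 1 with h1 | h1
  · exact le_max_of_le_left h1
  · refine le_max_of_le_right ?_
    rcases Nat.eq_zero_or_pos n with rfl | hn
    · simp at h
    have hx0 : 0 < ‖x‖ := lt_trans zero_lt_one h1
    have hxn : x ^ n = -∑ j : Fin n, c j * x ^ (n - 1 - (j : ℕ)) := eq_neg_of_add_eq_zero_left h
    have h2 : ‖x‖ ^ n ≤ (∑ j : Fin n, ‖c j‖) * ‖x‖ ^ (n - 1) := by
      calc ‖x‖ ^ n = ‖x ^ n‖ := (norm_pow _ _).symm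
        _ = ‖∑ j : Fin n, c j * x ^ (n - 1 - (j : ℕ))‖ := by rw [hxn, norm_neg]
        _ ≤ ∑ j : Fin n, ‖c j * x ^ (n - 1 - (j : ℕ))‖ := norm_sum_le _ _
        _ ≤ ∑ j : Fin n, ‖c j‖ * ‖x‖ ^ (n - 1) := by
            refine Finset.sum_le_sum fun j _ => ?_
            rw [norm_mul, norm_pow]
            refine mul_le_mul_of_nonneg_left ?_ (norm_nonneg _)
            exact pow_le_pow_right₀ h1.le (Nat.sub_le _ _)
        _ = (∑ j : Fin n, ‖c j‖) * ‖x‖ ^ (n - 1) := by rw [Finset.sum_mul]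
    have h3 : ‖x‖ ^ n = ‖x‖ * ‖x‖ ^ (n - 1) := by
      rw [← pow_succ', Nat.sub_add_cancel hn]
    rw [h3] at h2
    exact le_of_mul_le_mul_right h2 (pow_pos hx0 _)

/-- If moreover `‖x‖ ≤ 1` then `‖x‖ ^ n ≤ Σ ‖c_j‖`. -/
theorem norm_pow_le_sum_of_root {n : ℕ} (c : Fin n → ℂ) (x : ℂ)
    (h : x ^ n + ∑ j : Fin n, c j * x ^ (n - 1 - (j : ℕ)) = 0) (hx : ‖x‖ ≤ 1) :
    ‖x‖ ^ n ≤ ∑ j : Fin n, ‖c j‖ := by
  have hxn : x ^ n = -∑ j : Fin n, c j * x ^ (n - 1 - (j : ℕ)) := eq_neg_of_add_eq_zero_left h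
  calc ‖x‖ ^ n = ‖x ^ n‖ := (norm_pow _ _).symm
    _ = ‖∑ j : Fin n, c j * x ^ (n - 1 - (j : ℕ))‖ := by rw [hxn, norm_neg]
    _ ≤ ∑ j : Fin n, ‖c j * x ^ (n - 1 - (j : ℕ))‖ := norm_sum_le _ _
    _ ≤ ∑ j : Fin n, ‖c j‖ := by
        refine Finset.sum_le_sum fun j _ => ?_
        rw [norm_mul, norm_pow]
        exact mul_le_of_le_one_right (norm_nonneg _) (pow_le_one₀ (norm_nonneg _) hx)

end RootBound

section Removable

open Filter

/-- Dividing the relation by `d ^ n`. -/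
theorem relation_div {n : ℕ} (bz : Fin n → ℂ) (az dz : ℂ) (hdz : dz ≠ 0)
    (h : az ^ n + ∑ j : Fin n, bz j * az ^ (n - 1 - (j : ℕ)) * dz ^ ((j : ℕ) + 1) = 0) :
    (az / dz) ^ n + ∑ j : Fin n, bz j * (az / dz) ^ (n - 1 - (j : ℕ)) = 0 := by
  have hdn : dz ^ n ≠ 0 := pow_ne_zero _ hdz
  apply mul_left_cancel₀ hdn
  rw [mul_zero, ← h, mul_add, Finset.mul_sum]
  congr 1
  · rw [div_pow, mul_div_cancel₀ _ hdn]
  · refine Finset.sum_congr rfl fun j _ => ?_
    have hj : n = (n - 1 - (j : ℕ)) + ((j : ℕ) + 1) := by have := j.2; omega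
    have hm : dz ^ (n - 1 - (j : ℕ)) ≠ 0 := pow_ne_zero _ hdz
    rw [div_pow]
    nth_rewrite 1 [hj]
    rw [pow_add]
    field_simp

/-- Removable singularities for a quotient satisfying a monic relation with continuous
coefficients, on an open preconnected subset of `ℂ`. -/
theorem exists_differentiableOn_quotient {U : Set ℂ} (hU : IsOpen U) (hUc : IsPreconnected U)
    {a d : ℂ → ℂ} (ha : DifferentiableOn ℂ a U) (hd : DifferentiableOn ℂ d U)
    (hd0 : ∃ z ∈ U, d z ≠ 0) {n : ℕ} (b : Fin n → ℂ → ℂ) (hb : ∀ j, ContinuousOn (b j) U)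
    (heq : ∀ z ∈ U,
      a z ^ n + ∑ j : Fin n, b j z * a z ^ (n - 1 - (j : ℕ)) * d z ^ ((j : ℕ) + 1) = 0) :
    ∃ F : ℂ → ℂ, DifferentiableOn ℂ F U ∧ (∀ z ∈ U, F z * d z = a z) ∧
      ∀ z ∈ U, F z ^ n + ∑ j : Fin n, b j z * F z ^ (n - 1 - (j : ℕ)) = 0 := by
  classical
  have hdan : AnalyticOnNhd ℂ d U := hd.analyticOnNhd hU
  -- zeros of `d` are isolated
  have hiso : ∀ z₀ ∈ U, ∀ᶠ z in 𝓝[≠] z₀, d z ≠ 0 := by
    intro z₀ hz₀
    rcases (hdan z₀ hz₀).eventually_eq_zero_or_eventually_ne_zero with h | h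
    · exfalso
      obtain ⟨z, hz, hdz⟩ := hd0
      exact hdz (hdan.eqOn_zero_of_preconnected_of_eventuallyEq_zero hUc hz₀ h hz)
    · exact h
  set φ : ℂ → ℂ := fun z => a z / d z with hφ
  have key : ∀ z ∈ U, d z ≠ 0 →
      φ z ^ n + ∑ j : Fin n, b j z * φ z ^ (n - 1 - (j : ℕ)) = 0 := fun z hz hdz =>
    relation_div (fun j => b j z) (a z) (d z) hdz (heq z hz)
  have hφdiff : ∀ z ∈ U, d z ≠ 0 → DifferentiableAt ℂ φ z := fun z hz hdz =>
    ((ha z hz).differentiableAt (hU.mem_nhds hz)).div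
      ((hd z hz).differentiableAt (hU.mem_nhds hz)) hdz
  set F : ℂ → ℂ := fun z => if d z = 0 then limUnder (𝓝[≠] z) φ else φ z with hF
  have hFφ : ∀ z, d z ≠ 0 → F z = φ z := fun z hz => by simp [hF, hz]
  -- differentiability of `F`
  have hFdiff : ∀ z₀ ∈ U, DifferentiableAt ℂ F z₀ := by
    intro z₀ hz₀
    have hdcont : ContinuousAt d z₀ := (hd.continuousOn.continuousAt (hU.mem_nhds hz₀))
    by_cases hdz₀ : d z₀ = 0
    · -- removable singularity
      set g : ℂ → ℝ := fun z => ∑ j : Fin n, ‖b j z‖ with hg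
      have hgcont : ContinuousAt g z₀ := by
        refine tendsto_finsetSum _ fun j _ => ?_
        exact ((hb j).continuousAt (hU.mem_nhds hz₀)).norm
      have h1 : ∀ᶠ z in 𝓝 z₀, g z < g z₀ + 1 :=
        hgcont.eventually (gt_mem_nhds (lt_add_one _))
      have h2 : ∀ᶠ z in 𝓝 z₀, z ≠ z₀ → d z ≠ 0 := by
        have := hiso z₀ hz₀
        rwa [eventually_nhdsWithin_iff] at this
      have h3 : ∀ᶠ z in 𝓝 z₀, z ∈ U := hU.mem_nhds hz₀
      set s : Set ℂ := {z | g z < g z₀ + 1 ∧ (z ≠ z₀ → d z ≠ 0) ∧ z ∈ U} with hs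
      have hs_nhds : s ∈ 𝓝 z₀ := by
        filter_upwards [h1, h2, h3] with z hz1 hz2 hz3 using ⟨hz1, hz2, hz3⟩
      have hdiff : DifferentiableOn ℂ φ (s \ {z₀}) := by
        rintro z ⟨⟨-, hz2, hz3⟩, hzne⟩
        exact (hφdiff z hz3 (hz2 hzne)).differentiableWithinAt
      have hbdd : BddAbove (norm ∘ φ '' (s \ {z₀})) := by
        refine ⟨max 1 (g z₀ + 1), ?_⟩
        rintro _ ⟨z, ⟨⟨hz1, hz2, hz3⟩, hzne⟩, rfl⟩
        have := norm_le_max_one_sum_of_root (fun j => b j z) (φ z) (key z hz3 (hz2 hzne))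
        exact this.trans (max_le_max le_rfl hz1.le)
      have hrem := Complex.differentiableOn_update_limUnder_of_bddAbove hs_nhds hdiff hbdd
      have hrem' : DifferentiableAt ℂ (Function.update φ z₀ (limUnder (𝓝[≠] z₀) φ)) z₀ :=
        hrem.differentiableAt hs_nhds
      refine hrem'.congr_of_eventuallyEq ?_
      filter_upwards [hs_nhds] with z hz
      by_cases hzz : z = z₀
      · subst hzz
        simp [hF, hdz₀]
      · rw [Function.update_of_ne hzz, hFφ z (hz.2.1 hzz)]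
    · have h1 : ∀ᶠ z in 𝓝 z₀, d z ≠ 0 := hdcont.eventually_ne hdz₀
      refine (hφdiff z₀ hz₀ hdz₀).congr_of_eventuallyEq ?_
      filter_upwards [h1] with z hz using hFφ z hz
  have hn : n ≠ 0 := by
    rintro rfl
    obtain ⟨z, hz, -⟩ := hd0
    simpa using heq z hz
  refine ⟨F, fun z hz => (hFdiff z hz).differentiableWithinAt, ?_, ?_⟩
  · intro z hz
    by_cases hdz : d z = 0
    · have := heq z hz
      rw [hdz] at this ⊢
      simp only [ne_eq, Nat.add_eq_zero_iff, one_ne_zero, and_false, not_false_eq_true, zero_pow,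
        mul_zero, Finset.sum_const_zero, add_zero] at this
      rw [mul_zero, (pow_eq_zero_iff hn).mp this]
    · rw [hFφ z hdz, hφ]
      exact div_mul_cancel₀ _ hdz
  · intro z₀ hz₀
    by_cases hdz₀ : d z₀ = 0
    · set R : ℂ → ℂ := fun z => F z ^ n + ∑ j : Fin n, b j z * F z ^ (n - 1 - (j : ℕ)) with hR
      have hRcont : ContinuousAt R z₀ := by
        have hFc : ContinuousAt F z₀ := (hFdiff z₀ hz₀).continuousAt
        refine (hFc.pow n).add (tendsto_finsetSum _ fun j _ => ?_)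
        exact ((hb j).continuousAt (hU.mem_nhds hz₀)).mul (hFc.pow _)
      have hR0 : ∀ᶠ z in 𝓝[≠] z₀, R z = 0 := by
        have h3 : ∀ᶠ z in 𝓝[≠] z₀, z ∈ U := nhdsWithin_le_nhds (hU.mem_nhds hz₀)
        filter_upwards [hiso z₀ hz₀, h3] with z hz hzU
        simp only [hR, hFφ z hz]
        exact key z hzU hz
      have h1 : Tendsto R (𝓝[≠] z₀) (𝓝 (R z₀)) := hRcont.tendsto.mono_left nhdsWithin_le_nhds
      have h2 : Tendsto R (𝓝[≠] z₀) (𝓝 0) := tendsto_const_nhds.congr' (hR0.mono fun z hz => hz.symm)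
      exact tendsto_nhds_unique h1 h2
    · simp only [hFφ z₀ hdz₀]
      exact key z₀ hz₀ hdz₀

end Removable

section UHP

open UpperHalfPlane
open scoped Manifold

/-- Removable singularities for a quotient on the upper half plane. -/
theorem exists_holo_quotient {A D : ℍ → ℂ} (hA : MDiff A) (hD : MDiff D) (hD0 : D ≠ 0) {n : ℕ}
    (b : Fin n → ℍ → ℂ) (hb : ∀ j, Continuous (b j))
    (heq : ∀ z, A z ^ n + ∑ j : Fin n, b j z * A z ^ (n - 1 - (j : ℕ)) * D z ^ ((j : ℕ) + 1) = 0) :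
    ∃ F : ℍ → ℂ, MDiff F ∧ (∀ z, F z * D z = A z) ∧
      ∀ z, F z ^ n + ∑ j : Fin n, b j z * F z ^ (n - 1 - (j : ℕ)) = 0 := by
  have hU : IsOpen {z : ℂ | 0 < z.im} := isOpen_upperHalfPlaneSet
  have hUc : IsPreconnected {z : ℂ | 0 < z.im} :=
    (Complex.isConnected_of_upperHalfPlane subset_rfl (by grind)).isPreconnected
  obtain ⟨z₁, hz₁⟩ : ∃ z, D z ≠ 0 := by
    by_contra h
    push Not at h
    exact hD0 (funext h)
  obtain ⟨F, hF1, hF2, hF3⟩ := exists_differentiableOn_quotient hU hUc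
    (mdifferentiable_iff.mp hA) (mdifferentiable_iff.mp hD)
    ⟨(z₁ : ℂ), z₁.im_pos, by simpa using hz₁⟩
    (fun j => b j ∘ ofComplex)
    (fun j => by
      intro z hz
      exact ((hb j).continuousAt.comp
        (mdifferentiableAt_ofComplex hz).continuousAt).continuousWithinAt)
    (fun z hz => by simpa using heq (ofComplex z))
  refine ⟨fun z => F (z : ℂ), ?_, fun z => ?_, fun z => ?_⟩
  · rw [mdifferentiable_iff]
    refine hF1.congr fun z hz => ?_
    simp [Function.comp_apply, ofComplex_apply_of_im_pos hz]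
  · simpa using hF2 (z : ℂ) z.im_pos
  · simpa using hF3 (z : ℂ) z.im_pos

/-- A function satisfying a monic relation whose coefficients all vanish at `i∞` vanishes
at `i∞`. -/
theorem isZeroAtImInfty_of_relation {F : ℍ → ℂ} {n : ℕ} (b : Fin n → ℍ → ℂ)
    (hb : ∀ j, IsZeroAtImInfty (b j))
    (heq : ∀ z, F z ^ n + ∑ j : Fin n, b j z * F z ^ (n - 1 - (j : ℕ)) = 0) :
    IsZeroAtImInfty F := by
  have hn : n ≠ 0 := by
    rintro rfl
    simpa using heq I
  have hg : Filter.Tendsto (fun z => ∑ j : Fin n, ‖b j z‖) atImInfty (𝓝 0) := by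
    have : Filter.Tendsto (fun z => ∑ j : Fin n, ‖b j z‖) atImInfty (𝓝 (∑ _j : Fin n, (0 : ℝ))) :=
      tendsto_finsetSum _ fun j _ => tendsto_zero_iff_norm_tendsto_zero.mp (hb j)
    simpa using this
  rw [IsZeroAtImInfty, Filter.ZeroAtFilter, NormedAddGroup.tendsto_nhds_zero]
  intro ε hε
  set ε' := min ε 1 with hε'
  have hε'pos : 0 < ε' := lt_min hε one_pos
  have h1 : ∀ᶠ z in atImInfty, (∑ j : Fin n, ‖b j z‖) < ε' ^ n :=
    hg.eventually (gt_mem_nhds (pow_pos hε'pos n))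
  filter_upwards [h1] with z hz
  have hlt1 : (∑ j : Fin n, ‖b j z‖) < 1 :=
    hz.trans_le (pow_le_one₀ hε'pos.le (min_le_right _ _))
  have hF1 : ‖F z‖ ≤ 1 := by
    have := norm_le_max_one_sum_of_root (fun j => b j z) (F z) (heq z)
    rwa [max_eq_left hlt1.le] at this
  have hFn : ‖F z‖ ^ n < ε' ^ n :=
    (norm_pow_le_sum_of_root (fun j => b j z) (F z) (heq z) hF1).trans_lt hz
  exact (lt_of_pow_lt_pow_left₀ n hε'pos.le hFn).trans_le (min_le_left _ _)

open scoped MatrixGroups ModularForm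

/-- The monic relation is preserved by slashing with an element of `SL(2, ℤ)`, when the
coefficients are slash-invariant of the appropriate weights. -/
theorem relation_slash {F : ℍ → ℂ} {k : ℤ} {n : ℕ} (b : Fin n → ℍ → ℂ) (g : SL(2, ℤ))
    (hb : ∀ j : Fin n, (b j) ∣[(((j : ℕ) + 1 : ℕ) : ℤ) * k] g = b j)
    (heq : ∀ z, F z ^ n + ∑ j : Fin n, b j z * F z ^ (n - 1 - (j : ℕ)) = 0) (z : ℍ) :
    (F ∣[k] g) z ^ n + ∑ j : Fin n, b j z * (F ∣[k] g) z ^ (n - 1 - (j : ℕ)) = 0 := by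
  have hδ : denom g z ≠ 0 := denom_ne_zero g z
  set δ := denom g z with hδdef
  have hbz : ∀ j : Fin n, b j z = b j (g • z) * δ ^ (-((((j : ℕ) + 1 : ℕ) : ℤ) * k)) := by
    intro j
    conv_lhs => rw [← hb j]
    rw [ModularForm.SL_slash_apply]
  have hFz : (F ∣[k] g) z = F (g • z) * δ ^ (-k) := ModularForm.SL_slash_apply ..
  have hmain : (F ∣[k] g) z ^ n + ∑ j : Fin n, b j z * (F ∣[k] g) z ^ (n - 1 - (j : ℕ)) =
      δ ^ (-(n : ℤ) * k) * (F (g • z) ^ n +
        ∑ j : Fin n, b j (g • z) * F (g • z) ^ (n - 1 - (j : ℕ))) := by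
    rw [mul_add, Finset.mul_sum, hFz]
    congr 1
    · rw [mul_pow, ← zpow_natCast (δ ^ (-k)) n, ← zpow_mul, mul_comm]
      congr 2
      ring
    · refine Finset.sum_congr rfl fun j _ => ?_
      rw [hbz j, mul_pow, ← zpow_natCast (δ ^ (-k)) (n - 1 - (j : ℕ)), ← zpow_mul]
      have hj : (j : ℕ) + 1 ≤ n := j.2
      have hexp : (-((((j : ℕ) + 1 : ℕ) : ℤ) * k)) + (-k * ((n - 1 - (j : ℕ) : ℕ) : ℤ)) =
          -(n : ℤ) * k := by
        have : ((n - 1 - (j : ℕ) : ℕ) : ℤ) = (n : ℤ) - 1 - (j : ℕ) := by omega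
        rw [this]
        push_cast
        ring
      rw [← hexp, zpow_add₀ hδ]
      ring
  rw [hmain, heq (g • z), mul_zero]

/-- **Piece (4).** If `A`, `D` are modular forms of weights `k + w`, `w` for an arithmetic
subgroup `Γ` of determinant one, `D ≠ 0`, and `A / D` formally satisfies a monic polynomial
whose coefficients are level-one cusp forms of weights `k, 2k, …, nk`, then `A / D` is a cusp
form of weight `k` for `Γ`. -/
theorem exists_cuspForm_mul_eq {Γ : Subgroup (GL (Fin 2) ℝ)} [Γ.IsArithmetic] [Γ.HasDetOne]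
    {k w : ℤ} (A : ModularForm Γ (k + w)) (D : ModularForm Γ w) (hD : D ≠ 0) {n : ℕ}
    (b : ∀ j : Fin n, CuspForm 𝒮ℒ ((((j : ℕ) + 1 : ℕ) : ℤ) * k))
    (heq : ∀ z, A z ^ n +
      ∑ j : Fin n, b j z * A z ^ (n - 1 - (j : ℕ)) * D z ^ ((j : ℕ) + 1) = 0) :
    ∃ F : CuspForm Γ k, ∀ z, F z * D z = A z := by
  have hD' : (D : ℍ → ℂ) ≠ 0 := fun h => hD (DFunLike.coe_injective (by simpa using h))
  obtain ⟨F, hFholo, hFD, hFrel⟩ := exists_holo_quotient A.holo' D.holo' hD'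
    (fun j => ⇑(b j)) (fun j => (b j).holo'.continuous) heq
  have hFDfun : F * (D : ℍ → ℂ) = (A : ℍ → ℂ) := funext hFD
  -- invariance
  have hinv : ∀ γ ∈ Γ, F ∣[k] γ = F := by
    intro γ hγ
    have h1 : (F * (D : ℍ → ℂ)) ∣[k + w] γ = (F ∣[k] γ) * (D : ℍ → ℂ) := by
      rw [ModularForm.mul_slash, SlashInvariantForm.slash_action_eqn D γ hγ]
      simp [Subgroup.HasDetOne.det_eq hγ]
    have h2 : (F * (D : ℍ → ℂ)) ∣[k + w] γ = F * (D : ℍ → ℂ) := by
      rw [hFDfun]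
      exact SlashInvariantForm.slash_action_eqn A γ hγ
    have h3 : (F ∣[k] γ - F) * (D : ℍ → ℂ) = 0 := by
      rw [sub_mul, ← h1, h2, sub_self]
    rcases (UpperHalfPlane.mul_eq_zero_iff ((hFholo.slash k γ).sub hFholo) D.holo').mp h3
      with h | h
    · exact sub_eq_zero.mp h
    · exact absurd h hD'
  refine ⟨{ toFun := F
            slash_action_eq' := hinv
            holo' := hFholo
            zero_at_cusps' := ?_ }, hFD⟩
  intro c hc
  rw [Subgroup.IsArithmetic.isCusp_iff_isCusp_SL2Z] at hc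
  rw [OnePoint.isZeroAt_iff_forall_SL2Z hc]
  intro g _
  refine isZeroAtImInfty_of_relation (fun j => ⇑(b j))
    (fun j => CuspFormClass.zero_at_infty (b j)) (fun z => ?_)
  refine relation_slash (fun j => ⇑(b j)) g (fun j => ?_) hFrel z
  rw [ModularForm.SL_slash]
  exact SlashInvariantForm.slash_action_eqn (b j) _ ⟨g, rfl⟩

end UHP

end Fermat.Agent.S23
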